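import Fermat.Agent.Kummer.Defs

/-!
# (A) First case via Sophie Germain's theorem

Case I of Fermat's Last Theorem via Sophie Germain's theorem (with Legendre's extension to a
general auxiliary prime), for the exponents 5, 7, 11, 13.  All names live in
`Fermat.Agent.Kummer`.  Main results:

* `sophieGermain_dvd` : the general theorem, in the form `a ^ p + b ^ p + c ^ p = 0 → p ∣ a * b * c`
  (no coprimality hypothesis needed);
* `sophieGermain` : the same in the interface shape `CaseIHolds p`;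
* `caseI_five`, `caseI_seven`, `caseI_eleven`, `caseI_thirteen` : `CaseIHolds p`;
* `caseI_five_dvd`, ... : `a ^ p + b ^ p = c ^ p → p ∣ a * b * c`.
-/

set_option autoImplicit false

namespace Fermat.Agent.Kummer

open Finset

/-- The cofactor `(y ^ p + z ^ p) / (y + z)` for odd `p`. -/
def sgPhi (p : ℕ) (y z : ℤ) : ℤ := ∑ i ∈ range p, y ^ i * (-z) ^ (p - 1 - i)

theorem sgPhi_mul (p : ℕ) (hp : Odd p) (y z : ℤ) : sgPhi p y z * (y + z) = y ^ p + z ^ p := by
  have h := (Commute.all y (-z)).geom_sum₂_mul p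
  rw [sub_neg_eq_add, hp.neg_pow, sub_neg_eq_add] at h
  exact h

/-- If `z = -y` in a commutative ring `R`, the cofactor is `p * y ^ (p - 1)`. -/
theorem sgPhi_cast_of_eq_neg {R : Type*} [CommRing R] (p : ℕ) (y z : ℤ)
    (h : (z : R) = -(y : R)) : ((sgPhi p y z : ℤ) : R) = (p : R) * (y : R) ^ (p - 1) := by
  unfold sgPhi
  push_cast
  rw [h, neg_neg]
  have : ∀ i ∈ range p, (y : R) ^ i * (y : R) ^ (p - 1 - i) = (y : R) ^ (p - 1) := by
    intro i hi
    rw [← pow_add]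
    congr 1
    have := mem_range.mp hi
    omega
  rw [sum_congr rfl this, sum_const, card_range, nsmul_eq_mul]

/-- If `x = 0` in a commutative ring `R` and `p` is odd, the cofactor `sgPhi p x y` is
`y ^ (p - 1)`. -/
theorem sgPhi_cast_of_eq_zero {R : Type*} [CommRing R] (p : ℕ) (hp : Odd p) (x y : ℤ)
    (h : (x : R) = 0) : ((sgPhi p x y : ℤ) : R) = (y : R) ^ (p - 1) := by
  unfold sgPhi
  push_cast
  rw [h]
  have hp0 : 0 < p := hp.pos
  rw [sum_eq_single 0]
  · rw [pow_zero, one_mul, Nat.sub_zero]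
    have : Even (p - 1) := by
      obtain ⟨k, hk⟩ := hp
      exact ⟨k, by omega⟩
    exact this.neg_pow _
  · intro i _ hi
    rw [zero_pow hi, zero_mul]
  · intro h0
    exact absurd (mem_range.mpr hp0) h0

/-- `y + z` divides `sgPhi p y z - p * y ^ (p - 1)`. -/
theorem add_dvd_sgPhi_sub (p : ℕ) (y z : ℤ) :
    y + z ∣ sgPhi p y z - (p : ℤ) * y ^ (p - 1) := by
  have hsum : (p : ℤ) * y ^ (p - 1) = ∑ i ∈ range p, y ^ i * y ^ (p - 1 - i) := by
    have : ∀ i ∈ range p, y ^ i * y ^ (p - 1 - i) = y ^ (p - 1) := by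
      intro i hi
      rw [← pow_add]
      congr 1
      have := mem_range.mp hi
      omega
    rw [sum_congr rfl this, sum_const, card_range, nsmul_eq_mul]
  unfold sgPhi
  rw [hsum, ← sum_sub_distrib]
  refine dvd_sum fun i _ => ?_
  rw [← mul_sub]
  refine Dvd.dvd.mul_left ?_ _
  have h1 : -z - y ∣ (-z) ^ (p - 1 - i) - y ^ (p - 1 - i) := sub_dvd_pow_sub_pow _ _ _
  have h2 : y + z ∣ -z - y := ⟨-1, by ring⟩
  exact h2.trans h1

/-- If `y, z` are coprime and the odd prime `p` does not divide `y + z`, then `y + z` and the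
cofactor `sgPhi p y z` are coprime. -/
theorem isCoprime_add_sgPhi {p : ℕ} (hp : p.Prime) {y z : ℤ} (hyz : IsCoprime y z)
    (hpyz : ¬ (p : ℤ) ∣ y + z) : IsCoprime (y + z) (sgPhi p y z) := by
  obtain ⟨k, hk⟩ := add_dvd_sgPhi_sub p y z
  have hk' : sgPhi p y z = (p : ℤ) * y ^ (p - 1) + (y + z) * k := by linarith
  rw [hk', IsCoprime.add_mul_left_right_iff]
  refine IsCoprime.mul_right ?_ (IsCoprime.pow_right ?_)
  · have hp' : Irreducible (p : ℤ) := (Nat.prime_iff_prime_int.mp hp).irreducible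
    exact (hp'.coprime_iff_not_dvd.mpr hpyz).symm
  · have h1 : IsCoprime (z + y * 1) y := IsCoprime.add_mul_left_left hyz.symm 1
    have h2 : z + y * 1 = y + z := by ring
    rwa [h2] at h1

/-- From `x ^ p + y ^ p + z ^ p = 0` with `y, z` coprime and `p ∤ x`: both `y + z` and the
cofactor are `p`-th powers. -/
theorem exists_pow_eq_of_sum_eq {p : ℕ} (hp : p.Prime) (hp2 : p ≠ 2) {x y z : ℤ}
    (h : x ^ p + y ^ p + z ^ p = 0) (hyz : IsCoprime y z) (hpx : ¬ (p : ℤ) ∣ x) :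
    (∃ a : ℤ, y + z = a ^ p) ∧ (∃ α : ℤ, sgPhi p y z = α ^ p) := by
  have hodd : Odd p := hp.odd_of_ne_two hp2
  have hmul : (y + z) * sgPhi p y z = (-x) ^ p := by
    rw [hodd.neg_pow, mul_comm, sgPhi_mul p hodd]
    linarith
  have hpyz : ¬ (p : ℤ) ∣ y + z := by
    intro hd
    apply hpx
    have h3 : (p : ℤ) ∣ (-x) ^ p := by
      rw [← hmul]
      exact Dvd.dvd.mul_right hd _
    have h4 := (Nat.prime_iff_prime_int.mp hp).dvd_of_dvd_pow h3
    exact (dvd_neg.mp h4)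
  have hcop := isCoprime_add_sgPhi hp hyz hpyz
  exact Int.eq_pow_of_mul_eq_pow_odd hcop hodd hmul

/-- Two integers that both vanish in `ZMod q` (`q` prime) are not coprime. -/
theorem not_isCoprime_of_cast_eq_zero {q : ℕ} [Fact q.Prime] {x y : ℤ}
    (hx : (x : ZMod q) = 0) (hy : (y : ZMod q) = 0) : ¬ IsCoprime x y := by
  rintro ⟨u, v, huv⟩
  have h := congrArg (Int.cast : ℤ → ZMod q) huv
  push_cast at h
  rw [hx, hy, mul_zero, mul_zero, add_zero] at h
  exact zero_ne_one h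

/-- Core of Sophie Germain's theorem: the case where the auxiliary prime `q` divides `x`. -/
theorem sophieGermain_core {p q : ℕ} (hp : p.Prime) (hp2 : p ≠ 2) [Fact q.Prime]
    (h1 : ∀ x y z : ZMod q, x ^ p + y ^ p + z ^ p = 0 → x * y * z = 0)
    (h2 : ∀ x : ZMod q, x ^ p ≠ (p : ZMod q))
    {x y z : ℤ} (h : x ^ p + y ^ p + z ^ p = 0)
    (hxy : IsCoprime x y) (hyz : IsCoprime y z) (hzx : IsCoprime z x)
    (hpx : ¬ (p : ℤ) ∣ x) (hpy : ¬ (p : ℤ) ∣ y) (hpz : ¬ (p : ℤ) ∣ z)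
    (hqx : (x : ZMod q) = 0) : False := by
  have hodd : Odd p := hp.odd_of_ne_two hp2
  obtain ⟨⟨a, ha⟩, ⟨α, hα⟩⟩ := exists_pow_eq_of_sum_eq hp hp2 h hyz hpx
  have h' : y ^ p + z ^ p + x ^ p = 0 := by linarith
  obtain ⟨⟨b, hb⟩, -⟩ := exists_pow_eq_of_sum_eq hp hp2 h' hzx hpy
  have h'' : z ^ p + x ^ p + y ^ p = 0 := by linarith
  obtain ⟨⟨c, hc⟩, ⟨γ, hγ⟩⟩ := exists_pow_eq_of_sum_eq hp hp2 h'' hxy hpz
  -- cast everything to `ZMod q`
  have haq : ((y : ZMod q) + z) = (a : ZMod q) ^ p := by exact_mod_cast congrArg (Int.cast : ℤ → ZMod q) ha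
  have hbq : ((z : ZMod q) + x) = (b : ZMod q) ^ p := by exact_mod_cast congrArg (Int.cast : ℤ → ZMod q) hb
  have hcq : ((x : ZMod q) + y) = (c : ZMod q) ^ p := by exact_mod_cast congrArg (Int.cast : ℤ → ZMod q) hc
  have hαq : ((sgPhi p y z : ℤ) : ZMod q) = (α : ZMod q) ^ p := by exact_mod_cast congrArg (Int.cast : ℤ → ZMod q) hα
  have hγq : ((sgPhi p x y : ℤ) : ZMod q) = (γ : ZMod q) ^ p := by exact_mod_cast congrArg (Int.cast : ℤ → ZMod q) hγ
  have hsum : (b : ZMod q) ^ p + (c : ZMod q) ^ p + (-(a : ZMod q)) ^ p = 0 := by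
    rw [hodd.neg_pow, ← haq, ← hbq, ← hcq, hqx]
    ring
  have hprod := h1 _ _ _ hsum
  have hyne : (y : ZMod q) ≠ 0 := fun hy => not_isCoprime_of_cast_eq_zero hqx hy hxy
  have hzne : (z : ZMod q) ≠ 0 := fun hz => not_isCoprime_of_cast_eq_zero hz hqx hzx
  rcases mul_eq_zero.mp hprod with hbc | ha0
  · rcases mul_eq_zero.mp hbc with hb0 | hc0
    · rw [hb0, zero_pow hp.ne_zero, hqx, add_zero] at hbq
      exact hzne hbq
    · rw [hc0, zero_pow hp.ne_zero, hqx, zero_add] at hcq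
      exact hyne hcq
  · have ha0' : (a : ZMod q) = 0 := neg_eq_zero.mp ha0
    rw [ha0', zero_pow hp.ne_zero] at haq
    have hz : ((z : ℤ) : ZMod q) = -((y : ℤ) : ZMod q) := by
      rw [eq_neg_iff_add_eq_zero, add_comm]; exact haq
    have e1 := sgPhi_cast_of_eq_neg (R := ZMod q) p y z hz
    have e2 := sgPhi_cast_of_eq_zero (R := ZMod q) p hodd x y hqx
    rw [hαq] at e1
    rw [hγq] at e2
    have hγne : (γ : ZMod q) ^ p ≠ 0 := by
      rw [e2]; exact pow_ne_zero _ hyne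
    apply h2 ((α : ZMod q) / (γ : ZMod q))
    rw [div_pow, e1, e2, mul_div_assoc, div_self (pow_ne_zero _ hyne), mul_one]

/-- Sophie Germain's theorem in the pairwise coprime case. -/
theorem sophieGermain_coprime {p q : ℕ} (hp : p.Prime) (hp2 : p ≠ 2) [Fact q.Prime]
    (h1 : ∀ x y z : ZMod q, x ^ p + y ^ p + z ^ p = 0 → x * y * z = 0)
    (h2 : ∀ x : ZMod q, x ^ p ≠ (p : ZMod q))
    {x y z : ℤ} (h : x ^ p + y ^ p + z ^ p = 0)
    (hxy : IsCoprime x y) (hyz : IsCoprime y z) (hzx : IsCoprime z x)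
    (hpx : ¬ (p : ℤ) ∣ x) (hpy : ¬ (p : ℤ) ∣ y) (hpz : ¬ (p : ℤ) ∣ z) : False := by
  have hq : (x : ZMod q) ^ p + (y : ZMod q) ^ p + (z : ZMod q) ^ p = 0 := by
    exact_mod_cast congrArg (Int.cast : ℤ → ZMod q) h
  rcases mul_eq_zero.mp (h1 _ _ _ hq) with hxy0 | hz0
  · rcases mul_eq_zero.mp hxy0 with hx0 | hy0
    · exact sophieGermain_core hp hp2 h1 h2 h hxy hyz hzx hpx hpy hpz hx0
    · exact sophieGermain_core hp hp2 h1 h2 (by linarith) hyz hzx hxy hpy hpz hpx hy0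
  · exact sophieGermain_core hp hp2 h1 h2 (by linarith) hzx hxy hyz hpz hpx hpy hz0

/-- From `a ^ p + b ^ p + c ^ p = 0` and `a, b` coprime we get `b, c` coprime. -/
theorem isCoprime_of_sum_eq {p : ℕ} (hp0 : 0 < p) {a b c : ℤ} (h : a ^ p + b ^ p + c ^ p = 0)
    (hab : IsCoprime a b) : IsCoprime b c := by
  rw [← IsCoprime.pow_right_iff hp0]
  have hc : c ^ p = -(a ^ p) + b * (-(b ^ (p - 1))) := by
    have : b * b ^ (p - 1) = b ^ p := by
      rw [← pow_succ']
      congr 1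
      omega
    linear_combination h + this
  rw [hc, IsCoprime.add_mul_left_right_iff]
  exact (hab.symm.pow_right).neg_right

/-- **Sophie Germain's theorem** (with Legendre's generalisation to an arbitrary auxiliary
prime `q`): if `q` is a prime such that a sum of three `p`-th powers vanishes mod `q` only if
one of them does, and `p` is not a `p`-th power mod `q`, then the first case of Fermat's Last
Theorem holds for the odd prime exponent `p`. -/
theorem sophieGermain_dvd {p q : ℕ} (hp : p.Prime) (hp2 : p ≠ 2) (hq : q.Prime)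
    (h1 : ∀ x y z : ZMod q, x ^ p + y ^ p + z ^ p = 0 → x * y * z = 0)
    (h2 : ∀ x : ZMod q, x ^ p ≠ (p : ZMod q))
    {a b c : ℤ} (h : a ^ p + b ^ p + c ^ p = 0) : (p : ℤ) ∣ a * b * c := by
  have : Fact q.Prime := ⟨hq⟩
  by_contra hnd
  have hp0 : 0 < p := hp.pos
  have ha0 : a ≠ 0 := by rintro rfl; exact hnd (by simp)
  -- divide out the gcd of `a` and `b`
  have hd0 : 0 < Int.gcd a b := Int.gcd_pos_of_ne_zero_left _ ha0
  obtain ⟨a', b', hcop, ha, hb⟩ := Int.exists_gcd_one hd0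
  set d : ℤ := (Int.gcd a b : ℤ) with hd
  have hdne : d ≠ 0 := by
    rw [hd]; exact_mod_cast hd0.ne'
  have hdc : d ∣ c := by
    rw [← Int.pow_dvd_pow_iff hp0.ne']
    have : c ^ p = -(d ^ p * (a' ^ p + b' ^ p)) := by
      rw [ha, hb] at h
      linear_combination h
    rw [this]
    exact (Dvd.intro _ rfl).neg_right
  obtain ⟨c', hc⟩ := hdc
  have h' : a' ^ p + b' ^ p + c' ^ p = 0 := by
    have : d ^ p * (a' ^ p + b' ^ p + c' ^ p) = 0 := by
      rw [ha, hb, hc] at h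
      linear_combination h
    exact (mul_eq_zero.mp this).resolve_left (pow_ne_zero _ hdne)
  have hab' : IsCoprime a' b' := Int.isCoprime_iff_gcd_eq_one.mpr hcop
  have hbc' : IsCoprime b' c' := isCoprime_of_sum_eq hp0 h' hab'
  have hca' : IsCoprime c' a' := isCoprime_of_sum_eq hp0 (by linarith) hbc'
  have hdvd : a' * b' * c' ∣ a * b * c := by
    rw [ha, hb, hc]
    exact ⟨d * d * d, by ring⟩
  have hpa : ¬ (p : ℤ) ∣ a' := fun hx => hnd (((hx.mul_right _).mul_right _).trans hdvd)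
  have hpb : ¬ (p : ℤ) ∣ b' := fun hx => hnd (((hx.mul_left _).mul_right _).trans hdvd)
  have hpc : ¬ (p : ℤ) ∣ c' := fun hx => hnd ((hx.mul_left _).trans hdvd)
  exact sophieGermain_coprime hp hp2 h1 h2 h' hab' hbc' hca' hpa hpb hpc

/-- First case of Fermat's Last Theorem for an odd prime exponent `p` admitting a Sophie
Germain auxiliary prime `q`, in the shape `a ^ p + b ^ p = c ^ p`. -/
theorem caseI_of_aux {p q : ℕ} (hp : p.Prime) (hp2 : p ≠ 2) (hq : q.Prime)
    (h1 : ∀ x y z : ZMod q, x ^ p + y ^ p + z ^ p = 0 → x * y * z = 0)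
    (h2 : ∀ x : ZMod q, x ^ p ≠ (p : ZMod q))
    {a b c : ℤ} (h : a ^ p + b ^ p = c ^ p) : (p : ℤ) ∣ a * b * c := by
  have hodd : Odd p := hp.odd_of_ne_two hp2
  have h' : a ^ p + b ^ p + (-c) ^ p = 0 := by
    rw [hodd.neg_pow]; linarith
  have := sophieGermain_dvd hp hp2 hq h1 h2 h'
  rwa [mul_neg, dvd_neg] at this

/-- Sophie Germain's theorem: if `q` is an auxiliary prime such that `x^p + y^p + z^p = 0` in
`ZMod q` forces `xyz = 0`, and `p` is not a `p`-th power in `ZMod q`, then the first case holds. -/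
theorem sophieGermain {p q : ℕ} (hp : p.Prime) (hp2 : p ≠ 2) (hq : q.Prime)
    (h1 : ∀ x y z : ZMod q, x ^ p + y ^ p + z ^ p = 0 → x = 0 ∨ y = 0 ∨ z = 0)
    (h2 : ∀ x : ZMod q, x ^ p ≠ (p : ZMod q)) : CaseIHolds p := by
  intro a b c _ hnd h
  refine hnd (caseI_of_aux hp hp2 hq (fun x y z hxyz => ?_) h2 h)
  rcases h1 x y z hxyz with rfl | rfl | rfl <;> ring

/-- Criterion for the first Sophie Germain condition from a finite list `S` of residues
containing all `p`-th powers. -/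
theorem sg_cond_of_finset {p q : ℕ} (hq : q.Prime) (hp : p ≠ 0) (S : Finset (ZMod q))
    (hS : ∀ x : ZMod q, x ^ p ∈ S)
    (hsum : ∀ u ∈ S, ∀ v ∈ S, ∀ w ∈ S, u + v + w = 0 → u = 0 ∨ v = 0 ∨ w = 0) :
    ∀ x y z : ZMod q, x ^ p + y ^ p + z ^ p = 0 → x * y * z = 0 := by
  have : Fact q.Prime := ⟨hq⟩
  intro x y z h
  rcases hsum _ (hS x) _ (hS y) _ (hS z) h with h0 | h0 | h0
  · rw [pow_eq_zero_iff hp] at h0; rw [h0]; ring
  · rw [pow_eq_zero_iff hp] at h0; rw [h0]; ring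
  · rw [pow_eq_zero_iff hp] at h0; rw [h0]; ring

theorem sg_cond_five : ∀ x y z : ZMod 11, x ^ 5 + y ^ 5 + z ^ 5 = 0 → x * y * z = 0 :=
  sg_cond_of_finset (by norm_num) (by norm_num) {0, 1, 10} (by decide) (by decide)

theorem sg_cond_five' : ∀ x : ZMod 11, x ^ 5 ≠ ((5 : ℕ) : ZMod 11) := by decide

theorem sg_cond_seven : ∀ x y z : ZMod 29, x ^ 7 + y ^ 7 + z ^ 7 = 0 → x * y * z = 0 :=
  sg_cond_of_finset (by norm_num) (by norm_num) {0, 1, 12, 17, 28} (by decide) (by decide)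

theorem sg_cond_seven' : ∀ x : ZMod 29, x ^ 7 ≠ ((7 : ℕ) : ZMod 29) := by decide

theorem sg_cond_eleven : ∀ x y z : ZMod 23, x ^ 11 + y ^ 11 + z ^ 11 = 0 → x * y * z = 0 :=
  sg_cond_of_finset (by norm_num) (by norm_num) {0, 1, 22} (by decide) (by decide)

theorem sg_cond_eleven' : ∀ x : ZMod 23, x ^ 11 ≠ ((11 : ℕ) : ZMod 23) := by decide

set_option maxRecDepth 100000 in
theorem sg_cond_thirteen : ∀ x y z : ZMod 53, x ^ 13 + y ^ 13 + z ^ 13 = 0 → x * y * z = 0 :=
  sg_cond_of_finset (by norm_num) (by norm_num) {0, 1, 23, 30, 52} (by decide) (by decide)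

set_option maxRecDepth 100000 in
theorem sg_cond_thirteen' : ∀ x : ZMod 53, x ^ 13 ≠ ((13 : ℕ) : ZMod 53) := by decide

/-- First case of Fermat's Last Theorem for exponent `5` (auxiliary prime `11`). -/
theorem caseI_five_dvd {a b c : ℤ} (h : a ^ 5 + b ^ 5 = c ^ 5) : (5 : ℤ) ∣ a * b * c := by
  exact_mod_cast caseI_of_aux (p := 5) (q := 11) (by norm_num) (by norm_num) (by norm_num)
    sg_cond_five sg_cond_five' h

/-- First case of Fermat's Last Theorem for exponent `7` (auxiliary prime `29`). -/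
theorem caseI_seven_dvd {a b c : ℤ} (h : a ^ 7 + b ^ 7 = c ^ 7) : (7 : ℤ) ∣ a * b * c := by
  exact_mod_cast caseI_of_aux (p := 7) (q := 29) (by norm_num) (by norm_num) (by norm_num)
    sg_cond_seven sg_cond_seven' h

/-- First case of Fermat's Last Theorem for exponent `11` (auxiliary prime `23`). -/
theorem caseI_eleven_dvd {a b c : ℤ} (h : a ^ 11 + b ^ 11 = c ^ 11) : (11 : ℤ) ∣ a * b * c := by
  exact_mod_cast caseI_of_aux (p := 11) (q := 23) (by norm_num) (by norm_num) (by norm_num)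
    sg_cond_eleven sg_cond_eleven' h

/-- First case of Fermat's Last Theorem for exponent `13` (auxiliary prime `53`). -/
theorem caseI_thirteen_dvd {a b c : ℤ} (h : a ^ 13 + b ^ 13 = c ^ 13) : (13 : ℤ) ∣ a * b * c := by
  exact_mod_cast caseI_of_aux (p := 13) (q := 53) (by norm_num) (by norm_num) (by norm_num)
    sg_cond_thirteen sg_cond_thirteen' h

theorem caseI_five : CaseIHolds 5 := fun _ _ _ _ hnd h => hnd (caseI_five_dvd h)

theorem caseI_seven : CaseIHolds 7 := fun _ _ _ _ hnd h => hnd (caseI_seven_dvd h)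

theorem caseI_eleven : CaseIHolds 11 := fun _ _ _ _ hnd h => hnd (caseI_eleven_dvd h)

theorem caseI_thirteen : CaseIHolds 13 := fun _ _ _ _ hnd h => hnd (caseI_thirteen_dvd h)

end Fermat.Agent.Kummer
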