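import Mathlib

/-!
# Congruences modulo `p` in the ring of integers of the `p`-th cyclotomic field

Pieces for step 5 of Kummer's descent (case II):

* `exists_int_dvd_pow_sub`: every `p`-th power is congruent to a rational integer modulo `p`;
* `natCast_dvd_of_pow_dvd`: `λ ^ p ∣ z → p ∣ z` where `λ = ζ - 1`;
* `exists_int_dvd_unit_sub`: if `λ ^ p ∣ ρ₁ ^ p + η * ρ₂ ^ p` and `λ ∤ ρ₂` then `η` is congruent to
  a rational integer modulo `p`.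
-/

set_option autoImplicit false

open NumberField IsCyclotomicExtension.Rat

namespace Fermat.Agent.Kummer.ModP

variable {p : ℕ} [hp : Fact p.Prime] {K : Type*} [Field K] [NumberField K]
  [hK : IsCyclotomicExtension {p} ℚ K] {ζ : K} (hζ : IsPrimitiveRoot ζ p)

include hζ in
/-- (K1) Every `p`-th power in `𝓞 K` is congruent to a rational integer modulo `p`. -/
theorem exists_int_dvd_pow_sub (ρ : 𝓞 K) : ∃ n : ℤ, (p : 𝓞 K) ∣ ρ ^ p - (n : 𝓞 K) := by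
  have hp' : NeZero p := ⟨hp.out.ne_zero⟩
  have hmem : ρ ∈ Algebra.adjoin ℤ {hζ.toInteger} := by
    rw [adjoin_singleton_eq_top hζ]
    exact Algebra.mem_top
  induction hmem using Algebra.adjoin_induction with
  | mem x hx =>
    rw [Set.mem_singleton_iff] at hx
    subst hx
    refine ⟨1, ?_⟩
    have h1 : hζ.toInteger ^ p = 1 := hζ.toInteger_isPrimitiveRoot.pow_eq_one
    rw [h1]
    simp
  | algebraMap r =>
    refine ⟨r ^ p, ?_⟩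
    simp
  | add x y _ _ hx hy =>
    obtain ⟨n, a, ha⟩ := hx
    obtain ⟨m, b, hb⟩ := hy
    obtain ⟨r, hr⟩ := exists_add_pow_prime_eq hp.out x y
    refine ⟨n + m, a + b + x * y * r, ?_⟩
    rw [hr]
    push_cast
    linear_combination ha + hb
  | mul x y _ _ hx hy =>
    obtain ⟨n, a, ha⟩ := hx
    obtain ⟨m, b, hb⟩ := hy
    refine ⟨n * m, a * y ^ p + (n : 𝓞 K) * b, ?_⟩
    push_cast
    linear_combination y ^ p * ha + (n : 𝓞 K) * hb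

omit [NumberField K] hK in
include hζ in
/-- (K2) `λ ^ p ∣ z → p ∣ z`, where `λ = ζ - 1`. -/
theorem natCast_dvd_of_pow_dvd {z : 𝓞 K} (h : (hζ.toInteger - 1) ^ p ∣ z) : (p : 𝓞 K) ∣ z := by
  have hassoc := associated_zeta_sub_one_pow_prime p hζ
  refine hassoc.symm.dvd.trans (dvd_trans ?_ h)
  exact pow_dvd_pow _ (Nat.sub_le p 1)

include hζ in
/-- (K3) If `p ∣ ρ₁ ^ p + η * ρ₂ ^ p` and `λ ∤ ρ₂` then `η` is congruent to a rational integer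
modulo `p`. -/
theorem exists_int_dvd_sub_of_dvd_pow_add_mul_pow {ρ₁ ρ₂ η : 𝓞 K}
    (h : (p : 𝓞 K) ∣ ρ₁ ^ p + η * ρ₂ ^ p) (hρ₂ : ¬ (hζ.toInteger - 1) ∣ ρ₂) :
    ∃ n : ℤ, (p : 𝓞 K) ∣ η - (n : 𝓞 K) := by
  obtain ⟨a, ha⟩ := exists_int_dvd_pow_sub hζ ρ₁
  obtain ⟨b, hb⟩ := exists_int_dvd_pow_sub hζ ρ₂
  -- `b` is prime to `p`
  have hpb : ¬ (p : ℤ) ∣ b := by
    intro hpb
    apply hρ₂
    have h1 : (hζ.toInteger - 1) ∣ (b : 𝓞 K) := (zeta_sub_one_dvd_intCast_iff' p hζ).mpr hpb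
    have h2 : (hζ.toInteger - 1) ∣ (p : 𝓞 K) :=
      (dvd_pow_self _ (Nat.sub_ne_zero_of_lt hp.out.one_lt)).trans
        (associated_zeta_sub_one_pow_prime p hζ).dvd
    have h3 : (hζ.toInteger - 1) ∣ ρ₂ ^ p := by
      have := dvd_add (h2.trans hb) h1
      simpa using this
    exact hζ.zeta_sub_one_prime'.dvd_of_dvd_pow h3
  have hcop : IsCoprime (p : ℤ) b :=
    (Nat.prime_iff_prime_int.mp hp.out).coprime_iff_not_dvd.mpr hpb
  obtain ⟨u, v, huv⟩ := hcop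
  -- `v * b ≡ 1 mod p`, so `η ≡ - a * v`
  refine ⟨-a * v, ?_⟩
  obtain ⟨c, hc⟩ := h
  obtain ⟨a', ha'⟩ := ha
  obtain ⟨b', hb'⟩ := hb
  have huv' : (u : 𝓞 K) * (p : 𝓞 K) + (v : 𝓞 K) * (b : 𝓞 K) = 1 := by
    have := congrArg (fun z : ℤ => (z : 𝓞 K)) huv
    simpa using this
  refine ⟨η * u + (v : 𝓞 K) * (c - a' - η * b'), ?_⟩
  push_cast
  linear_combination (-η) * huv' + (v : 𝓞 K) * hc - (v : 𝓞 K) * ha' - η * (v : 𝓞 K) * hb'

include hζ in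
/-- (K3') Variant with the hypothesis modulo `λ ^ p`. -/
theorem exists_int_dvd_unit_sub {ρ₁ ρ₂ : 𝓞 K} {η : (𝓞 K)ˣ}
    (h : (hζ.toInteger - 1) ^ p ∣ ρ₁ ^ p + η * ρ₂ ^ p) (hρ₂ : ¬ (hζ.toInteger - 1) ∣ ρ₂) :
    ∃ n : ℤ, (p : 𝓞 K) ∣ (η : 𝓞 K) - (n : 𝓞 K) :=
  exists_int_dvd_sub_of_dvd_pow_add_mul_pow hζ (natCast_dvd_of_pow_dvd hζ h) hρ₂

end Fermat.Agent.Kummer.ModP
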