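import Fermat.Agent.Kummer.Defs
import Fermat.Agent.Kummer.ModP

/-!
# Kummer's descent (case II) without multiplicities

For `x η := (a + η b) / λ` (`η` running over the `p`-th roots of unity, `λ = ζ - 1`):

1. the `x η` are pairwise coprime (pure ring identity from `IsCoprime a b`);
2. by the pigeonhole principle in `𝓞 K ⧸ (λ)` (which has `p` elements) some `x η₀` is divisible by
   `λ`;
3. `∏ x η = u (c / λ) ^ p`, so every `x η` is associated to a `p`-th power `ρ η ^ p`;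
4. the identity `x (η₀ ζ) + ζ x (η₀ ζ⁻¹) = (1 + ζ) x η₀`, Kummer's lemma and the congruence lemmas of
   `ModP` produce a new solution whose `c` is `ρ η₀`, a strict divisor of `c`;
5. well-founded induction on strict divisibility concludes.
-/

set_option autoImplicit false

open NumberField Polynomial IsCyclotomicExtension.Rat

namespace Fermat.Agent.Kummer.Descent

/-- Coprimality transfer: if `x₁ - x₂ = w * b` and `η₂ * x₁ - η₁ * x₂ = - (w * a)` with `w` a unit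
and `a`, `b` coprime, then `x₁`, `x₂` are coprime. -/
theorem isCoprime_of_sub_eq {R : Type*} [CommRing R] {a b x₁ x₂ η₁ η₂ w : R} (hw : IsUnit w)
    (h1 : x₁ - x₂ = w * b) (h2 : η₂ * x₁ - η₁ * x₂ = -(w * a)) (hab : IsCoprime a b) :
    IsCoprime x₁ x₂ := by
  obtain ⟨s, t, hst⟩ := hab
  obtain ⟨w', rfl⟩ := hw
  refine ⟨(↑w'⁻¹ : R) * (t - s * η₂), (↑w'⁻¹ : R) * (s * η₁ - t), ?_⟩
  have hw1 : (↑w'⁻¹ : R) * (w' : R) = 1 := by simp
  linear_combination (↑w'⁻¹ : R) * t * h1 - (↑w'⁻¹ : R) * s * h2 + (s * a + t * b) * hw1 + hst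

/-- Extraction of `k`-th powers from a product of pairwise coprime elements in a Bezout domain. -/
theorem exists_associated_pow_of_prod {R : Type*} [CommRing R] [IsDomain R] [IsBezout R]
    {ι : Type*} (s : Finset ι) (f : ι → R)
    (hcop : ∀ i ∈ s, ∀ j ∈ s, i ≠ j → IsCoprime (f i) (f j)) {c : R} {k : ℕ}
    (h : Associated (c ^ k) (∏ i ∈ s, f i)) : ∀ i ∈ s, ∃ d : R, Associated (d ^ k) (f i) := by
  classical
  intro i hi
  rw [← Finset.mul_prod_erase s f hi] at h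
  refine exists_associated_pow_of_associated_pow_mul ?_ h
  refine IsCoprime.prod_right fun j hj => ?_
  exact hcop i hi j (Finset.mem_of_mem_erase hj) (Finset.ne_of_mem_erase hj).symm

variable {p : ℕ} [hp : Fact p.Prime] {K : Type*} [Field K] [NumberField K]
  [hK : IsCyclotomicExtension {p} ℚ K] {ζ : K} (hζ : IsPrimitiveRoot ζ p)

include hζ in
/-- The quotient `𝓞 K ⧸ (λ)` has `p` elements. -/
theorem natCard_quotient : Nat.card (𝓞 K ⧸ Ideal.span {hζ.toInteger - 1}) = p := by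
  have h : Ideal.absNorm (Ideal.span {hζ.toInteger - 1}) = p := by
    rw [← pow_one p] at hK hζ
    exact absNorm_span_zeta_sub_one p 0 hζ
  rwa [Ideal.absNorm_apply, Submodule.cardQuot_apply] at h

/-- A solution of the generalised Fermat equation `a ^ p + b ^ p = u * c ^ p` in `𝓞 K`, second
case. -/
structure IsSol (a b c : 𝓞 K) (u : (𝓞 K)ˣ) : Prop where
  hc : c ≠ 0
  ha : ¬ (hζ.toInteger - 1) ∣ a
  hb : ¬ (hζ.toInteger - 1) ∣ b
  hcdvd : (hζ.toInteger - 1) ∣ c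
  coprime : IsCoprime a b
  H : a ^ p + b ^ p = u * c ^ p

variable {hζ}

/-- The descent step: from a solution we produce a solution whose `c` strictly divides the old
one. -/
theorem exists_smaller [IsPrincipalIdealRing (𝓞 K)] (hp2 : p ≠ 2) (hKL : KummerLemmaHolds p K)
    {a b c : 𝓞 K} {u : (𝓞 K)ˣ} (h : IsSol hζ a b c u) :
    ∃ (a' b' c' : 𝓞 K) (u' : (𝓞 K)ˣ), IsSol hζ a' b' c' u' ∧ DvdNotUnit c' c := by
  classical
  have hpp : p.Prime := hp.out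
  have hodd : Odd p := hpp.odd_of_ne_two hp2
  have hzprim : IsPrimitiveRoot hζ.toInteger p := hζ.toInteger_isPrimitiveRoot
  obtain ⟨z, hz⟩ : ∃ z : 𝓞 K, z = hζ.toInteger := ⟨_, rfl⟩
  obtain ⟨lam, hlam⟩ : ∃ lam : 𝓞 K, lam = hζ.toInteger - 1 := ⟨_, rfl⟩
  have hlam_prime : Prime lam := hlam ▸ hζ.zeta_sub_one_prime'
  have hlam0 : lam ≠ 0 := hlam_prime.ne_zero
  rw [← hz] at hzprim
  have hlamz : lam = z - 1 := by rw [hlam, hz]
  obtain ⟨S, hS⟩ : ∃ S : Finset (𝓞 K), S = nthRootsFinset p (1 : 𝓞 K) := ⟨_, rfl⟩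
  have hScard : S.card = p := hS ▸ hzprim.card_nthRootsFinset
  have hmemS : ∀ η, η ∈ S ↔ η ^ p = 1 := fun η => hS ▸ mem_nthRootsFinset hpp.pos 1
  have hzp : z ^ p = 1 := hzprim.pow_eq_one
  have hcdvd : lam ∣ c := hlam ▸ h.hcdvd
  have hb : ¬ lam ∣ b := hlam ▸ h.hb
  -- factorisation
  have hprod : ∏ η ∈ S, (a + η * b) = u * c ^ p := by
    rw [← h.H, hS]
    exact (hzprim.pow_add_pow_eq_prod_add_mul a b hodd).symm
  -- `λ` divides every factor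
  have hdvd : ∀ η ∈ S, lam ∣ a + η * b := by
    have h0 : lam ∣ ∏ η ∈ S, (a + η * b) := by
      rw [hprod]
      exact Dvd.dvd.mul_left (dvd_pow hcdvd hpp.ne_zero) _
    obtain ⟨η₀, hη₀, hη₀dvd⟩ := hlam_prime.exists_mem_finset_dvd h0
    intro η hη
    have h1 : lam ∣ η - η₀ := by
      rw [hlamz]
      exact hzprim.sub_one_dvd_sub hpp (hS ▸ hη) (hS ▸ hη₀)
    have h2 : a + η * b = (a + η₀ * b) + (η - η₀) * b := by ring
    rw [h2]
    exact dvd_add hη₀dvd (Dvd.dvd.mul_right h1 b)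
  choose! x hx using hdvd
  -- differences of the `x η`
  have hdiff : ∀ η₁ ∈ S, ∀ η₂ ∈ S, η₁ ≠ η₂ → ∃ w : (𝓞 K)ˣ,
      x η₁ - x η₂ = w * b ∧ η₂ * x η₁ - η₁ * x η₂ = -(w * a) := by
    intro η₁ h1 η₂ h2 hne
    obtain ⟨w, hw⟩ := hzprim.nthRootsFinset_pairwise_associated_sub_one_sub_of_prime hpp
      (hS ▸ h1) (hS ▸ h2) hne
    rw [← hlamz] at hw
    have e1 := hx η₁ h1
    have e2 := hx η₂ h2
    refine ⟨w, ?_, ?_⟩
    · apply mul_left_cancel₀ hlam0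
      linear_combination -e1 + e2 - b * hw
    · apply mul_left_cancel₀ hlam0
      linear_combination -η₂ * e1 + η₁ * e2 + a * hw
  -- pairwise coprime
  have hcop : ∀ η₁ ∈ S, ∀ η₂ ∈ S, η₁ ≠ η₂ → IsCoprime (x η₁) (x η₂) := by
    intro η₁ h1 η₂ h2 hne
    obtain ⟨w, hw1, hw2⟩ := hdiff η₁ h1 η₂ h2 hne
    exact isCoprime_of_sub_eq w.isUnit hw1 hw2 h.coprime
  -- pigeonhole: some `x η₀` is divisible by `λ`
  have hexists : ∃ η₀ ∈ S, lam ∣ x η₀ := by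
    by_contra hcon
    push Not at hcon
    have hcardI : Nat.card (𝓞 K ⧸ Ideal.span {lam}) = p := hlam ▸ natCard_quotient hζ
    have : Finite (𝓞 K ⧸ Ideal.span {lam}) :=
      Nat.finite_of_card_ne_zero (by rw [hcardI]; exact hpp.ne_zero)
    let _ : Fintype (𝓞 K ⧸ Ideal.span {lam}) := Fintype.ofFinite _
    have hcardlt : (Finset.univ.erase (0 : 𝓞 K ⧸ Ideal.span {lam})).card < S.card := by
      rw [Finset.card_erase_of_mem (Finset.mem_univ _), Finset.card_univ,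
        ← Nat.card_eq_fintype_card, hcardI, hScard]
      exact Nat.sub_lt hpp.pos one_pos
    have hmaps : Set.MapsTo (fun η => Ideal.Quotient.mk (Ideal.span {lam}) (x η)) (S : Set (𝓞 K))
        (Finset.univ.erase (0 : 𝓞 K ⧸ Ideal.span {lam}) : Finset _) := by
      intro η hη
      simp only [Finset.coe_erase, Finset.coe_univ, Set.mem_sdiff, Set.mem_univ,
        Set.mem_singleton_iff, true_and]
      intro h0
      exact hcon η hη (Ideal.mem_span_singleton.mp (Ideal.Quotient.eq_zero_iff_mem.mp h0))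
    obtain ⟨η₁, h1, η₂, h2, hne, heq⟩ :=
      Finset.exists_ne_map_eq_of_card_lt_of_maps_to hcardlt hmaps
    have hd : lam ∣ x η₁ - x η₂ := by
      rw [← Ideal.mem_span_singleton]
      exact Ideal.Quotient.eq.mp heq
    obtain ⟨w, hw1, -⟩ := hdiff η₁ h1 η₂ h2 hne
    rw [hw1] at hd
    exact hb ((IsUnit.dvd_mul_left w.isUnit).mp hd)
  -- the product of the `x η`
  obtain ⟨c₁, hc₁⟩ := hcdvd
  have hc₁0 : c₁ ≠ 0 := by
    rintro rfl
    exact h.hc (by rw [hc₁, mul_zero])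
  have hprodx : ∏ η ∈ S, x η = u * c₁ ^ p := by
    apply mul_left_cancel₀ (pow_ne_zero p hlam0)
    calc lam ^ p * ∏ η ∈ S, x η = ∏ η ∈ S, (lam * x η) := by
          rw [Finset.prod_mul_distrib, Finset.prod_const, hScard]
      _ = ∏ η ∈ S, (a + η * b) := Finset.prod_congr rfl (fun η hη => (hx η hη).symm)
      _ = u * c ^ p := hprod
      _ = lam ^ p * (u * c₁ ^ p) := by rw [hc₁]; ring
  have hassoc : Associated (c₁ ^ p) (∏ η ∈ S, x η) := by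
    rw [hprodx]
    exact ⟨u, mul_comm _ _⟩
  have hext := exists_associated_pow_of_prod S x hcop hassoc
  -- the three roots of unity
  obtain ⟨η₀, hη₀, hη₀dvd⟩ := hexists
  have hη₀p : η₀ ^ p = 1 := (hmemS η₀).1 hη₀
  have hη₀ne : η₀ ≠ 0 := by
    rintro rfl
    rw [zero_pow hpp.ne_zero] at hη₀p
    exact zero_ne_one hη₀p
  have hzz : z * z ^ (p - 1) = 1 := by
    rw [← pow_succ', Nat.sub_add_cancel hpp.one_le, hzp]
  have hη₁ : η₀ * z ∈ S := (hmemS _).2 (by rw [mul_pow, hη₀p, hzp, one_mul])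
  have hη₂ : η₀ * z ^ (p - 1) ∈ S :=
    (hmemS _).2 (by rw [mul_pow, hη₀p, ← pow_mul, mul_comm (p - 1) p, pow_mul, hzp, one_pow, one_mul])
  have hp3 : 2 < p := lt_of_le_of_ne hpp.two_le (Ne.symm hp2)
  have h01 : η₀ ≠ η₀ * z := by
    intro he
    have : z = 1 := mul_left_cancel₀ hη₀ne (by rw [← he, mul_one])
    exact hzprim.ne_one hpp.one_lt this
  have h02 : η₀ ≠ η₀ * z ^ (p - 1) := by
    intro he
    have : z ^ (p - 1) = 1 := mul_left_cancel₀ hη₀ne (by rw [← he, mul_one])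
    exact hzprim.pow_ne_one_of_pos_of_lt (by omega) (by omega) this
  have h12 : η₀ * z ≠ η₀ * z ^ (p - 1) := by
    intro he
    have h1 : z = z ^ (p - 1) := mul_left_cancel₀ hη₀ne he
    have h2 : z ^ 2 = 1 := by rw [pow_two]; nth_rewrite 2 [h1]; exact hzz
    exact hzprim.pow_ne_one_of_pos_of_lt (by omega) hp3 h2
  -- the key identity
  have hid : x (η₀ * z) + z * x (η₀ * z ^ (p - 1)) = (1 + z) * x η₀ := by
    apply mul_left_cancel₀ hlam0
    have e0 := hx η₀ hη₀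
    have e1 := hx _ hη₁
    have e2 := hx _ hη₂
    linear_combination -e1 - z * e2 + (1 + z) * e0 + η₀ * b * hzz
  -- extraction of `p`-th powers
  obtain ⟨ρ₀, ε₀, hρ₀⟩ := hext η₀ hη₀
  obtain ⟨ρ₁, ε₁, hρ₁⟩ := hext _ hη₁
  obtain ⟨ρ₂, ε₂, hρ₂⟩ := hext _ hη₂
  have hlamρ₀ : lam ∣ ρ₀ := by
    rw [← hρ₀] at hη₀dvd
    exact hlam_prime.dvd_of_dvd_pow ((IsUnit.dvd_mul_right ε₀.isUnit).mp hη₀dvd)
  have hnot : ∀ η ∈ S, η₀ ≠ η → ¬ lam ∣ x η := by
    intro η hη hne hd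
    exact hlam_prime.not_isUnit ((hcop η₀ hη₀ η hη hne).isUnit_of_dvd' hη₀dvd hd)
  have hlamρ₁ : ¬ lam ∣ ρ₁ := by
    intro hd
    apply hnot _ hη₁ h01
    rw [← hρ₁]
    exact Dvd.dvd.mul_right (dvd_pow hd hpp.ne_zero) _
  have hlamρ₂ : ¬ lam ∣ ρ₂ := by
    intro hd
    apply hnot _ hη₂ h02
    rw [← hρ₂]
    exact Dvd.dvd.mul_right (dvd_pow hd hpp.ne_zero) _
  -- the units `ζ` and `1 + ζ`
  obtain ⟨uz, huz⟩ : ∃ uz : (𝓞 K)ˣ, (uz : 𝓞 K) = z := ⟨(hzprim.isUnit hpp.ne_zero).unit, rfl⟩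
  obtain ⟨u1z, hu1z⟩ : ∃ u1z : (𝓞 K)ˣ, (u1z : 𝓞 K) = 1 + z := by
    have h2 : (2 : ℕ).Coprime p := (Nat.coprime_primes Nat.prime_two hpp).mpr (Ne.symm hp2)
    have := hzprim.geom_sum_isUnit hpp.two_le h2
    rw [Finset.sum_range_succ, Finset.sum_range_one, pow_zero, pow_one] at this
    exact ⟨this.unit, rfl⟩
  -- the new equation
  have hnew : ρ₁ ^ p + ((uz * ε₂ * ε₁⁻¹ : (𝓞 K)ˣ) : 𝓞 K) * ρ₂ ^ p =
      ((u1z * ε₀ * ε₁⁻¹ : (𝓞 K)ˣ) : 𝓞 K) * ρ₀ ^ p := by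
    have hε : (ε₁ : 𝓞 K) * ((ε₁⁻¹ : (𝓞 K)ˣ) : 𝓞 K) = 1 := by simp
    push_cast
    rw [huz, hu1z]
    rw [← hρ₀, ← hρ₁, ← hρ₂] at hid
    linear_combination ((ε₁⁻¹ : (𝓞 K)ˣ) : 𝓞 K) * hid - ρ₁ ^ p * hε
  -- Kummer's lemma applies
  have hdvdp : (hζ.toInteger - 1) ^ p ∣
      ρ₁ ^ p + ((uz * ε₂ * ε₁⁻¹ : (𝓞 K)ˣ) : 𝓞 K) * ρ₂ ^ p := by
    rw [hnew, ← hlam]
    exact Dvd.dvd.mul_left (pow_dvd_pow_of_dvd hlamρ₀ p) _
  obtain ⟨n, hn⟩ := ModP.exists_int_dvd_unit_sub hζ hdvdp (hlam ▸ hlamρ₂)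
  obtain ⟨v, hv⟩ := hKL _ ⟨n, hn⟩
  -- `ρ₀ ≠ 0`
  have hx0 : x η₀ ≠ 0 := by
    intro h0
    have : ∏ η ∈ S, x η = 0 := Finset.prod_eq_zero hη₀ h0
    rw [hprodx] at this
    exact (mul_ne_zero u.ne_zero (pow_ne_zero p hc₁0)) this
  have hρ₀0 : ρ₀ ≠ 0 := by
    rintro rfl
    apply hx0
    rw [← hρ₀, zero_pow hpp.ne_zero, zero_mul]
  refine ⟨ρ₁, v * ρ₂, ρ₀, u1z * ε₀ * ε₁⁻¹, ⟨hρ₀0, hlam ▸ hlamρ₁, ?_, hlam ▸ hlamρ₀, ?_, ?_⟩, hρ₀0, ?_⟩
  · rw [← hlam]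
    exact fun hd => hlamρ₂ ((IsUnit.dvd_mul_left v.isUnit).mp hd)
  · have h1 : IsCoprime (ρ₁ ^ p * ε₁) (ρ₂ ^ p * ε₂) := by
      rw [hρ₁, hρ₂]
      exact hcop _ hη₁ _ hη₂ h12
    have h2 : IsCoprime (ρ₁ ^ p) (ρ₂ ^ p) := (h1.of_mul_left_left).of_mul_right_left
    have h3 : IsCoprime ρ₁ ρ₂ := (IsCoprime.pow_iff hpp.pos hpp.pos).mp h2
    exact (isCoprime_mul_unit_left_right v.isUnit ρ₁ ρ₂).mpr h3
  · rw [mul_pow, ← hnew, hv]
    push_cast
    ring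
  · -- `ρ₀` strictly divides `c`
    have h1 : ρ₀ ^ p ∣ c₁ ^ p := by
      have h2 : ρ₀ ^ p ∣ ∏ η ∈ S, x η :=
        (Dvd.intro _ hρ₀).trans (Finset.dvd_prod_of_mem x hη₀)
      rw [hprodx] at h2
      exact (IsUnit.dvd_mul_left u.isUnit).mp h2
    have h2 : ρ₀ ∣ c₁ := (IsIntegrallyClosed.pow_dvd_pow_iff hpp.ne_zero).mp h1
    obtain ⟨s, hs⟩ := h2
    refine ⟨lam * s, ?_, ?_⟩
    · intro hunit
      exact hlam_prime.not_isUnit (isUnit_of_mul_isUnit_left hunit)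
    · rw [hc₁, hs]
      ring

/-- There is no solution: well-founded induction on strict divisibility of `c`. -/
theorem not_isSol [IsPrincipalIdealRing (𝓞 K)] (hp2 : p ≠ 2) (hKL : KummerLemmaHolds p K)
    (c : 𝓞 K) : ∀ (a b : 𝓞 K) (u : (𝓞 K)ˣ), ¬ IsSol hζ a b c u := by
  induction c using (wellFounded_dvdNotUnit (α := 𝓞 K)).induction with
  | _ c ih =>
    intro a b u h
    obtain ⟨a', b', c', u', h', hdvd⟩ := exists_smaller hp2 hKL h
    exact ih c' hdvd a' b' u' h'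

variable (hζ)

/-- **Kummer's descent.** Same statement as `fermatGen_of_pid_of_kummer` (only `p ≠ 2` is
needed). -/
theorem fermatGen [IsPrincipalIdealRing (𝓞 K)] (hp2 : p ≠ 2) (hKL : KummerLemmaHolds p K) :
    haveI : NeZero p := ⟨hp.out.ne_zero⟩
    FermatGen p hζ := by
  intro a b c u hc ha hb hcdvd hcop H
  exact not_isSol hp2 hKL c a b u ⟨hc, ha, hb, hcdvd, hcop, H⟩

end Fermat.Agent.Kummer.Descent
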