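import Fermat.Agent.Kummer.Defs
import Fermat.Agent.Kummer.Descent

/-!
# (D2) The descent for the generalised equation in a principal ideal domain
-/

set_option autoImplicit false

open NumberField

namespace Fermat.Agent.Kummer

/-- Kummer's descent: in a PID `𝓞 K` for which Kummer's lemma holds, the generalised Fermat
equation has no solution. -/
theorem fermatGen_of_pid_of_kummer {p : ℕ} [hp : Fact p.Prime] (hp5 : 5 ≤ p) {K : Type*} [Field K]
    [NumberField K] [IsCyclotomicExtension {p} ℚ K] {ζ : K} (hζ : IsPrimitiveRoot ζ p)
    [IsPrincipalIdealRing (𝓞 K)] (hKL : KummerLemmaHolds p K) : FermatGen p hζ :=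
  Descent.fermatGen hζ (by omega) hKL

end Fermat.Agent.Kummer
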