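import Fermat.Agent.Kummer.KummerCert

set_option autoImplicit false

/-!
# Kummer's lemma for `p = 11` (generated certificate)
-/

namespace Fermat.Agent.Kummer.Cert11

open Polynomial NumberField

/-- The polynomials `X, 1 + X, 1 + X + X², …` whose values at `ζ` are the cyclotomic units. -/
noncomputable def f : Fin 5 → ℤ[X] := ![X, 1 + X, 1 + X + X ^ 2, 1 + X + X ^ 2 + X ^ 3, 1 + X + X ^ 2 + X ^ 3 + X ^ 4]

/-- `Q i` is the product of the `f j`, `j ≠ i`. -/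
noncomputable def Q : Fin 5 → ℤ[X] := ![(1 + X) * (1 + X + X ^ 2) * (1 + X + X ^ 2 + X ^ 3) * (1 + X + X ^ 2 + X ^ 3 + X ^ 4), (X) * (1 + X + X ^ 2) * (1 + X + X ^ 2 + X ^ 3) * (1 + X + X ^ 2 + X ^ 3 + X ^ 4), (X) * (1 + X) * (1 + X + X ^ 2 + X ^ 3) * (1 + X + X ^ 2 + X ^ 3 + X ^ 4), (X) * (1 + X) * (1 + X + X ^ 2) * (1 + X + X ^ 2 + X ^ 3 + X ^ 4), (X) * (1 + X) * (1 + X + X ^ 2) * (1 + X + X ^ 2 + X ^ 3)]

/-- Taylor coefficients at `1` of `f i' * Q i`, up to degree `p - 3`. -/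
def Mint : Matrix (Fin 5) (Fin 9) ℤ := !![120, 600, 1450, 2200, 2299, 1717, 923, 351, 90; 60, 330, 860, 1395, 1552, 1232, 704, 285, 78; 120, 680, 1810, 2980, 3349, 2673, 1528, 615, 166; 180, 1050, 2850, 4745, 5356, 4268, 2422, 963, 256; 240, 1440, 3980, 6676, 7524, 5950, 3341, 1314, 346]

/-- Higher Taylor parts. -/
noncomputable def H : Fin 5 → ℤ[X] := ![14 + X, 13 + X, 27 + 2 * X, 41 + 3 * X, 55 + 4 * X]

/-- A left inverse modulo `11`. -/
def L : Matrix (Fin 9) (Fin 5) (ZMod 11) := !![0, 8, 1, 7, 0; 5, 3, 10, 8, 5; 0, 0, 0, 0, 0; 10, 9, 5, 3, 10; 0, 0, 0, 0, 0; 6, 0, 2, 10, 5; 0, 0, 0, 0, 0; 2, 10, 6, 7, 2; 0, 0, 0, 0, 0]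

theorem hL : (Mint.map (Int.cast : ℤ → ZMod 11)) * L = 1 := by decide

theorem hQ : ∀ i, Q i * f i = ∏ j, f j := by
  intro i
  fin_cases i <;> simp [f, Q, Fin.prod_univ_succ] <;> ring

theorem hN : ∀ i, (derivative (f i) * Q i).comp (X + 1) =
    (∑ k : Fin 9, C (Mint i k) * X ^ (k : ℕ)) + X ^ 9 * H i := by
  intro i
  fin_cases i <;> simp [f, Q, H, Mint, Fin.sum_univ_succ] <;> ring

theorem certHolds : CertHolds 11 f Q :=
  certHolds_of_matrix (by norm_num) f Q Mint H hN L hL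

theorem hunit {K : Type*} [Field K] [NumberField K] [IsCyclotomicExtension {11} ℚ K] {ζ : K}
    [Fact (Nat.Prime 11)] (hζ : IsPrimitiveRoot ζ 11) : ∀ i, IsUnit (aeval hζ.toInteger (f i)) := by
  intro i
  fin_cases i
  · simpa [f] using isUnit_zeta hζ
  · simpa [f, Finset.sum_range_succ] using isUnit_geom hζ 2 (by norm_num)
  · simpa [f, Finset.sum_range_succ] using isUnit_geom hζ 3 (by norm_num)
  · simpa [f, Finset.sum_range_succ] using isUnit_geom hζ 4 (by norm_num)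
  · simpa [f, Finset.sum_range_succ] using isUnit_geom hζ 5 (by norm_num)

/-- Kummer's lemma for `p = 11`. -/
theorem kummerLemma (K : Type*) [Field K] [NumberField K] [IsCyclotomicExtension {11} ℚ K] :
    KummerLemmaHolds 11 K := by
  have : Fact (Nat.Prime 11) := ⟨by norm_num⟩
  exact kummerLemmaHolds_of_cert (IsCyclotomicExtension.zeta_spec 11 ℚ K) (by norm_num) f Q hQ
    (hunit _) certHolds

end Fermat.Agent.Kummer.Cert11

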