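import Fermat.Agent.Kummer.KummerCert

set_option autoImplicit false

/-!
# Kummer's lemma for `p = 13` (generated certificate)
-/

namespace Fermat.Agent.Kummer.Cert13

open Polynomial NumberField

/-- The polynomials `X, 1 + X, 1 + X + X², …` whose values at `ζ` are the cyclotomic units. -/
noncomputable def f : Fin 6 → ℤ[X] := ![X, 1 + X, 1 + X + X ^ 2, 1 + X + X ^ 2 + X ^ 3, 1 + X + X ^ 2 + X ^ 3 + X ^ 4, 1 + X + X ^ 2 + X ^ 3 + X ^ 4 + X ^ 5]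

/-- `Q i` is the product of the `f j`, `j ≠ i`. -/
noncomputable def Q : Fin 6 → ℤ[X] := ![(1 + X) * (1 + X + X ^ 2) * (1 + X + X ^ 2 + X ^ 3) * (1 + X + X ^ 2 + X ^ 3 + X ^ 4) * (1 + X + X ^ 2 + X ^ 3 + X ^ 4 + X ^ 5), (X) * (1 + X + X ^ 2) * (1 + X + X ^ 2 + X ^ 3) * (1 + X + X ^ 2 + X ^ 3 + X ^ 4) * (1 + X + X ^ 2 + X ^ 3 + X ^ 4 + X ^ 5), (X) * (1 + X) * (1 + X + X ^ 2 + X ^ 3) * (1 + X + X ^ 2 + X ^ 3 + X ^ 4) * (1 + X + X ^ 2 + X ^ 3 + X ^ 4 + X ^ 5), (X) * (1 + X) * (1 + X + X ^ 2) * (1 + X + X ^ 2 + X ^ 3 + X ^ 4) * (1 + X + X ^ 2 + X ^ 3 + X ^ 4 + X ^ 5), (X) * (1 + X) * (1 + X + X ^ 2) * (1 + X + X ^ 2 + X ^ 3) * (1 + X + X ^ 2 + X ^ 3 + X ^ 4 + X ^ 5), (X) * (1 + X) * (1 + X + X ^ 2) * (1 + X + X ^ 2 + X ^ 3) * (1 + X + X ^ 2 + X ^ 3 + X ^ 4)]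

/-- Taylor coefficients at `1` of `f i' * Q i`, up to degree `p - 3`. -/
def Mint : Matrix (Fin 6) (Fin 11) ℤ := !![720, 5400, 20100, 48750, 85514, 114257, 119573, 99426, 66014, 34900, 14536; 360, 2880, 11310, 28770, 52747, 73512, 80159, 69420, 48010, 26452, 11492; 720, 5880, 23460, 60430, 111914, 157223, 172483, 149995, 103950, 57259, 24803; 1080, 9000, 36450, 94920, 177141, 250078, 274997, 239128, 165322, 90640, 38998; 1440, 12240, 50280, 132156, 247924, 350660, 385236, 333895, 229676, 125139, 53475; 1800, 15600, 64950, 172030, 323615, 457250, 500545, 431656, 295254, 159970, 68006]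

/-- Higher Taylor parts. -/
noncomputable def H : Fin 6 → ℤ[X] := ![4674 + 1121 * X + 189 * X ^ 2 + 20 * X ^ 3 + X ^ 4, 3859 + 968 * X + 171 * X ^ 2 + 19 * X ^ 3 + X ^ 4, 8278 + 2056 * X + 358 * X ^ 2 + 39 * X ^ 3 + 2 * X ^ 4, 12905 + 3174 * X + 547 * X ^ 2 + 59 * X ^ 3 + 3 * X ^ 4, 17575 + 4295 * X + 736 * X ^ 2 + 79 * X ^ 3 + 4 * X ^ 4, 22249 + 5416 * X + 925 * X ^ 2 + 99 * X ^ 3 + 5 * X ^ 4]

/-- A left inverse modulo `13`. -/
def L : Matrix (Fin 11) (Fin 6) (ZMod 13) := !![10, 12, 12, 10, 11, 11; 6, 1, 10, 5, 3, 1; 0, 0, 0, 0, 0, 0; 10, 5, 5, 6, 2, 6; 0, 0, 0, 0, 0, 0; 11, 9, 5, 12, 5, 4; 0, 0, 0, 0, 0, 0; 8, 3, 7, 7, 0, 10; 0, 0, 0, 0, 0, 0; 6, 9, 4, 10, 1, 3; 0, 0, 0, 0, 0, 0]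

theorem hL : (Mint.map (Int.cast : ℤ → ZMod 13)) * L = 1 := by decide

theorem hQ : ∀ i, Q i * f i = ∏ j, f j := by
  intro i
  fin_cases i <;> simp [f, Q, Fin.prod_univ_succ] <;> ring

theorem hN : ∀ i, (derivative (f i) * Q i).comp (X + 1) =
    (∑ k : Fin 11, C (Mint i k) * X ^ (k : ℕ)) + X ^ 11 * H i := by
  intro i
  fin_cases i <;> simp [f, Q, H, Mint, Fin.sum_univ_succ] <;> ring

theorem certHolds : CertHolds 13 f Q :=
  certHolds_of_matrix (by norm_num) f Q Mint H hN L hL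

theorem hunit {K : Type*} [Field K] [NumberField K] [IsCyclotomicExtension {13} ℚ K] {ζ : K}
    [Fact (Nat.Prime 13)] (hζ : IsPrimitiveRoot ζ 13) : ∀ i, IsUnit (aeval hζ.toInteger (f i)) := by
  intro i
  fin_cases i
  · simpa [f] using isUnit_zeta hζ
  · simpa [f, Finset.sum_range_succ] using isUnit_geom hζ 2 (by norm_num)
  · simpa [f, Finset.sum_range_succ] using isUnit_geom hζ 3 (by norm_num)
  · simpa [f, Finset.sum_range_succ] using isUnit_geom hζ 4 (by norm_num)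
  · simpa [f, Finset.sum_range_succ] using isUnit_geom hζ 5 (by norm_num)
  · simpa [f, Finset.sum_range_succ] using isUnit_geom hζ 6 (by norm_num)

/-- Kummer's lemma for `p = 13`. -/
theorem kummerLemma (K : Type*) [Field K] [NumberField K] [IsCyclotomicExtension {13} ℚ K] :
    KummerLemmaHolds 13 K := by
  have : Fact (Nat.Prime 13) := ⟨by norm_num⟩
  exact kummerLemmaHolds_of_cert (IsCyclotomicExtension.zeta_spec 13 ℚ K) (by norm_num) f Q hQ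
    (hunit _) certHolds

end Fermat.Agent.Kummer.Cert13

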