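import Fermat.Agent.Kummer.KummerCert

set_option autoImplicit false

/-!
# Kummer's lemma for `p = 7` (generated certificate)
-/

namespace Fermat.Agent.Kummer.Cert7

open Polynomial NumberField

/-- The polynomials `X, 1 + X, 1 + X + X², …` whose values at `ζ` are the cyclotomic units. -/
noncomputable def f : Fin 3 → ℤ[X] := ![X, 1 + X, 1 + X + X ^ 2]

/-- `Q i` is the product of the `f j`, `j ≠ i`. -/
noncomputable def Q : Fin 3 → ℤ[X] := ![(1 + X) * (1 + X + X ^ 2), (X) * (1 + X + X ^ 2), (X) * (1 + X)]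

/-- Taylor coefficients at `1` of `f i' * Q i`, up to degree `p - 3`. -/
def Mint : Matrix (Fin 3) (Fin 5) ℤ := !![6, 9, 5, 1, 0; 3, 6, 4, 1, 0; 6, 13, 9, 2, 0]

/-- Higher Taylor parts. -/
noncomputable def H : Fin 3 → ℤ[X] := ![0, 0, 0]

/-- A left inverse modulo `7`. -/
def L : Matrix (Fin 5) (Fin 3) (ZMod 7) := !![5, 4, 6; 0, 5, 1; 0, 0, 0; 6, 1, 4; 0, 0, 0]

theorem hL : (Mint.map (Int.cast : ℤ → ZMod 7)) * L = 1 := by decide

theorem hQ : ∀ i, Q i * f i = ∏ j, f j := by
  intro i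
  fin_cases i <;> simp [f, Q, Fin.prod_univ_succ] <;> ring

theorem hN : ∀ i, (derivative (f i) * Q i).comp (X + 1) =
    (∑ k : Fin 5, C (Mint i k) * X ^ (k : ℕ)) + X ^ 5 * H i := by
  intro i
  fin_cases i <;> simp [f, Q, H, Mint, Fin.sum_univ_succ] <;> ring

theorem certHolds : CertHolds 7 f Q :=
  certHolds_of_matrix (by norm_num) f Q Mint H hN L hL

theorem hunit {K : Type*} [Field K] [NumberField K] [IsCyclotomicExtension {7} ℚ K] {ζ : K}
    [Fact (Nat.Prime 7)] (hζ : IsPrimitiveRoot ζ 7) : ∀ i, IsUnit (aeval hζ.toInteger (f i)) := by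
  intro i
  fin_cases i
  · simpa [f] using isUnit_zeta hζ
  · simpa [f, Finset.sum_range_succ] using isUnit_geom hζ 2 (by norm_num)
  · simpa [f, Finset.sum_range_succ] using isUnit_geom hζ 3 (by norm_num)

/-- Kummer's lemma for `p = 7`. -/
theorem kummerLemma (K : Type*) [Field K] [NumberField K] [IsCyclotomicExtension {7} ℚ K] :
    KummerLemmaHolds 7 K := by
  have : Fact (Nat.Prime 7) := ⟨by norm_num⟩
  exact kummerLemmaHolds_of_cert (IsCyclotomicExtension.zeta_spec 7 ℚ K) (by norm_num) f Q hQ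
    (hunit _) certHolds

end Fermat.Agent.Kummer.Cert7

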