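import Mathlib

/-!
# Classical Fermat for the exponents 5, 7, 11, 13: shared interface

Everything is stated for an arbitrary number field `K` that is a `p`-th cyclotomic extension of `ℚ`
(the pattern of Mathlib's treatment of the exponent `3`).
-/

set_option autoImplicit false

open NumberField

namespace Fermat.Agent.Kummer

/-- Kummer's lemma for the exponent `p` in the field `K`: a unit of `𝓞 K` congruent to a rational
integer modulo `p` is a `p`-th power of a unit. -/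
def KummerLemmaHolds (p : ℕ) (K : Type*) [Field K] [NumberField K] : Prop :=
  ∀ u : (𝓞 K)ˣ, (∃ n : ℤ, (p : 𝓞 K) ∣ (u : 𝓞 K) - (n : 𝓞 K)) → ∃ v : (𝓞 K)ˣ, u = v ^ p

/-- First case of Fermat for the exponent `p` (coprime form). -/
def CaseIHolds (p : ℕ) : Prop :=
  ∀ a b c : ℤ, IsCoprime a b → ¬ (p : ℤ) ∣ a * b * c → a ^ p + b ^ p ≠ c ^ p

/-- Second case of Fermat for the exponent `p`, in the normalised form used by Mathlib for `3`. -/
def CaseIIHolds (p : ℕ) : Prop :=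
  ∀ a b c : ℤ, c ≠ 0 → ¬ (p : ℤ) ∣ a → ¬ (p : ℤ) ∣ b → (p : ℤ) ∣ c → IsCoprime a b →
    a ^ p + b ^ p ≠ c ^ p

/-- The generalised equation `a ^ p + b ^ p = u * c ^ p` over `𝓞 K` has no solution with
`λ ∤ a`, `λ ∤ b`, `λ ∣ c`, `c ≠ 0`, `a`, `b` coprime, where `λ = ζ - 1`. -/
def FermatGen (p : ℕ) [NeZero p] {K : Type*} [Field K] [NumberField K] {ζ : K}
    (hζ : IsPrimitiveRoot ζ p) : Prop :=
  ∀ a b c : 𝓞 K, ∀ u : (𝓞 K)ˣ, c ≠ 0 → ¬ (hζ.toInteger - 1) ∣ a → ¬ (hζ.toInteger - 1) ∣ b →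
    (hζ.toInteger - 1) ∣ c → IsCoprime a b → a ^ p + b ^ p ≠ u * c ^ p

end Fermat.Agent.Kummer
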