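import Mathlib

set_option autoImplicit false

/-!
# Abstract linear algebra behind the fixed-`p` Kummer lemma

If a commutative group `E` is generated by `d` elements and `φ : E →* Multiplicative V` is a
homomorphism to an `𝔽_p`-vector space such that `d` elements of `E` have linearly independent
images, then the kernel of `φ` consists of `p`-th powers.
-/

namespace Fermat.Agent.Kummer

open Module

theorem toAdd_map_finsupp_prod {E : Type*} [CommGroup E] {p : ℕ} [Fact p.Prime]
    {V : Type*} [AddCommGroup V] [Module (ZMod p) V]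
    (φ : E →* Multiplicative V) {d : ℕ} (g : Fin d → E) (a : Fin d →₀ ℤ) :
    Multiplicative.toAdd (φ (a.prod fun j e => g j ^ e)) =
      ∑ j, ((a j : ℤ) : ZMod p) • Multiplicative.toAdd (φ (g j)) := by
  rw [Finsupp.prod_fintype _ _ (fun i => by simp), map_prod, toAdd_prod]
  refine Finset.sum_congr rfl fun j _ => ?_
  rw [map_zpow, toAdd_zpow, Int.cast_smul_eq_zsmul]

theorem exists_pow_eq_of_map_eq_one {E : Type*} [CommGroup E] {p : ℕ} [Fact p.Prime]
    {V : Type*} [AddCommGroup V] [Module (ZMod p) V]
    (φ : E →* Multiplicative V) {d : ℕ} (g : Fin d → E)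
    (hg : Subgroup.closure (Set.range g) = ⊤) (u : Fin d → E)
    (hu : LinearIndependent (ZMod p) (fun i => Multiplicative.toAdd (φ (u i))))
    (x : E) (hx : φ x = 1) : ∃ y : E, x = y ^ p := by
  classical
  set w : Fin d → V := fun j => Multiplicative.toAdd (φ (g j)) with hw
  have hrepr : ∀ z : E, ∃ a : Fin d →₀ ℤ, z = a.prod fun j e => g j ^ e := fun z =>
    Subgroup.mem_closure_range_iff.mp (hg ▸ Subgroup.mem_top z)
  -- every `φ z` lies in the span of `w`
  have hspan : ∀ z : E, Multiplicative.toAdd (φ z) ∈ Submodule.span (ZMod p) (Set.range w) := by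
    intro z
    obtain ⟨a, rfl⟩ := hrepr z
    rw [toAdd_map_finsupp_prod (p := p)]
    exact Submodule.sum_mem _ fun j _ =>
      Submodule.smul_mem _ _ (Submodule.subset_span (Set.mem_range_self j))
  -- hence `w` is linearly independent
  have hle : Submodule.span (ZMod p) (Set.range fun i => Multiplicative.toAdd (φ (u i))) ≤
      Submodule.span (ZMod p) (Set.range w) := by
    rw [Submodule.span_le]
    rintro _ ⟨i, rfl⟩
    exact hspan (u i)
  have hwind : LinearIndependent (ZMod p) w := by
    rw [linearIndependent_iff_card_eq_finrank_span]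
    apply le_antisymm
    · calc Fintype.card (Fin d)
          = finrank (ZMod p) (Submodule.span (ZMod p)
              (Set.range fun i => Multiplicative.toAdd (φ (u i)))) := (finrank_span_eq_card hu).symm
        _ ≤ finrank (ZMod p) (Submodule.span (ZMod p) (Set.range w)) := by
            have : Module.Finite (ZMod p) (Submodule.span (ZMod p) (Set.range w)) :=
              Module.Finite.span_of_finite _ (Set.finite_range w)
            exact Submodule.finrank_mono hle
    · exact (finrank_range_le_card w)
  obtain ⟨a, rfl⟩ := hrepr x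
  have h0 : ∑ j, ((a j : ℤ) : ZMod p) • w j = 0 := by
    rw [← toAdd_map_finsupp_prod (p := p), hx, toAdd_one]
  have hzero : ∀ j, ((a j : ℤ) : ZMod p) = 0 := fun j =>
    Fintype.linearIndependent_iff.mp hwind _ h0 j
  have hdvd : ∀ j, ∃ f : ℤ, a j = p * f := fun j =>
    (ZMod.intCast_zmod_eq_zero_iff_dvd (a j) p).mp (hzero j)
  choose f hf using hdvd
  refine ⟨∏ j, g j ^ f j, ?_⟩
  rw [Finsupp.prod_fintype _ _ (fun i => by simp), ← Finset.prod_pow]
  refine Finset.prod_congr rfl fun j _ => ?_
  rw [hf j, mul_comm, zpow_mul, zpow_natCast]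

end Fermat.Agent.Kummer
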