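import Mathlib
import Fermat.Agent.Kummer.UnitLinAlg

set_option autoImplicit false

/-!
# The `dlog` homomorphism on units of `ℤ[ζ_p]` modulo `p`

For a prime `p` and `K = ℚ(ζ_p)` we construct a ring homomorphism
`Ψ : 𝓞 K → R₂[ε]`, `R₂ = 𝔽_p[X]/(X^(p-2))`, sending `ζ ↦ (1 + X) + ε`.
Its second component is a derivation, and `dlog u = fst (Ψ u⁻¹) * snd (Ψ u)` is a
homomorphism from the units to the additive group of `R₂`, which kills units congruent to a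
rational integer modulo `p`.
-/

namespace Fermat.Agent.Kummer

open Polynomial NumberField

section defs

variable (p : ℕ) [hp : Fact p.Prime]

/-- The ideal `(X ^ (p - 2))` of `𝔽_p[X]`. -/
noncomputable abbrev I2 : Ideal (ZMod p)[X] := Ideal.span {(X : (ZMod p)[X]) ^ (p - 2)}

/-- The truncated polynomial ring `𝔽_p[X] / (X ^ (p - 2))`. -/
abbrev R2 : Type := (ZMod p)[X] ⧸ I2 p

/-- Dual numbers over `R2`. -/
abbrev T2 : Type := TrivSqZeroExt (R2 p) (R2 p)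

/-- The image of `X + 1`. -/
noncomputable def x2 : R2 p := Ideal.Quotient.mk (I2 p) (X + 1)

/-- The point `x + ε`. -/
noncomputable def y2 : T2 p := TrivSqZeroExt.inl (x2 p) + TrivSqZeroExt.inr 1

theorem aeval_x2 (f : ℤ[X]) :
    aeval (x2 p) f = Ideal.Quotient.mk (I2 p) ((f.map (Int.castRingHom (ZMod p))).comp (X + 1)) := by
  have h1 : x2 p = (Ideal.Quotient.mkₐ ℤ (I2 p)) (X + 1) := rfl
  rw [h1, aeval_algHom_apply, Ideal.Quotient.mkₐ_eq_mk]
  congr 1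
  rw [comp, eval₂_map, aeval_def]
  congr 1

theorem cyclotomic_zmod_eq : cyclotomic p (ZMod p) = (X - 1) ^ (p - 1) := by
  have h := cyclotomic_mul_prime_pow_eq (ZMod p) (p := p) (m := 1)
    (by simpa using hp.out.ne_one) (k := 1) one_pos
  simpa using h

theorem cyclotomic_zmod_comp : (cyclotomic p (ZMod p)).comp (X + 1) = X ^ (p - 1) := by
  rw [cyclotomic_zmod_eq]
  simp

theorem aeval_x2_cyclotomic : aeval (x2 p) (cyclotomic p ℤ) = 0 := by
  rw [aeval_x2, map_cyclotomic, cyclotomic_zmod_comp, Ideal.Quotient.eq_zero_iff_mem,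
    Ideal.mem_span_singleton]
  exact pow_dvd_pow _ (by omega)

theorem aeval_x2_derivative_cyclotomic : aeval (x2 p) (derivative (cyclotomic p ℤ)) = 0 := by
  rw [aeval_x2, ← derivative_map, map_cyclotomic, cyclotomic_zmod_eq, Ideal.Quotient.eq_zero_iff_mem,
    Ideal.mem_span_singleton]
  have hd : derivative ((X - 1 : (ZMod p)[X]) ^ (p - 1)) = C ((p - 1 : ℕ) : ZMod p) * (X - 1) ^ (p - 2) := by
    rw [derivative_pow]
    simp [Nat.sub_sub]
  rw [hd]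
  simp only [mul_comp, C_comp, pow_comp, sub_comp, X_comp, one_comp, add_sub_cancel_right]
  exact dvd_mul_left _ _

theorem aeval_y2 (f : ℤ[X]) :
    aeval (y2 p) f = TrivSqZeroExt.inl (aeval (x2 p) f) +
      TrivSqZeroExt.inr (aeval (x2 p) (derivative f)) := by
  have hinl : ∀ g : ℤ[X], aeval (TrivSqZeroExt.inl (x2 p) : T2 p) g =
      TrivSqZeroExt.inl (aeval (x2 p) g) := fun g =>
    aeval_algHom_apply (TrivSqZeroExt.inlAlgHom ℤ (R2 p) (R2 p)) (x2 p) g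
  have h := aeval_add_of_sq_eq_zero f (TrivSqZeroExt.inl (x2 p) : T2 p) (TrivSqZeroExt.inr 1)
    (by rw [pow_two, TrivSqZeroExt.inr_mul_inr])
  rw [y2, h, hinl, hinl, TrivSqZeroExt.inl_mul_inr, smul_eq_mul, mul_one]

theorem aeval_y2_cyclotomic : aeval (y2 p) (cyclotomic p ℤ) = 0 := by
  rw [aeval_y2, aeval_x2_cyclotomic, aeval_x2_derivative_cyclotomic, TrivSqZeroExt.inl_zero,
    TrivSqZeroExt.inr_zero, add_zero]

end defs

section main

variable {p : ℕ} [hp : Fact p.Prime] {K : Type*} [Field K] [NumberField K]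
  [IsCyclotomicExtension {p} ℚ K] {ζ : K} (hζ : IsPrimitiveRoot ζ p)

/-- The ring homomorphism `𝓞 K → R₂[ε]`, `ζ ↦ (1 + X) + ε`. -/
noncomputable def Psi : 𝓞 K →ₐ[ℤ] T2 p :=
  hζ.integralPowerBasis.lift (y2 p) (by
    have h1 : minpoly ℤ hζ.toInteger = minpoly ℤ ζ :=
      (RingOfIntegers.minpoly_coe hζ.toInteger).symm
    rw [hζ.integralPowerBasis_gen, h1, ← cyclotomic_eq_minpoly hζ hp.out.pos]
    exact aeval_y2_cyclotomic p)

theorem Psi_aeval (f : ℤ[X]) : Psi hζ (aeval hζ.toInteger f) = aeval (y2 p) f := by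
  rw [Psi, ← hζ.integralPowerBasis_gen, PowerBasis.lift_aeval]

theorem Psi_aeval_fst (f : ℤ[X]) : (Psi hζ (aeval hζ.toInteger f)).fst = aeval (x2 p) f := by
  rw [Psi_aeval, aeval_y2]; simp

theorem Psi_aeval_snd (f : ℤ[X]) :
    (Psi hζ (aeval hζ.toInteger f)).snd = aeval (x2 p) (derivative f) := by
  rw [Psi_aeval, aeval_y2]; simp

theorem natCast_T2_eq_zero : ((p : ℕ) : T2 p) = 0 := by
  have : ((p : ℕ) : T2 p) = algebraMap (ZMod p) (T2 p) ((p : ℕ) : ZMod p) := by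
    rw [map_natCast]
  rw [this, ZMod.natCast_self, map_zero]

theorem Psi_unit_fst_mul (u : (𝓞 K)ˣ) :
    (Psi hζ ((u⁻¹ : (𝓞 K)ˣ) : 𝓞 K)).fst * (Psi hζ (u : 𝓞 K)).fst = 1 := by
  rw [← TrivSqZeroExt.fst_mul, ← map_mul, Units.inv_mul, map_one, TrivSqZeroExt.fst_one]

/-- The logarithmic derivative modulo `p`, a homomorphism from the units of `ℤ[ζ]` to the
additive group of `𝔽_p[X]/(X^(p-2))`. -/
noncomputable def dlog : (𝓞 K)ˣ →* Multiplicative (R2 p) where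
  toFun u := Multiplicative.ofAdd
    ((Psi hζ ((u⁻¹ : (𝓞 K)ˣ) : 𝓞 K)).fst * (Psi hζ (u : 𝓞 K)).snd)
  map_one' := by simp
  map_mul' u v := by
    rw [← ofAdd_add]
    congr 1
    have h1 := Psi_unit_fst_mul hζ u
    have h2 := Psi_unit_fst_mul hζ v
    rw [mul_inv, Units.val_mul, Units.val_mul, map_mul, map_mul, TrivSqZeroExt.fst_mul,
      TrivSqZeroExt.snd_mul, MulOpposite.smul_eq_mul_unop, MulOpposite.unop_op, smul_eq_mul]
    linear_combination ((Psi hζ ((v⁻¹ : (𝓞 K)ˣ) : 𝓞 K)).fst * (Psi hζ (v : 𝓞 K)).snd) * h1 +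
      ((Psi hζ ((u⁻¹ : (𝓞 K)ˣ) : 𝓞 K)).fst * (Psi hζ (u : 𝓞 K)).snd) * h2

theorem toAdd_dlog (u : (𝓞 K)ˣ) : Multiplicative.toAdd (dlog hζ u) =
    (Psi hζ ((u⁻¹ : (𝓞 K)ˣ) : 𝓞 K)).fst * (Psi hζ (u : 𝓞 K)).snd := rfl

theorem Psi_unit_fst_mul_toAdd_dlog (u : (𝓞 K)ˣ) :
    (Psi hζ (u : 𝓞 K)).fst * Multiplicative.toAdd (dlog hζ u) = (Psi hζ (u : 𝓞 K)).snd := by
  rw [toAdd_dlog, ← mul_assoc, mul_comm (Psi hζ (u : 𝓞 K)).fst, Psi_unit_fst_mul, one_mul]

/-- Units congruent to a rational integer modulo `p` are killed by `dlog`. -/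
theorem dlog_eq_one_of_dvd (u : (𝓞 K)ˣ) (n : ℤ) (h : (p : 𝓞 K) ∣ (u : 𝓞 K) - n) :
    dlog hζ u = 1 := by
  obtain ⟨β, hβ⟩ := h
  have hu : (u : 𝓞 K) = n + p * β := by rw [← hβ]; ring
  have : Psi hζ (u : 𝓞 K) = ((n : ℤ) : T2 p) := by
    rw [hu, map_add, map_mul, map_intCast, map_natCast, natCast_T2_eq_zero, zero_mul, add_zero]
  apply Multiplicative.toAdd.injective
  rw [toAdd_dlog, this, TrivSqZeroExt.snd_intCast, mul_zero, toAdd_one]

end main

end Fermat.Agent.Kummer
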