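import Fermat.Agent.Kummer.KLPoly

/-!
# Explicit certificates for Kummer's lemma, `p = 5, 7, 11, 13` (generated by a script)
-/
set_option autoImplicit false
set_option linter.style.longLine false
open Polynomial
namespace Fermat.Agent.Kummer.KL

/-- The certificate for `p = 11`. -/
theorem cert_eleven : Cert 11 := by
  refine cert_of_cert' (r := 5) (by norm_num) ?_
  refine @cert'_of_matrix 11 5 9 ⟨by norm_num⟩ (by norm_num)
    (![![120, 60, 120, 180, 240],
      ![600, 330, 680, 1050, 1440],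
      ![1450, 860, 1810, 2850, 3980],
      ![2200, 1395, 2980, 4745, 6676],
      ![2299, 1552, 3349, 5356, 7524],
      ![1717, 1232, 2673, 4268, 5950],
      ![923, 704, 1528, 2422, 3341],
      ![351, 285, 615, 963, 1314],
      ![90, 78, 166, 256, 346]])
    (![14 + 1 * (X - 1),
      13 + 1 * (X - 1),
      27 + 2 * (X - 1),
      41 + 3 * (X - 1),
      55 + 4 * (X - 1)])
    (![![0, 5, 0, 10, 0, 6, 0, 2, 0],
      ![8, 3, 0, 9, 0, 0, 0, 10, 0],
      ![1, 10, 0, 5, 0, 2, 0, 6, 0],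
      ![7, 8, 0, 3, 0, 10, 0, 7, 0],
      ![0, 5, 0, 10, 0, 5, 0, 2, 0]]) ?_ ?_
  · intro g
    fin_cases g <;>
    · simp [PZ, E, Fin.prod_univ_succ, Fin.sum_univ_succ, Finset.sum_range_succ]
      try ring
  · decide

/-- The certificate for `p = 5`. -/
theorem cert_five : Cert 5 := by
  refine cert_of_cert' (r := 2) (by norm_num) ?_
  refine @cert'_of_matrix 5 2 3 ⟨by norm_num⟩ (by norm_num)
    (![![2, 1],
      ![1, 1],
      ![0, 0]])
    (![0,
      0])
    (![![1, 4, 0],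
      ![4, 2, 0]]) ?_ ?_
  · intro g
    fin_cases g <;>
    · simp [PZ, E, Fin.prod_univ_succ, Fin.sum_univ_succ, Finset.sum_range_succ]
      try ring
  · decide

/-- The certificate for `p = 7`. -/
theorem cert_seven : Cert 7 := by
  refine cert_of_cert' (r := 3) (by norm_num) ?_
  refine @cert'_of_matrix 7 3 5 ⟨by norm_num⟩ (by norm_num)
    (![![6, 3, 6],
      ![9, 6, 13],
      ![5, 4, 9],
      ![1, 1, 2],
      ![0, 0, 0]])
    (![0,
      0,
      0])
    (![![5, 0, 0, 6, 0],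
      ![4, 5, 0, 1, 0],
      ![6, 1, 0, 4, 0]]) ?_ ?_
  · intro g
    fin_cases g <;>
    · simp [PZ, E, Fin.prod_univ_succ, Fin.sum_univ_succ, Finset.sum_range_succ]
      try ring
  · decide

/-- The certificate for `p = 13`. -/
theorem cert_thirteen : Cert 13 := by
  refine cert_of_cert' (r := 6) (by norm_num) ?_
  refine @cert'_of_matrix 13 6 11 ⟨by norm_num⟩ (by norm_num)
    (![![720, 360, 720, 1080, 1440, 1800],
      ![5400, 2880, 5880, 9000, 12240, 15600],
      ![20100, 11310, 23460, 36450, 50280, 64950],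
      ![48750, 28770, 60430, 94920, 132156, 172030],
      ![85514, 52747, 111914, 177141, 247924, 323615],
      ![114257, 73512, 157223, 250078, 350660, 457250],
      ![119573, 80159, 172483, 274997, 385236, 500545],
      ![99426, 69420, 149995, 239128, 333895, 431656],
      ![66014, 48010, 103950, 165322, 229676, 295254],
      ![34900, 26452, 57259, 90640, 125139, 159970],
      ![14536, 11492, 24803, 38998, 53475, 68006]])
    (![4674 + 1121 * (X - 1) + 189 * (X - 1) ^ 2 + 20 * (X - 1) ^ 3 + 1 * (X - 1) ^ 4,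
      3859 + 968 * (X - 1) + 171 * (X - 1) ^ 2 + 19 * (X - 1) ^ 3 + 1 * (X - 1) ^ 4,
      8278 + 2056 * (X - 1) + 358 * (X - 1) ^ 2 + 39 * (X - 1) ^ 3 + 2 * (X - 1) ^ 4,
      12905 + 3174 * (X - 1) + 547 * (X - 1) ^ 2 + 59 * (X - 1) ^ 3 + 3 * (X - 1) ^ 4,
      17575 + 4295 * (X - 1) + 736 * (X - 1) ^ 2 + 79 * (X - 1) ^ 3 + 4 * (X - 1) ^ 4,
      22249 + 5416 * (X - 1) + 925 * (X - 1) ^ 2 + 99 * (X - 1) ^ 3 + 5 * (X - 1) ^ 4])
    (![![10, 6, 0, 10, 0, 11, 0, 8, 0, 6, 0],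
      ![12, 1, 0, 5, 0, 9, 0, 3, 0, 9, 0],
      ![12, 10, 0, 5, 0, 5, 0, 7, 0, 4, 0],
      ![10, 5, 0, 6, 0, 12, 0, 7, 0, 10, 0],
      ![11, 3, 0, 2, 0, 5, 0, 0, 0, 1, 0],
      ![11, 1, 0, 6, 0, 4, 0, 10, 0, 3, 0]]) ?_ ?_
  · intro g
    fin_cases g <;>
    · simp [PZ, E, Fin.prod_univ_succ, Fin.sum_univ_succ, Finset.sum_range_succ]
      try ring
  · decide

end Fermat.Agent.Kummer.KL
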