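import Fermat.Agent.Kummer.Defs

/-!
# `p`-th powers in `𝓞 K` are congruent to rational integers modulo `p`
-/

set_option autoImplicit false
set_option linter.unusedSectionVars false
set_option linter.style.longLine false

open NumberField

namespace Fermat.Agent.Kummer

/-- Freshman's dream for finite sums in a commutative ring, up to a multiple of `p`. -/
lemma exists_sum_pow_prime_eq {R : Type*} [CommRing R] {p : ℕ} (hp : p.Prime) {ι : Type*}
    (s : Finset ι) (y : ι → R) :
    ∃ r : R, (∑ j ∈ s, y j) ^ p = ∑ j ∈ s, y j ^ p + (p : R) * r := by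
  classical
  induction s using Finset.induction_on with
  | empty => exact ⟨0, by simp [hp.ne_zero]⟩
  | insert i s hi ih =>
    obtain ⟨r, hr⟩ := ih
    obtain ⟨r', hr'⟩ := exists_add_pow_prime_eq hp (y i) (∑ j ∈ s, y j)
    refine ⟨r + y i * (∑ j ∈ s, y j) * r', ?_⟩
    rw [Finset.sum_insert hi, Finset.sum_insert hi, hr', hr]
    ring

variable {p : ℕ} [hp : Fact p.Prime] {K : Type*} [Field K] [NumberField K]
  [IsCyclotomicExtension {p} ℚ K] {ζ : K} (hζ : IsPrimitiveRoot ζ p)

include hζ in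
/-- Every `p`-th power in `𝓞 K` is congruent to a rational integer modulo `p`. -/
theorem exists_int_dvd_pow_sub (x : 𝓞 K) : ∃ m : ℤ, (p : 𝓞 K) ∣ x ^ p - (m : 𝓞 K) := by
  let B := hζ.integralPowerBasis
  have hgen : B.gen = hζ.toInteger := hζ.integralPowerBasis_gen
  have hx : x = ∑ j : Fin B.dim, (B.basis.repr x j) • hζ.toInteger ^ (j : ℕ) := by
    conv_lhs => rw [← B.basis.sum_repr x]
    refine Finset.sum_congr rfl fun j _ => ?_
    rw [PowerBasis.coe_basis, hgen]
  obtain ⟨r, hr⟩ := exists_sum_pow_prime_eq hp.out Finset.univ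
    (fun j : Fin B.dim => (B.basis.repr x j) • hζ.toInteger ^ (j : ℕ))
  refine ⟨∑ j : Fin B.dim, (B.basis.repr x j) ^ p, r, ?_⟩
  have hpow : hζ.toInteger ^ p = 1 := hζ.toInteger_isPrimitiveRoot.pow_eq_one
  have hterm : ∀ j : Fin B.dim, ((B.basis.repr x j) • hζ.toInteger ^ (j : ℕ)) ^ p
      = (((B.basis.repr x j) ^ p : ℤ) : 𝓞 K) := by
    intro j
    rw [zsmul_eq_mul, mul_pow, ← pow_mul, mul_comm (j : ℕ) p, pow_mul, hpow, one_pow, mul_one]
    push_cast
    rfl
  rw [← hx] at hr
  rw [hr, Finset.sum_congr rfl fun j _ => hterm j]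
  push_cast
  ring

end Fermat.Agent.Kummer
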