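import Fermat.Agent.Kummer.KLRank
import Fermat.Agent.Kummer.PowModP

/-!
# Independence modulo `p` of the cyclotomic units from a polynomial certificate
-/

set_option autoImplicit false
set_option linter.unusedSectionVars false
set_option linter.style.longLine false

open NumberField Polynomial

namespace Fermat.Agent.Kummer.KL

/-- The polynomials whose values at `ζ` are the units `ζ, 1 + ζ, 1 + ζ + ζ², …`. -/
noncomputable def E (g : ℕ) : ℤ[X] := if g = 0 then X else ∑ j ∈ Finset.range (g + 1), X ^ j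

/-- Reduction of `E g` modulo `p`. -/
noncomputable def Ebar (p : ℕ) (g : ℕ) : (ZMod p)[X] := (E g).map (Int.castRingHom (ZMod p))

/-- The polynomials `P_g = E_g' * ∏_{h ≠ g} E_h` modulo `p`. -/
noncomputable def Pbar (p : ℕ) (g : Fin ((p - 1) / 2)) : (ZMod p)[X] :=
  derivative (Ebar p g) * ∏ h ∈ Finset.univ.erase g, Ebar p h

/-- The certificate: the `P_g` are linearly independent modulo `(X - 1) ^ (p - 2)`. -/
def Cert (p : ℕ) : Prop :=
  ∀ c : Fin ((p - 1) / 2) → ZMod p,
    (X - 1 : (ZMod p)[X]) ^ (p - 2) ∣ ∑ g, C (c g) * Pbar p g → c = 0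

variable {p : ℕ} [hp : Fact p.Prime] {K : Type*} [Field K] [NumberField K]
  [IsCyclotomicExtension {p} ℚ K] {ζ : K} (hζ : IsPrimitiveRoot ζ p)

include hζ in
lemma isUnit_aeval_E (g : ℕ) (hg : g + 1 < p) : IsUnit (aeval hζ.toInteger (E g)) := by
  have hprim := hζ.toInteger_isPrimitiveRoot
  unfold E
  split_ifs with h0
  · rw [aeval_X]
    exact hprim.isUnit hp.out.ne_zero
  · rw [map_sum]
    simp only [map_pow, aeval_X]
    refine hprim.geom_sum_isUnit hp.out.two_le ?_
    exact ((Nat.Prime.coprime_iff_not_dvd hp.out).mpr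
      (Nat.not_dvd_of_pos_of_lt (Nat.succ_pos g) hg)).symm

/-- The family of units `ζ, 1 + ζ, …, 1 + ζ + ⋯ + ζ ^ ((p - 3) / 2)`. -/
noncomputable def us (g : Fin ((p - 1) / 2)) : (𝓞 K)ˣ :=
  (isUnit_aeval_E hζ g.1 (by have := g.2; omega)).unit

lemma coe_us (g : Fin ((p - 1) / 2)) : ((us hζ g : (𝓞 K)ˣ) : 𝓞 K) = aeval hζ.toInteger (E g.1) :=
  rfl


include hζ in
/-- To prove independence modulo `p` it suffices to treat natural exponents. -/
lemma indepModP_of_nat {ι : Type*} [Fintype ι] (vs : ι → (𝓞 K)ˣ)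
    (h : ∀ (a : ι → ℕ) (n : ℤ),
      (p : 𝓞 K) ∣ (∏ i, (vs i : 𝓞 K) ^ a i) - (n : 𝓞 K) → ∀ i, p ∣ a i) :
    IndepModP p vs := by
  intro a n hdiv i
  -- natural exponents `b i = a i + p * |a i|`
  have hb : ∀ i, ∃ b : ℕ, (b : ℤ) = a i + p * (a i).natAbs := by
    intro i
    refine ⟨(a i + p * (a i).natAbs).toNat, Int.toNat_of_nonneg ?_⟩
    have h1 : (1 : ℤ) ≤ p := by exact_mod_cast hp.out.one_le
    have h2 : (0 : ℤ) ≤ ((a i).natAbs : ℤ) := Int.natCast_nonneg _
    have h3 : -((a i).natAbs : ℤ) ≤ a i := by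
      rw [Int.natCast_natAbs]; exact neg_abs_le (a i)
    nlinarith
  choose b hb using hb
  set x : 𝓞 K := ∏ i, (vs i : 𝓞 K) ^ (a i).natAbs with hx
  obtain ⟨m, hm⟩ := exists_int_dvd_pow_sub hζ x
  have hprod : (∏ i, (vs i : 𝓞 K) ^ b i)
      = ((∏ i, vs i ^ a i : (𝓞 K)ˣ) : 𝓞 K) * x ^ p := by
    have hfac : ∀ i, vs i ^ b i = vs i ^ a i * (vs i ^ (a i).natAbs) ^ p := by
      intro i
      rw [← zpow_natCast (vs i) (b i), hb i, zpow_add, mul_comm (p : ℤ), zpow_mul, zpow_natCast,
        zpow_natCast]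
    have hgrp : (∏ i, vs i ^ b i) = (∏ i, vs i ^ a i) * (∏ i, vs i ^ (a i).natAbs) ^ p := by
      rw [← Finset.prod_pow, ← Finset.prod_mul_distrib]
      exact Finset.prod_congr rfl fun i _ => hfac i
    have := congrArg (fun u : (𝓞 K)ˣ => (u : 𝓞 K)) hgrp
    simp only [Units.coe_prod, Units.val_mul, Units.val_pow_eq_pow_val] at this
    rw [this, hx, Units.coe_prod]
  have key : (p : 𝓞 K) ∣ (∏ i, (vs i : 𝓞 K) ^ b i) - ((n * m : ℤ) : 𝓞 K) := by
    rw [hprod]
    obtain ⟨w1, hw1⟩ := hdiv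
    obtain ⟨w2, hw2⟩ := hm
    refine ⟨w1 * x ^ p + (n : 𝓞 K) * w2, ?_⟩
    have e1 : ((∏ i, vs i ^ a i : (𝓞 K)ˣ) : 𝓞 K) = (n : 𝓞 K) + (p : 𝓞 K) * w1 := by
      rw [← hw1]; ring
    have e2 : x ^ p = (m : 𝓞 K) + (p : 𝓞 K) * w2 := by rw [← hw2]; ring
    rw [e1]
    push_cast
    rw [e2]
    ring
  have hpb := h b (n * m) key i
  have : (p : ℤ) ∣ (b i : ℤ) := by exact_mod_cast hpb
  rw [hb i] at this
  exact (dvd_add_left (dvd_mul_right _ _)).mp this


include hζ in
/-- A congruence modulo `p` in `𝓞 K` lifts to a congruence modulo `(p, Φ_p)` in `ℤ[X]`. -/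
lemma exists_poly_of_dvd (F : ℤ[X]) (n : ℤ)
    (h : (p : 𝓞 K) ∣ aeval hζ.toInteger F - (n : 𝓞 K)) :
    ∃ G H : ℤ[X], F - C n = C (p : ℤ) * G + cyclotomic p ℤ * H := by
  obtain ⟨w, hw⟩ := h
  let B := hζ.integralPowerBasis
  have hgen : B.gen = hζ.toInteger := hζ.integralPowerBasis_gen
  obtain ⟨G, hG⟩ := B.exists_eq_aeval' w
  rw [hgen] at hG
  have hzero : aeval hζ.toInteger (F - C n - C (p : ℤ) * G) = 0 := by
    have hC1 : aeval hζ.toInteger (C n : ℤ[X]) = (n : 𝓞 K) := by simp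
    have hC2 : aeval hζ.toInteger (C (p : ℤ) : ℤ[X]) = (p : 𝓞 K) := by simp
    rw [map_sub, map_sub, map_mul, hC1, hC2, ← hG, hw]
    ring
  have hmin : cyclotomic p ℤ = minpoly ℤ hζ.toInteger := by
    rw [cyclotomic_eq_minpoly hζ hp.out.pos, ← RingOfIntegers.minpoly_coe]
    rfl
  have hint : IsIntegral ℤ hζ.toInteger := RingOfIntegers.isIntegral _
  obtain ⟨H, hH⟩ := minpoly.isIntegrallyClosed_dvd hint hzero
  refine ⟨G, H, ?_⟩
  rw [hmin, ← hH]
  ring


/-- Modulo `p`, the `p`-th cyclotomic polynomial is `(X - 1) ^ (p - 1)`. -/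
lemma cyclotomic_zmod_eq : cyclotomic p (ZMod p) = (X - 1) ^ (p - 1) := by
  have h := cyclotomic_mul_prime_eq_pow_of_not_dvd (ZMod p) (p := p) (n := 1)
    (by simpa using hp.out.one_lt.ne')
  rwa [one_mul, cyclotomic_one] at h

/-- If `F ≡ n` modulo `(p, Φ_p)` then `(X - 1) ^ (p - 2)` divides the derivative of `F` mod `p`. -/
lemma dvd_derivative_map (hp3 : 3 ≤ p) {F G H : ℤ[X]} {n : ℤ}
    (h : F - C n = C (p : ℤ) * G + cyclotomic p ℤ * H) :
    (X - 1 : (ZMod p)[X]) ^ (p - 2) ∣ derivative (F.map (Int.castRingHom (ZMod p))) := by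
  have h1 := congrArg (Polynomial.map (Int.castRingHom (ZMod p))) h
  simp only [Polynomial.map_sub, Polynomial.map_add, Polynomial.map_mul, Polynomial.map_C,
    map_cyclotomic] at h1
  simp only [eq_intCast, Int.cast_natCast, CharP.cast_eq_zero, map_zero, zero_mul,
    zero_add] at h1
  rw [cyclotomic_zmod_eq] at h1
  have h2 : F.map (Int.castRingHom (ZMod p))
      = C ((n : ZMod p)) + (X - 1) ^ (p - 1) * H.map (Int.castRingHom (ZMod p)) := by
    rw [← h1]; ring
  rw [h2, derivative_add, derivative_C, zero_add, derivative_mul]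
  have hpow : (X - 1 : (ZMod p)[X]) ^ (p - 1) = (X - 1) ^ (p - 2) * (X - 1) := by
    rw [← pow_succ]; congr 1; omega
  refine dvd_add ?_ ?_
  · rw [derivative_pow]
    simp only [derivative_sub, derivative_X, derivative_one, sub_zero, mul_one]
    have : p - 1 - 1 = p - 2 := by omega
    rw [this]
    exact Dvd.dvd.mul_right (Dvd.intro_left _ rfl) _
  · rw [hpow]
    exact Dvd.dvd.mul_right (Dvd.intro _ rfl) _


/-- The logarithmic-derivative identity for a product of powers. -/
lemma prod_mul_derivative_prod_pow {R : Type*} [CommRing R] {ι : Type*} [Fintype ι]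
    [DecidableEq ι] (f : ι → R[X]) (a : ι → ℕ) :
    (∏ i, f i) * derivative (∏ i, f i ^ a i)
      = (∏ i, f i ^ a i) *
          ∑ i, C (a i : R) * (derivative (f i) * ∏ j ∈ Finset.univ.erase i, f j) := by
  rw [derivative_prod_finset, Finset.mul_sum, Finset.mul_sum]
  refine Finset.sum_congr rfl fun i _ => ?_
  rw [derivative_pow, ← Finset.mul_prod_erase Finset.univ f (Finset.mem_univ i),
    ← Finset.mul_prod_erase Finset.univ (fun j => f j ^ a j) (Finset.mem_univ i)]
  rcases Nat.eq_zero_or_pos (a i) with h0 | hpos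
  · simp [h0]
  · have : f i ^ a i = f i * f i ^ (a i - 1) := (mul_pow_sub_one hpos.ne' (f i)).symm
    rw [this]
    simp only [map_natCast]
    ring


/-- `E g` does not vanish at `1` modulo `p`. -/
lemma eval_one_Ebar_ne_zero (g : ℕ) (hg : g + 1 < p) : (Ebar p g).eval 1 ≠ 0 := by
  unfold Ebar E
  split_ifs with h0
  · simp
  · simp only [Polynomial.map_sum, Polynomial.map_pow, Polynomial.map_X, eval_finsetSum, eval_pow,
      eval_X, one_pow, Finset.sum_const, Finset.card_range, nsmul_eq_mul, mul_one]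
    intro h
    rw [ZMod.natCast_eq_zero_iff] at h
    exact Nat.not_dvd_of_pos_of_lt (Nat.succ_pos g) hg h

/-- A polynomial over `ZMod p` not vanishing at `1` is coprime to every power of `X - 1`. -/
lemma isCoprime_X_sub_one_pow {f : (ZMod p)[X]} (hf : f.eval 1 ≠ 0) (k : ℕ) :
    IsCoprime ((X - 1 : (ZMod p)[X]) ^ k) f := by
  refine IsCoprime.pow_left ?_
  have hirr : Irreducible (X - C (1 : ZMod p)) := irreducible_X_sub_C 1
  rw [map_one] at hirr
  rw [hirr.coprime_iff_not_dvd]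
  intro hdvd
  have : (X - C (1 : ZMod p)) ∣ f := by rwa [map_one]
  rw [dvd_iff_isRoot] at this
  exact hf this

include hζ in
/-- **Independence modulo `p` of the cyclotomic units from the polynomial certificate.** -/
theorem indepModP_us (hp5 : 5 ≤ p) (hcert : Cert p) : IndepModP p (us hζ) := by
  classical
  refine indepModP_of_nat hζ (us hζ) ?_
  intro a n hdiv
  set F : ℤ[X] := ∏ g : Fin ((p - 1) / 2), E g.1 ^ a g with hFdef
  have hF : aeval hζ.toInteger F = ∏ g, ((us hζ g : (𝓞 K)ˣ) : 𝓞 K) ^ a g := by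
    simp only [hFdef, map_prod, map_pow, coe_us]
  rw [← hF] at hdiv
  obtain ⟨G, H, hGH⟩ := exists_poly_of_dvd hζ F n hdiv
  have hder := dvd_derivative_map (by omega) hGH
  have hFmap : F.map (Int.castRingHom (ZMod p)) = ∏ g : Fin ((p - 1) / 2), Ebar p g.1 ^ a g := by
    simp only [hFdef, Polynomial.map_prod, Polynomial.map_pow, Ebar]
  rw [hFmap] at hder
  have hmul : (X - 1 : (ZMod p)[X]) ^ (p - 2) ∣
      (∏ g : Fin ((p - 1) / 2), Ebar p g.1 ^ a g) * ∑ g, C ((a g : ℕ) : ZMod p) * Pbar p g := by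
    have := prod_mul_derivative_prod_pow (fun g : Fin ((p - 1) / 2) => Ebar p g.1) a
    unfold Pbar
    rw [← this]
    exact Dvd.dvd.mul_left hder _
  have hcop : IsCoprime ((X - 1 : (ZMod p)[X]) ^ (p - 2))
      (∏ g : Fin ((p - 1) / 2), Ebar p g.1 ^ a g) := by
    refine isCoprime_X_sub_one_pow ?_ _
    rw [eval_prod]
    refine Finset.prod_ne_zero_iff.mpr fun g _ => ?_
    rw [eval_pow]
    exact pow_ne_zero _ (eval_one_Ebar_ne_zero g.1 (by have := g.2; omega))
  have hdvd := hcop.dvd_of_dvd_mul_left hmul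
  have hc := hcert (fun g => ((a g : ℕ) : ZMod p)) hdvd
  intro i
  have := congrFun hc i
  exact (ZMod.natCast_eq_zero_iff (a i) p).mp this


include hζ in
/-- **Kummer's lemma from the polynomial certificate.** -/
theorem kummerLemmaHolds_of_cert (hp5 : 5 ≤ p) (hcert : Cert p) : KummerLemmaHolds p K := by
  classical
  have hp2 : p ≠ 2 := by omega
  have hpu : ¬ IsUnit (p : 𝓞 K) := fun hu =>
    hζ.zeta_sub_one_prime'.not_isUnit (isUnit_of_dvd_unit hζ.toInteger_sub_one_dvd_prime' hu)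
  have hr1 : 0 < (p - 1) / 2 := by omega
  refine kummerLemmaHolds_of_indepModP hp.out hp2 hpu (us hζ) ⟨0, hr1⟩ ?_ ?_
    (indepModP_us hζ hp5 hcert)
  · -- the unit rank
    rw [Fintype.card_fin, Units.rank, InfinitePlace.card_eq_nrRealPlaces_add_nrComplexPlaces,
      IsCyclotomicExtension.Rat.nrRealPlaces_eq_zero K (n := p) (by omega),
      IsCyclotomicExtension.Rat.nrComplexPlaces_eq_totient_div_two p K,
      Nat.totient_prime hp.out]
    omega
  · -- squares of torsion units are powers of `ζ`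
    intro w hw
    have hord : w ^ (Units.torsionOrder K) = 1 := by
      have := pow_card_eq_one' (G := Units.torsion K) (x := ⟨w, hw⟩)
      rw [Units.torsionOrder]
      have h2 := congrArg Subtype.val this
      rwa [Subgroup.coe_pow, Subgroup.coe_one] at h2
    rw [IsCyclotomicExtension.Rat.torsionOrder_eq (n := p) (K := K),
      if_neg (Nat.not_even_iff_odd.mpr (hp.out.odd_of_ne_two hp2))] at hord
    have h1 : ((w : 𝓞 K) ^ 2) ^ p = 1 := by
      rw [← pow_mul]
      have h2 := congrArg (fun u : (𝓞 K)ˣ => (u : 𝓞 K)) hord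
      simpa using h2
    obtain ⟨i, -, hi⟩ := hζ.toInteger_isPrimitiveRoot.eq_pow_of_pow_eq_one h1
    refine ⟨i, ?_⟩
    apply Units.ext
    rw [zpow_natCast, Units.val_pow_eq_pow_val, Units.val_pow_eq_pow_val, coe_us]
    simp only [E, if_true, aeval_X]
    exact hi.symm


/-! ### A checkable form of the certificate -/

/-- The integer polynomial `P_g = E_g' * ∏_{h ≠ g} E_h` for a family of `r` units. -/
noncomputable def PZ (r : ℕ) (g : Fin r) : ℤ[X] :=
  derivative (E g) * ∏ h : Fin r, if h = g then 1 else E h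

/-- The certificate with an explicit number `r` of units. -/
def Cert' (p r : ℕ) : Prop :=
  ∀ c : Fin r → ZMod p,
    (X - 1 : (ZMod p)[X]) ^ (p - 2) ∣
      ∑ g, C (c g) * (PZ r g).map (Int.castRingHom (ZMod p)) → c = 0

lemma cert_of_cert' {p r : ℕ} (hr : r = (p - 1) / 2) (h : Cert' p r) : Cert p := by
  classical
  subst hr
  intro c hc
  refine h c ?_
  convert hc using 3 with g _
  unfold Pbar PZ Ebar
  rw [Polynomial.map_mul, Polynomial.map_prod, derivative_map]
  congr 1
  rw [← Finset.prod_erase_mul _ _ (Finset.mem_univ g)]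
  simp only [if_true, Polynomial.map_one, mul_one]
  refine Finset.prod_congr rfl fun h hh => ?_
  rw [if_neg (Finset.ne_of_mem_erase hh)]

/-- `L` is a left inverse modulo `p` of the integer matrix `M`. -/
def LeftInv (p r d : ℕ) (M : Fin d → Fin r → ℤ) (L : Fin r → Fin d → ZMod p) : Prop :=
  ∀ i g, ∑ k, L i k * ((M k g : ℤ) : ZMod p) = if i = g then 1 else 0

instance (p r d : ℕ) (M : Fin d → Fin r → ℤ) (L : Fin r → Fin d → ZMod p) :
    Decidable (LeftInv p r d M L) := by
  unfold LeftInv; infer_instance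

/-- The certificate follows from explicit Taylor expansions at `1` together with a left inverse
modulo `p` of the matrix of Taylor coefficients. -/
theorem cert'_of_matrix {p r d : ℕ} [Fact p.Prime] (hd : d = p - 2) (M : Fin d → Fin r → ℤ)
    (S : Fin r → ℤ[X]) (L : Fin r → Fin d → ZMod p)
    (hexp : ∀ g, PZ r g = ∑ k : Fin d, C (M k g) * (X - 1) ^ (k : ℕ) + (X - 1) ^ d * S g)
    (hLM : LeftInv p r d M L) :
    Cert' p r := by
  classical
  subst hd
  unfold LeftInv at hLM
  intro c hc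
  -- reduce the expansions modulo `p`
  have hexp' : ∀ g, (PZ r g).map (Int.castRingHom (ZMod p))
      = ∑ k : Fin (p - 2), C ((M k g : ℤ) : ZMod p) * (X - 1) ^ (k : ℕ)
        + (X - 1) ^ (p - 2) * (S g).map (Int.castRingHom (ZMod p)) := by
    intro g
    rw [hexp g]
    simp [Polynomial.map_sum]
  -- the part of degree `< p - 2`
  set T : (ZMod p)[X] := ∑ k : Fin (p - 2), C (∑ g, ((M k g : ℤ) : ZMod p) * c g) * (X - 1) ^ (k : ℕ)
    with hT
  have hsum : ∑ g, C (c g) * (PZ r g).map (Int.castRingHom (ZMod p))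
      = T + (X - 1) ^ (p - 2) * ∑ g, C (c g) * (S g).map (Int.castRingHom (ZMod p)) := by
    simp_rw [hexp', mul_add, Finset.sum_add_distrib, Finset.mul_sum]
    congr 1
    · rw [hT, Finset.sum_comm]
      refine Finset.sum_congr rfl fun k _ => ?_
      rw [map_sum, Finset.sum_mul]
      refine Finset.sum_congr rfl fun g _ => ?_
      rw [map_mul]; ring
    · refine Finset.sum_congr rfl fun g _ => ?_
      ring
  rw [hsum] at hc
  have hT' : (X - 1 : (ZMod p)[X]) ^ (p - 2) ∣ T :=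
    (dvd_add_left (Dvd.intro _ rfl)).mp hc
  -- shift `X ↦ X + 1`
  have hcomp := map_dvd (compRingHom (X + 1 : (ZMod p)[X])) hT'
  simp only [coe_compRingHom_apply] at hcomp
  have h1 : ((X - 1 : (ZMod p)[X]) ^ (p - 2)).comp (X + 1) = X ^ (p - 2) := by
    simp
  have h2 : T.comp (X + 1) = ∑ k : Fin (p - 2), C (∑ g, ((M k g : ℤ) : ZMod p) * c g) * X ^ (k : ℕ) := by
    rw [hT]
    simp [Polynomial.sum_comp]
  rw [h1, h2, X_pow_dvd_iff] at hcomp
  have hd : ∀ k : Fin (p - 2), ∑ g, ((M k g : ℤ) : ZMod p) * c g = 0 := by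
    intro k
    have := hcomp k k.2
    rw [finsetSum_coeff] at this
    simp only [coeff_C_mul, coeff_X_pow] at this
    rw [Finset.sum_eq_single k] at this
    · simpa using this
    · intro b _ hb
      rw [if_neg (fun h => hb (Fin.ext h.symm)), mul_zero]
    · intro h; exact absurd (Finset.mem_univ k) h
  funext i
  have : c i = ∑ g, (∑ k, L i k * ((M k g : ℤ) : ZMod p)) * c g := by
    simp [hLM]
  rw [this]
  simp_rw [Finset.sum_mul]
  rw [Finset.sum_comm]
  simp_rw [mul_assoc, ← Finset.mul_sum, hd, mul_zero]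
  simp

end Fermat.Agent.Kummer.KL
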