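import Fermat.Agent.Kummer.Defs

/-!
# Kummer's lemma from independence modulo `p` of a full-rank family of units
-/

set_option autoImplicit false
set_option linter.unusedSectionVars false
set_option linter.style.longLine false

open NumberField NumberField.Units

namespace Fermat.Agent.Kummer.KL

/-- A family of units is *independent modulo `p`* if a product of integer powers of its members is
congruent to a rational integer modulo `p` only when all exponents are divisible by `p`. -/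
def IndepModP (p : ℕ) {K : Type*} [Field K] [NumberField K] {ι : Type*} [Fintype ι]
    (us : ι → (𝓞 K)ˣ) : Prop :=
  ∀ (a : ι → ℤ) (n : ℤ),
    (p : 𝓞 K) ∣ ((∏ i, us i ^ a i : (𝓞 K)ˣ) : 𝓞 K) - (n : 𝓞 K) → ∀ i, (p : ℤ) ∣ a i

variable {p : ℕ} {K : Type*} [Field K] [NumberField K]

/-- Congruence to an integer modulo `p` is stable under natural powers. -/
lemma exists_int_pow_of_dvd_sub {x : 𝓞 K} {n : ℤ} (h : (p : 𝓞 K) ∣ x - (n : 𝓞 K)) (m : ℕ) :
    (p : 𝓞 K) ∣ x ^ m - ((n ^ m : ℤ) : 𝓞 K) := by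
  push_cast
  exact h.trans (sub_dvd_pow_sub_pow _ _ m)

/-- Congruence to an integer modulo `p` passes to the inverse of a unit, provided `p` is not a
unit. -/
lemma exists_int_inv_of_dvd_sub (hp : p.Prime) (hpu : ¬ IsUnit (p : 𝓞 K)) {u : (𝓞 K)ˣ} {n : ℤ}
    (h : (p : 𝓞 K) ∣ (u : 𝓞 K) - (n : 𝓞 K)) :
    ∃ n' : ℤ, (p : 𝓞 K) ∣ ((u⁻¹ : (𝓞 K)ˣ) : 𝓞 K) - (n' : 𝓞 K) := by
  have hpn : ¬ (p : ℤ) ∣ n := by
    rintro ⟨k, rfl⟩
    apply hpu
    have : (p : 𝓞 K) ∣ (u : 𝓞 K) := by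
      have h2 : (p : 𝓞 K) ∣ ((p * k : ℤ) : 𝓞 K) := ⟨(k : 𝓞 K), by push_cast; ring⟩
      simpa using dvd_add h h2
    exact isUnit_of_dvd_unit this u.isUnit
  have hcop : IsCoprime n (p : ℤ) := by
    rw [isCoprime_comm]
    exact (Nat.prime_iff_prime_int.mp hp).coprime_iff_not_dvd.mpr hpn
  obtain ⟨s, t, hst⟩ := hcop
  refine ⟨s, ?_⟩
  obtain ⟨w, hw⟩ := h
  refine ⟨((u⁻¹ : (𝓞 K)ˣ) : 𝓞 K) * ((t : 𝓞 K) - (s : 𝓞 K) * w), ?_⟩
  have h1 : ((u⁻¹ : (𝓞 K)ˣ) : 𝓞 K) * (u : 𝓞 K) = 1 := by simp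
  have h2 : (s : 𝓞 K) * (n : 𝓞 K) + (t : 𝓞 K) * (p : 𝓞 K) = 1 := by exact_mod_cast congrArg (Int.cast : ℤ → 𝓞 K) hst
  have h3 : (n : 𝓞 K) = (u : 𝓞 K) - (p : 𝓞 K) * w := by rw [← hw]; ring
  calc ((u⁻¹ : (𝓞 K)ˣ) : 𝓞 K) - (s : 𝓞 K)
      = ((u⁻¹ : (𝓞 K)ˣ) : 𝓞 K) * ((s : 𝓞 K) * (n : 𝓞 K) + (t : 𝓞 K) * (p : 𝓞 K))
          - (s : 𝓞 K) * (((u⁻¹ : (𝓞 K)ˣ) : 𝓞 K) * (u : 𝓞 K)) := by rw [h1, h2]; ring
    _ = (p : 𝓞 K) * (((u⁻¹ : (𝓞 K)ˣ) : 𝓞 K) * ((t : 𝓞 K) - (s : 𝓞 K) * w)) := by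
        rw [h3]; ring

/-- Congruence to an integer modulo `p` is stable under integer powers of units. -/
lemma exists_int_zpow_of_dvd_sub (hp : p.Prime) (hpu : ¬ IsUnit (p : 𝓞 K)) {u : (𝓞 K)ˣ} {n : ℤ}
    (h : (p : 𝓞 K) ∣ (u : 𝓞 K) - (n : 𝓞 K)) (b : ℤ) :
    ∃ n' : ℤ, (p : 𝓞 K) ∣ ((u ^ b : (𝓞 K)ˣ) : 𝓞 K) - (n' : 𝓞 K) := by
  obtain ⟨m, rfl | rfl⟩ := b.eq_nat_or_neg
  · exact ⟨n ^ m, by simpa using exists_int_pow_of_dvd_sub h m⟩
  · obtain ⟨n', hn'⟩ := exists_int_inv_of_dvd_sub hp hpu h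
    refine ⟨n' ^ m, ?_⟩
    have := exists_int_pow_of_dvd_sub hn' m
    simpa using this


/-- A family of `finrank + 1` units satisfies a nontrivial multiplicative relation whose exponents
are not all divisible by `p`, up to torsion. -/
lemma exists_rel_mem_torsion (hp : p.Prime) {ι : Type*} [Fintype ι] (ws : ι → (𝓞 K)ˣ)
    (hcard : Fintype.card ι = rank K + 1) :
    ∃ g : ι → ℤ, (∃ j, ¬ (p : ℤ) ∣ g j) ∧ (∏ i, ws i ^ g i) ∈ torsion K := by
  classical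
  have hdep : ¬ LinearIndependent ℤ (fun i => Additive.ofMul (ws i)) := by
    intro hli
    have := hli.fintype_card_le_finrank
    rw [Units.finrank_eq, hcard] at this
    omega
  rw [Fintype.not_linearIndependent_iff] at hdep
  obtain ⟨g, hg, j, hj⟩ := hdep
  obtain ⟨g', hg', hgcd⟩ := Finset.extract_gcd g (Finset.univ_nonempty_iff.mpr ⟨j⟩)
  set d := Finset.univ.gcd g with hd
  have hd0 : d ≠ 0 := by
    intro h0
    apply hj
    rw [hg' j (Finset.mem_univ j), h0, zero_mul]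
  refine ⟨g', ?_, ?_⟩
  · by_contra hcon
    push Not at hcon
    have : (p : ℤ) ∣ Finset.univ.gcd g' := Finset.dvd_gcd fun i _ => hcon i
    rw [hgcd] at this
    exact (Nat.prime_iff_prime_int.mp hp).not_dvd_one this
  · have hpow : (∏ i, ws i ^ g' i) ^ d = 1 := by
      have h1 : Additive.ofMul (∏ i, ws i ^ g i) = 0 := by
        rw [← hg]
        simp [ofMul_prod, ofMul_zpow]
      have h2 : ∏ i, ws i ^ g i = 1 := ofMul_eq_zero.mp h1
      rw [← h2, ← Finset.prod_zpow]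
      refine Finset.prod_congr rfl fun i hi => ?_
      rw [← zpow_mul, hg' i hi, mul_comm]
    rw [torsion, CommGroup.mem_torsion, isOfFinOrder_iff_zpow_eq_one]
    exact ⟨d, hd0, hpow⟩


/-- **Kummer's lemma from independence modulo `p`.**  Let `us` be a family of `rank K + 1` units,
independent modulo `p`, one of whose members `us i₀` generates the squares of the torsion units.
Then every unit congruent to a rational integer modulo `p` is a `p`-th power. -/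
theorem kummerLemmaHolds_of_indepModP (hp : p.Prime) (hp2 : p ≠ 2) (hpu : ¬ IsUnit (p : 𝓞 K))
    {ι : Type*} [Fintype ι] [DecidableEq ι] (us : ι → (𝓞 K)ˣ) (i₀ : ι)
    (hcard : Fintype.card ι = rank K + 1)
    (htors : ∀ w ∈ torsion K, ∃ k : ℤ, w ^ 2 = us i₀ ^ k)
    (hind : IndepModP p us) : KummerLemmaHolds p K := by
  rintro u ⟨n, hn⟩
  have hpZ : Prime (p : ℤ) := Nat.prime_iff_prime_int.mp hp
  have hp2' : ¬ (p : ℤ) ∣ 2 := by
    intro h
    have h2 : p ∣ 2 := by exact_mod_cast h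
    exact hp2 ((Nat.prime_dvd_prime_iff_eq hp Nat.prime_two).mp h2)
  obtain ⟨g, ⟨j, hj⟩, hW⟩ := exists_rel_mem_torsion hp (Function.update us i₀ u) hcard
  obtain ⟨k, hk⟩ := htors _ hW
  set R : (𝓞 K)ˣ := ∏ i ∈ Finset.univ.erase i₀, us i ^ g i with hR
  have hsplit : ∏ i, Function.update us i₀ u i ^ g i = u ^ g i₀ * R := by
    rw [← Finset.mul_prod_erase Finset.univ _ (Finset.mem_univ i₀), Function.update_self]
    congr 1
    refine Finset.prod_congr rfl fun i hi => ?_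
    rw [Function.update_of_ne (Finset.ne_of_mem_erase hi)]
  rw [hsplit] at hk
  -- the exponent vector to which independence is applied
  set a : ι → ℤ := fun i => if i = i₀ then -k else 2 * g i with ha
  have hprod : ∏ i, us i ^ a i = u ^ (-(2 * g i₀)) := by
    rw [← Finset.mul_prod_erase Finset.univ _ (Finset.mem_univ i₀)]
    have h1 : ∏ i ∈ Finset.univ.erase i₀, us i ^ a i = R ^ 2 := by
      rw [hR, ← Finset.prod_pow]
      refine Finset.prod_congr rfl fun i hi => ?_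
      simp only [ha, if_neg (Finset.ne_of_mem_erase hi)]
      rw [mul_comm, zpow_mul, zpow_ofNat]
    have h2 : us i₀ ^ a i₀ = (us i₀ ^ k)⁻¹ := by simp [ha]
    rw [h1, h2, ← hk, mul_pow, zpow_neg, zpow_mul', zpow_ofNat]
    simp
  obtain ⟨n', hn'⟩ := exists_int_zpow_of_dvd_sub hp hpu hn (-(2 * g i₀))
  have hdiv : ∀ i, (p : ℤ) ∣ a i := hind a n' (by rw [hprod]; exact hn')
  have hgi : ∀ i, i ≠ i₀ → (p : ℤ) ∣ g i := by
    intro i hi
    have := hdiv i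
    simp only [ha, if_neg hi] at this
    exact (hpZ.dvd_mul.mp this).resolve_left hp2'
  have hb : ¬ (p : ℤ) ∣ g i₀ := by
    by_cases hji : j = i₀
    · rwa [hji] at hj
    · exact absurd (hgi j hji) hj
  choose a' ha' using hdiv
  set w : (𝓞 K)ˣ := ∏ i, us i ^ (-(a' i)) with hw
  have hwp : w ^ (p : ℤ) = u ^ (2 * g i₀) := by
    have : w ^ (p : ℤ) = (∏ i, us i ^ a i)⁻¹ := by
      rw [hw, ← Finset.prod_zpow, ← Finset.prod_inv_distrib]
      refine Finset.prod_congr rfl fun i _ => ?_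
      rw [← zpow_mul, ha' i, ← zpow_neg]
      congr 1
      ring
    rw [this, hprod, zpow_neg, inv_inv]
  have hcop : IsCoprime (2 * g i₀) (p : ℤ) := by
    rw [isCoprime_comm]
    refine hpZ.coprime_iff_not_dvd.mpr fun h => ?_
    exact hb ((hpZ.dvd_mul.mp h).resolve_left hp2')
  obtain ⟨s, t, hst⟩ := hcop
  refine ⟨w ^ s * u ^ t, ?_⟩
  have : (w ^ s * u ^ t) ^ (p : ℤ) = u := by
    rw [mul_zpow, ← zpow_mul, ← zpow_mul, mul_comm s, zpow_mul, hwp, ← zpow_mul, ← zpow_add]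
    have : 2 * g i₀ * s + t * (p : ℤ) = 1 := by rw [← hst]; ring
    rw [this, zpow_one]
  rw [← zpow_natCast]
  exact this.symm

end Fermat.Agent.Kummer.KL
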