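import Fermat.Agent.Kummer.KummerGeneric

set_option autoImplicit false

/-!
# Reduction of the Kummer certificate to an explicit matrix identity
-/

namespace Fermat.Agent.Kummer

open Polynomial

theorem certHolds_of_matrix {p d n : ℕ} (hn : n = p - 2) (f Q : Fin d → ℤ[X])
    (Mint : Matrix (Fin d) (Fin n) ℤ) (H : Fin d → ℤ[X])
    (hN : ∀ i, (derivative (f i) * Q i).comp (X + 1) =
      (∑ k : Fin n, C (Mint i k) * X ^ (k : ℕ)) + X ^ n * H i)
    (L : Matrix (Fin n) (Fin d) (ZMod p))
    (hL : (Mint.map (Int.cast : ℤ → ZMod p)) * L = 1) : CertHolds p f Q := by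
  classical
  intro c hdvd
  rw [← hn] at hdvd
  set φ := Int.castRingHom (ZMod p) with hφ
  have key : ∀ i, ((derivative (f i) * Q i).map φ).comp (X + 1) =
      (∑ k : Fin n, C ((Mint i k : ℤ) : ZMod p) * X ^ (k : ℕ)) + X ^ n * (H i).map φ := by
    intro i
    have h := congrArg (Polynomial.map φ) (hN i)
    rw [Polynomial.map_comp] at h
    simpa [Polynomial.map_sum] using h
  -- the vector `a = c ᵥ* M`
  set M : Matrix (Fin d) (Fin n) (ZMod p) := Mint.map (Int.cast : ℤ → ZMod p) with hM
  have hsum : ∑ i, C (c i) * ((derivative (f i) * Q i).map φ).comp (X + 1) =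
      (∑ k : Fin n, C (Matrix.vecMul c M k) * X ^ (k : ℕ)) +
        X ^ n * ∑ i, C (c i) * (H i).map φ := by
    simp only [key, mul_add, Finset.sum_add_distrib, Finset.mul_sum]
    congr 1
    · rw [Finset.sum_comm]
      refine Finset.sum_congr rfl fun k _ => ?_
      simp only [Matrix.vecMul, dotProduct, map_sum, Finset.sum_mul, hM, Matrix.map_apply, map_mul]
      refine Finset.sum_congr rfl fun i _ => ?_
      ring
    · refine Finset.sum_congr rfl fun i _ => ?_
      ring
  rw [hsum, dvd_add_left (dvd_mul_right _ _), X_pow_dvd_iff] at hdvd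
  have ha : Matrix.vecMul c M = 0 := by
    funext k
    have h := hdvd k k.2
    rw [finsetSum_coeff] at h
    simp only [coeff_C_mul_X_pow] at h
    rw [Finset.sum_eq_single k] at h
    · simpa using h
    · intro b _ hb
      rw [if_neg]
      exact fun hkb => hb (Fin.ext hkb.symm)
    · intro hk; exact absurd (Finset.mem_univ k) hk
  calc c = Matrix.vecMul c (1 : Matrix (Fin d) (Fin d) (ZMod p)) := (Matrix.vecMul_one c).symm
    _ = Matrix.vecMul c (M * L) := by rw [hL]
    _ = Matrix.vecMul (Matrix.vecMul c M) L := (Matrix.vecMul_vecMul c M L).symm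
    _ = 0 := by rw [ha, Matrix.zero_vecMul]

section units

open NumberField

variable {p : ℕ} [hp : Fact p.Prime] {K : Type*} [Field K] [CharZero K]
  {ζ : K} (hζ : IsPrimitiveRoot ζ p)

theorem isUnit_zeta : IsUnit hζ.toInteger :=
  hζ.toInteger_isPrimitiveRoot.isUnit hp.out.pos.ne'

theorem isUnit_geom (j : ℕ) (hj : j.Coprime p) :
    IsUnit (∑ i ∈ Finset.range j, hζ.toInteger ^ i) :=
  hζ.toInteger_isPrimitiveRoot.geom_sum_isUnit hp.out.two_le hj

end units

end Fermat.Agent.Kummer
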