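import Mathlib

set_option autoImplicit false

/-!
# The unit group of `ℤ[ζ_p]` is generated by `(p - 1) / 2` elements
-/

namespace Fermat.Agent.Kummer

open NumberField NumberField.Units

/-- The units of the ring of integers of a number field are generated by `rank + 1` elements. -/
theorem exists_generators_units (K : Type*) [Field K] [NumberField K] :
    ∃ g : Fin (rank K + 1) → (𝓞 K)ˣ, Subgroup.closure (Set.range g) = ⊤ := by
  obtain ⟨t, ht⟩ := (inferInstance : IsCyclic (torsion K)).exists_generator
  refine ⟨Fin.cons (t : (𝓞 K)ˣ) (fundSystem K), ?_⟩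
  have key : Subgroup.closure {(t : (𝓞 K)ˣ)} = torsion K := by
    apply le_antisymm
    · rw [Subgroup.closure_le]
      intro x hx
      rw [Set.mem_singleton_iff.mp hx]
      exact t.2
    · intro x hx
      obtain ⟨k, hk⟩ := Subgroup.mem_zpowers_iff.mp (ht ⟨x, hx⟩)
      rw [Subgroup.mem_closure_singleton]
      exact ⟨k, by simpa using congrArg Subtype.val hk⟩
  rw [Fin.range_cons, Set.insert_eq, Subgroup.closure_union, key, sup_comm]
  exact closure_fundSystem_sup_torsion_eq_top K

theorem rank_cyclotomic {p : ℕ} [hp : Fact p.Prime] (hp3 : 3 ≤ p) (K : Type*) [Field K]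
    [NumberField K] [IsCyclotomicExtension {p} ℚ K] : rank K + 1 = (p - 1) / 2 := by
  have : NeZero p := ⟨hp.out.ne_zero⟩
  have h1 : InfinitePlace.nrRealPlaces K = 0 :=
    IsCyclotomicExtension.Rat.nrRealPlaces_eq_zero (n := p) K (by omega)
  have h2 : InfinitePlace.nrComplexPlaces K = (p - 1) / 2 := by
    rw [IsCyclotomicExtension.Rat.nrComplexPlaces_eq_totient_div_two p K,
      Nat.totient_prime hp.out]
  have h3 := InfinitePlace.card_eq_nrRealPlaces_add_nrComplexPlaces K
  rw [rank, h3, h1, h2, zero_add]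
  have : 1 ≤ (p - 1) / 2 := by omega
  omega

/-- The units of `ℤ[ζ_p]` are generated by `(p - 1) / 2` elements. -/
theorem exists_generators_units_cyclotomic {p : ℕ} [hp : Fact p.Prime] (hp3 : 3 ≤ p) (K : Type*)
    [Field K] [NumberField K] [IsCyclotomicExtension {p} ℚ K] :
    ∃ g : Fin ((p - 1) / 2) → (𝓞 K)ˣ, Subgroup.closure (Set.range g) = ⊤ := by
  rw [← rank_cyclotomic hp3 K]
  exact exists_generators_units K

end Fermat.Agent.Kummer
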