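import Fermat.Agent.Kummer.Defs
import Fermat.Agent.Kummer.UnitLinAlg
import Fermat.Agent.Kummer.UnitGens
import Fermat.Agent.Kummer.Dlog

set_option autoImplicit false

/-!
# Kummer's lemma for a fixed prime from a finite certificate
-/

namespace Fermat.Agent.Kummer

open Polynomial NumberField

variable {p : ℕ} [hp : Fact p.Prime] {K : Type*} [Field K] [NumberField K]
  [IsCyclotomicExtension {p} ℚ K] {ζ : K} (hζ : IsPrimitiveRoot ζ p)


theorem smul_R2 (c : ZMod p) (z : R2 p) : c • z = Ideal.Quotient.mk (I2 p) (C c) * z := by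
  obtain ⟨q, rfl⟩ := Ideal.Quotient.mk_surjective z
  rw [← map_mul, ← smul_eq_C_mul]
  rfl

/-- The certificate: the polynomials `(f_i' * Q_i)(1 + X) mod p` are linearly independent modulo
`X ^ (p - 2)`. Here `Q_i` is the product of the `f_j` for `j ≠ i`. -/
def CertHolds (p : ℕ) {d : ℕ} (f Q : Fin d → ℤ[X]) : Prop :=
  ∀ c : Fin d → ZMod p,
    (X : (ZMod p)[X]) ^ (p - 2) ∣
      ∑ i, C (c i) * ((derivative (f i) * Q i).map (Int.castRingHom (ZMod p))).comp (X + 1) →
    c = 0

theorem kummerLemmaHolds_of_cert (hp3 : 3 ≤ p) (f Q : Fin ((p - 1) / 2) → ℤ[X])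
    (hQ : ∀ i, Q i * f i = ∏ j, f j)
    (hunit : ∀ i, IsUnit (aeval hζ.toInteger (f i))) (hcert : CertHolds p f Q) :
    KummerLemmaHolds p K := by
  classical
  intro x ⟨n, hn⟩
  obtain ⟨g, hg⟩ := exists_generators_units_cyclotomic hp3 K
  set u : Fin ((p - 1) / 2) → (𝓞 K)ˣ := fun i => (hunit i).unit with hu
  have hucoe : ∀ i, ((u i : (𝓞 K)ˣ) : 𝓞 K) = aeval hζ.toInteger (f i) := fun i =>
    (hunit i).unit_spec
  refine exists_pow_eq_of_map_eq_one (dlog hζ) g hg u ?_ x (dlog_eq_one_of_dvd hζ x n hn)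
  rw [Fintype.linearIndependent_iff]
  intro c hc
  have hc0 : c = 0 := by
    apply hcert
    rw [← Ideal.mem_span_singleton, ← Ideal.Quotient.eq_zero_iff_mem, map_sum]
    -- multiply the relation by the product of the first components
    have hmul := congrArg (fun z => (aeval (x2 p) (∏ j, f j)) * z) hc
    simp only [mul_zero, Finset.mul_sum] at hmul
    rw [← hmul]
    refine Finset.sum_congr rfl fun i _ => ?_
    rw [map_mul, ← aeval_x2, map_mul, ← hQ i, map_mul, ← Psi_aeval_snd hζ, ← hucoe i,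
      ← Psi_unit_fst_mul_toAdd_dlog hζ (u i), hucoe i, Psi_aeval_fst, smul_R2]
    ring
  intro i
  rw [hc0]; rfl

end Fermat.Agent.Kummer
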