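import Fermat.Agent.Kummer.Defs
import Fermat.Agent.Kummer.KLPoly
import Fermat.Agent.Kummer.KLCert

/-!
# (C) Kummer's lemma for `p = 5, 7, 11, 13` by a finite computation

A unit of `ℤ[ζ_p]` congruent to a rational integer modulo `p` is a `p`-th power.  The proof
(`KLRank`, `KLPoly`) uses Dirichlet's unit theorem and the independence modulo `p` of the
cyclotomic units `ζ, 1 + ζ, …`, which is checked through logarithmic derivatives by an explicit
linear-algebra certificate (`KLCert`).
-/

set_option autoImplicit false

open NumberField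

namespace Fermat.Agent.Kummer

theorem kummerLemma_eleven (K : Type*) [Field K] [NumberField K] [IsCyclotomicExtension {11} ℚ K] :
    KummerLemmaHolds 11 K := by
  have : Fact (Nat.Prime 11) := ⟨by norm_num⟩
  exact KL.kummerLemmaHolds_of_cert (IsCyclotomicExtension.zeta_spec 11 ℚ K) (by norm_num)
    KL.cert_eleven

theorem kummerLemma_five (K : Type*) [Field K] [NumberField K] [IsCyclotomicExtension {5} ℚ K] :
    KummerLemmaHolds 5 K := by
  have : Fact (Nat.Prime 5) := ⟨by norm_num⟩
  exact KL.kummerLemmaHolds_of_cert (IsCyclotomicExtension.zeta_spec 5 ℚ K) (by norm_num)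
    KL.cert_five

theorem kummerLemma_seven (K : Type*) [Field K] [NumberField K] [IsCyclotomicExtension {7} ℚ K] :
    KummerLemmaHolds 7 K := by
  have : Fact (Nat.Prime 7) := ⟨by norm_num⟩
  exact KL.kummerLemmaHolds_of_cert (IsCyclotomicExtension.zeta_spec 7 ℚ K) (by norm_num)
    KL.cert_seven

theorem kummerLemma_thirteen (K : Type*) [Field K] [NumberField K]
    [IsCyclotomicExtension {13} ℚ K] : KummerLemmaHolds 13 K := by
  have : Fact (Nat.Prime 13) := ⟨by norm_num⟩
  exact KL.kummerLemmaHolds_of_cert (IsCyclotomicExtension.zeta_spec 13 ℚ K) (by norm_num)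
    KL.cert_thirteen

end Fermat.Agent.Kummer
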