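/-
T-KUMMER (B): the rings of integers of the 7-th and 11-th cyclotomic fields are principal ideal
domains.  Method: Minkowski bound + `inertiaDeg_eq_of_not_dvd` + explicit generators of the primes
of degree one below the bound (certificates computed offline).
-/
import Mathlib

set_option autoImplicit false

open NumberField Ideal Polynomial Module InfinitePlace Real

namespace Fermat.Agent.Kummer

section Generic

variable {R : Type*} [CommRing R] {q : ℕ}

/-- If `z` generates `R` as a ring and `z ≡ r` modulo `α`, then every element of `R`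
is congruent to an integer modulo `α`. -/
theorem exists_int_sub_mem_span {z : R} (hz : Algebra.adjoin ℤ {z} = ⊤) (r : ℤ) {α γ : R}
    (h2 : α * γ = z - r) (x : R) : ∃ n : ℤ, x - n ∈ span {α} := by
  have hx : x ∈ Algebra.adjoin ℤ {z} := by rw [hz]; exact Algebra.mem_top
  induction hx using Algebra.adjoin_induction with
  | mem y hy =>
    rw [Set.mem_singleton_iff] at hy
    subst hy
    exact ⟨r, mem_span_singleton.mpr ⟨γ, h2.symm⟩⟩
  | algebraMap n =>
    refine ⟨n, ?_⟩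
    simp
  | add a b _ _ ha hb =>
    obtain ⟨m, hm⟩ := ha
    obtain ⟨n, hn⟩ := hb
    refine ⟨m + n, ?_⟩
    have : a + b - ((m + n : ℤ) : R) = (a - m) + (b - n) := by push_cast; ring
    rw [this]
    exact add_mem hm hn
  | mul a b _ _ ha hb =>
    obtain ⟨m, hm⟩ := ha
    obtain ⟨n, hn⟩ := hb
    refine ⟨m * n, ?_⟩
    have : a * b - ((m * n : ℤ) : R) = (a - m) * b + (m : R) * (b - n) := by push_cast; ring
    rw [this]
    exact add_mem (Ideal.mul_mem_right _ _ hm) (Ideal.mul_mem_left _ _ hn)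

/-- Certificate that the kernel of a ring hom `f : R → ZMod q` is the principal ideal `(α)`. -/
theorem ker_eq_span_of_certificate (f : R →+* ZMod q) {z : R} (hz : Algebra.adjoin ℤ {z} = ⊤)
    (r : ℤ) {α β γ : R} (h1 : α * β = q) (h2 : α * γ = z - r) (h3 : f α = 0) :
    RingHom.ker f = span {α} := by
  apply le_antisymm
  · intro x hx
    rw [RingHom.mem_ker] at hx
    obtain ⟨n, hn⟩ := exists_int_sub_mem_span hz r h2 x
    have hn' : f (x - n) = 0 := by
      obtain ⟨c, hc⟩ := mem_span_singleton.mp hn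
      rw [hc, map_mul, h3, zero_mul]
    rw [map_sub, hx, zero_sub, neg_eq_zero, map_intCast, ZMod.intCast_zmod_eq_zero_iff_dvd] at hn'
    obtain ⟨m, rfl⟩ := hn'
    have : x = (x - ((q * m : ℤ) : R)) + α * (β * m) := by
      push_cast; rw [← mul_assoc, h1]; ring
    rw [this]
    exact add_mem hn (Ideal.mul_mem_right _ _ (mem_span_singleton_self α))
  · rw [span_le, Set.singleton_subset_iff]
    exact h3

/-- A prime of degree one over `q` is principal, from an explicit certificate. -/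
theorem exists_isPrincipal_mem_primesOver_of_certificate [Fact q.Prime] (f : R →+* ZMod q)
    {z : R} (hz : Algebra.adjoin ℤ {z} = ⊤)
    (r : ℤ) {α β γ : R} (h1 : α * β = q) (h2 : α * γ = z - r) (h3 : f α = 0) :
    ∃ P ∈ primesOver (span {(q : ℤ)}) R, Submodule.IsPrincipal P := by
  refine ⟨RingHom.ker f, ⟨RingHom.ker_isPrime f, ⟨?_⟩⟩, ?_⟩
  · rw [Ideal.under_def, RingHom.comap_ker,
      show f.comp (algebraMap ℤ R) = Int.castRingHom (ZMod q) from RingHom.ext_int _ _,
      ZMod.ker_intCastRingHom]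
  · rw [ker_eq_span_of_certificate f hz r h1 h2 h3]
    exact ⟨⟨α, rfl⟩⟩

end Generic

section Cyclo

variable {p : ℕ} [hp : Fact p.Prime] {K : Type*} [Field K] [NumberField K]
  [hK : IsCyclotomicExtension {p} ℚ K] {ζ : K} (hζ : IsPrimitiveRoot ζ p)

include hζ in
theorem adjoin_toInteger_eq_top : Algebra.adjoin ℤ {hζ.toInteger} = ⊤ := by
  have := hζ.integralPowerBasis.adjoin_gen_eq_top
  rwa [hζ.integralPowerBasis_gen] at this

omit hK in
theorem minpoly_toInteger : minpoly ℤ hζ.toInteger = cyclotomic p ℤ := by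
  rw [← RingOfIntegers.minpoly_coe, cyclotomic_eq_minpoly hζ hp.out.pos]
  rfl

theorem aeval_minpoly_gen_eq_zero {q : ℕ} (r : ZMod q) (hr : ∑ i ∈ Finset.range p, r ^ i = 0) :
    aeval r (minpoly ℤ hζ.integralPowerBasis.gen) = 0 := by
  rw [hζ.integralPowerBasis_gen, minpoly_toInteger hζ, cyclotomic_prime]
  simpa using hr

/-- The ring hom `𝓞 K → ZMod q` sending `ζ` to `r`, where `r` is a root of the `p`-th cyclotomic
polynomial modulo `q`. -/
noncomputable def toZModHom (q : ℕ) (r : ZMod q) (hr : ∑ i ∈ Finset.range p, r ^ i = 0) :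
    𝓞 K →+* ZMod q :=
  (hζ.integralPowerBasis.lift r (aeval_minpoly_gen_eq_zero hζ r hr)).toRingHom

theorem toZModHom_toInteger (q : ℕ) (r : ZMod q) (hr : ∑ i ∈ Finset.range p, r ^ i = 0) :
    toZModHom hζ q r hr hζ.toInteger = r := by
  have := hζ.integralPowerBasis.lift_gen r (aeval_minpoly_gen_eq_zero hζ r hr)
  rw [hζ.integralPowerBasis_gen] at this
  exact this

omit hK [NumberField K] in
theorem geom_sum_toInteger : ∑ i ∈ Finset.range p, hζ.toInteger ^ i = 0 :=
  hζ.toInteger_isPrimitiveRoot.geom_sum_eq_zero hp.out.one_lt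

include hζ in
/-- The prime above `p` is principal. -/
theorem exists_isPrincipal_mem_primesOver_self :
    ∃ P ∈ primesOver (span {(p : ℤ)}) (𝓞 K), Submodule.IsPrincipal P := by
  have : (span {(p : ℤ)}).IsPrime :=
    (span_singleton_prime (by exact_mod_cast hp.out.ne_zero)).mpr
      (Nat.prime_iff_prime_int.mp hp.out)
  obtain ⟨⟨P, hP1, hP2⟩⟩ := (span {(p : ℤ)}).nonempty_primesOver (S := 𝓞 K)
  refine ⟨P, ⟨hP1, hP2⟩, ?_⟩
  rw [IsCyclotomicExtension.Rat.eq_span_zeta_sub_one_of_liesOver' p K hζ P]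
  exact ⟨⟨_, rfl⟩⟩

end Cyclo

/-! ### `p = 11` -/

section Eleven

variable (K : Type*) [Field K] [NumberField K] [IsCyclotomicExtension {11} ℚ K]

open Nat in
theorem minkowski_eleven :
    ⌊(4 / π) ^ nrComplexPlaces K *
      ((finrank ℚ K)! / (finrank ℚ K) ^ (finrank ℚ K) * √|discr K|)⌋₊ ≤ 58 := by
  have : Fact (Nat.Prime 11) := ⟨by norm_num⟩
  rw [IsCyclotomicExtension.Rat.discr_prime 11 K, IsCyclotomicExtension.finrank (n := 11) K
    (cyclotomic.irreducible_rat (by simp)),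
    IsCyclotomicExtension.Rat.nrComplexPlaces_eq_totient_div_two 11,
    Nat.totient_prime (by norm_num : Nat.Prime 11)]
  apply Nat.le_of_lt_succ
  rw [Nat.floor_lt' (by norm_num)]
  have h1 : √(2357947691 : ℝ) < 48560 := by
    rw [Real.sqrt_lt' (by norm_num)]
    norm_num
  have h2 : (4 / π) < 4 / 3.1415 := by
    apply div_lt_div_of_pos_left (by norm_num) (by norm_num) pi_gt_d4
  have h3 : (0 : ℝ) < 4 / π := by positivity
  have h4 : (4 / π) ^ 5 < (4 / 3.1415) ^ 5 := by gcongr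
  norm_num [Nat.factorial]
  calc (4 / π) ^ 5 * (567 / 1562500 * √2357947691)
      < (4 / 3.1415) ^ 5 * (567 / 1562500 * 48560) := by gcongr
    _ < 59 := by norm_num

theorem geom_sum_neg_ten_zmod_twentyThree :
    ∑ i ∈ Finset.range 11, ((-10 : ℤ) : ZMod 23) ^ i = 0 := by decide

theorem cert_eval_eleven : (1 : ZMod 23) - ((-10 : ℤ) : ZMod 23) + ((-10 : ℤ) : ZMod 23) ^ 3 = 0 := by
  decide

theorem key_eleven : ∀ q ∈ Finset.range 59, ∀ f ∈ ({1, 2, 5, 10} : Finset ℕ),
    q.Prime → q ≠ 11 → q ≠ 23 → ((q : ZMod 11) ^ f = 1) → 58 < q ^ f := by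
  decide

theorem lt_pow_orderOf_eleven {q : ℕ} (hq : q.Prime) (hq58 : q ≤ 58) (h11 : q ≠ 11)
    (h23 : q ≠ 23) : 58 < q ^ orderOf (q : ZMod 11) := by
  have : Fact (Nat.Prime 11) := ⟨by norm_num⟩
  have hne : (q : ZMod 11) ≠ 0 := by
    rw [Ne, ZMod.natCast_eq_zero_iff]
    intro h
    exact h11 ((Nat.prime_dvd_prime_iff_eq (by norm_num) hq).mp h).symm
  have h10 : (q : ZMod 11) ^ 10 = 1 := ZMod.pow_card_sub_one_eq_one hne
  have hdvd : orderOf (q : ZMod 11) ∣ 10 := orderOf_dvd_of_pow_eq_one h10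
  have hmem : orderOf (q : ZMod 11) ∈ ({1, 2, 5, 10} : Finset ℕ) := by
    have := Nat.mem_divisors.mpr ⟨hdvd, by norm_num⟩
    have h : Nat.divisors 10 = {1, 2, 5, 10} := by decide
    rwa [h] at this
  exact key_eleven q (Finset.mem_range.mpr (by omega)) _ hmem hq h11 h23 (pow_orderOf_eq_one _)

/-- A prime above `23` in `ℤ[ζ₁₁]` is principal, generated by `1 - ζ + ζ ^ 3`. -/
theorem exists_isPrincipal_twentyThree_eleven :
    ∃ P ∈ primesOver (span {((23 : ℕ) : ℤ)}) (𝓞 K), Submodule.IsPrincipal P := by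
  have : Fact (Nat.Prime 11) := ⟨by norm_num⟩
  have : Fact (Nat.Prime 23) := ⟨by norm_num⟩
  have hζ := IsCyclotomicExtension.zeta_spec 11 ℚ K
  set z := hζ.toInteger with hz
  have hΦ : ∑ i ∈ Finset.range 11, z ^ i = 0 := geom_sum_toInteger hζ
  simp only [Finset.sum_range_succ, Finset.sum_range_zero] at hΦ
  have hr := geom_sum_neg_ten_zmod_twentyThree
  refine exists_isPrincipal_mem_primesOver_of_certificate (toZModHom hζ 23 ((-10 : ℤ) : ZMod 23) hr)
    (adjoin_toInteger_eq_top hζ) (-10) (α := 1 - z + z ^ 3)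
    (β := 8 - 2 * z - z ^ 2 - 8 * z ^ 3 - 5 * z ^ 4 - 3 * z ^ 5 + 6 * z ^ 6 + 12 * z ^ 7
      + 16 * z ^ 8 + 11 * z ^ 9)
    (γ := 3 - z - z ^ 2 - 4 * z ^ 3 - 3 * z ^ 4 - 2 * z ^ 5 + 2 * z ^ 6 + 5 * z ^ 7 + 7 * z ^ 8
      + 5 * z ^ 9) ?_ ?_ ?_
  · push_cast
    linear_combination (-15 + 5 * z + 11 * z ^ 2) * hΦ
  · push_cast
    linear_combination (-7 + 2 * z + 5 * z ^ 2) * hΦ
  · simp only [map_add, map_sub, map_one, map_pow, toZModHom_toInteger, hz]
    exact cert_eval_eleven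

/-- The ring of integers of the `11`-th cyclotomic field is a principal ideal domain. -/
theorem eleven_pid : IsPrincipalIdealRing (𝓞 K) := by
  have : Fact (Nat.Prime 11) := ⟨by norm_num⟩
  have : IsGalois ℚ K := IsCyclotomicExtension.isGalois {11} ℚ K
  refine RingOfIntegers.isPrincipalIdealRing_of_isPrincipal_of_lt_or_isPrincipal_of_mem_primesOver_of_mem_Icc
    (fun q hq hqp ↦ ?_)
  have hq58 : q ≤ 58 := (Finset.mem_Icc.mp hq).2.trans (minkowski_eleven K)
  have : Fact q.Prime := ⟨hqp⟩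
  by_cases h11 : q = 11
  · subst h11
    obtain ⟨P, hP, hprin⟩ :=
      exists_isPrincipal_mem_primesOver_self (IsCyclotomicExtension.zeta_spec 11 ℚ K)
    exact ⟨P, hP, Or.inr hprin⟩
  by_cases h23 : q = 23
  · subst h23
    obtain ⟨P, hP, hprin⟩ := exists_isPrincipal_twentyThree_eleven K
    exact ⟨P, hP, Or.inr hprin⟩
  have : (span {(q : ℤ)}).IsPrime :=
    (span_singleton_prime (by exact_mod_cast hqp.ne_zero)).mpr (Nat.prime_iff_prime_int.mp hqp)
  obtain ⟨⟨P, hP1, hP2⟩⟩ := (span {(q : ℤ)}).nonempty_primesOver (S := 𝓞 K)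
  refine ⟨P, ⟨hP1, hP2⟩, Or.inl ?_⟩
  have hndvd : ¬ q ∣ 11 := fun h ↦ h11 ((Nat.prime_dvd_prime_iff_eq hqp (by norm_num)).mp h)
  rw [IsCyclotomicExtension.Rat.inertiaDeg_eq_of_not_dvd q K P hndvd]
  exact lt_of_le_of_lt (minkowski_eleven K) (lt_pow_orderOf_eleven hqp hq58 h11 h23)

end Eleven

/-! ### `p = 7` -/

section Seven

variable (K : Type*) [Field K] [NumberField K] [IsCyclotomicExtension {7} ℚ K]

open Nat in
theorem minkowski_seven :
    ⌊(4 / π) ^ nrComplexPlaces K *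
      ((finrank ℚ K)! / (finrank ℚ K) ^ (finrank ℚ K) * √|discr K|)⌋₊ ≤ 4 := by
  have : Fact (Nat.Prime 7) := ⟨by norm_num⟩
  rw [IsCyclotomicExtension.Rat.discr_prime 7 K, IsCyclotomicExtension.finrank (n := 7) K
    (cyclotomic.irreducible_rat (by simp)),
    IsCyclotomicExtension.Rat.nrComplexPlaces_eq_totient_div_two 7,
    Nat.totient_prime (by norm_num : Nat.Prime 7)]
  apply Nat.le_of_lt_succ
  rw [Nat.floor_lt' (by norm_num)]
  have h1 : √(16807 : ℝ) < 130 := by
    rw [Real.sqrt_lt' (by norm_num)]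
    norm_num
  have h2 : (4 / π) < 4 / 3.14 := by
    apply div_lt_div_of_pos_left (by norm_num) (by norm_num) pi_gt_d2
  have h3 : (0 : ℝ) < 4 / π := by positivity
  have h4 : (4 / π) ^ 3 < (4 / 3.14) ^ 3 := by gcongr
  norm_num [Nat.factorial]
  calc (4 / π) ^ 3 * (5 / 324 * √16807)
      < (4 / 3.14) ^ 3 * (5 / 324 * 130) := by gcongr
    _ < 5 := by norm_num

theorem key_seven : ∀ q ∈ Finset.range 5, ∀ f ∈ ({1, 2, 3, 6} : Finset ℕ),
    q.Prime → ((q : ZMod 7) ^ f = 1) → 4 < q ^ f := by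
  decide

theorem lt_pow_orderOf_seven {q : ℕ} (hq : q.Prime) (hq4 : q ≤ 4) :
    4 < q ^ orderOf (q : ZMod 7) := by
  have : Fact (Nat.Prime 7) := ⟨by norm_num⟩
  have hne : (q : ZMod 7) ≠ 0 := by
    rw [Ne, ZMod.natCast_eq_zero_iff]
    intro h
    have := Nat.le_of_dvd hq.pos h
    omega
  have h6 : (q : ZMod 7) ^ 6 = 1 := ZMod.pow_card_sub_one_eq_one hne
  have hdvd : orderOf (q : ZMod 7) ∣ 6 := orderOf_dvd_of_pow_eq_one h6
  have hmem : orderOf (q : ZMod 7) ∈ ({1, 2, 3, 6} : Finset ℕ) := by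
    have := Nat.mem_divisors.mpr ⟨hdvd, by norm_num⟩
    have h : Nat.divisors 6 = {1, 2, 3, 6} := by decide
    rwa [h] at this
  exact key_seven q (Finset.mem_range.mpr (by omega)) _ hmem hq (pow_orderOf_eq_one _)

/-- The ring of integers of the `7`-th cyclotomic field is a principal ideal domain. -/
theorem seven_pid : IsPrincipalIdealRing (𝓞 K) := by
  have : Fact (Nat.Prime 7) := ⟨by norm_num⟩
  have : IsGalois ℚ K := IsCyclotomicExtension.isGalois {7} ℚ K
  refine RingOfIntegers.isPrincipalIdealRing_of_isPrincipal_of_lt_or_isPrincipal_of_mem_primesOver_of_mem_Icc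
    (fun q hq hqp ↦ ?_)
  have hq4 : q ≤ 4 := (Finset.mem_Icc.mp hq).2.trans (minkowski_seven K)
  have : Fact q.Prime := ⟨hqp⟩
  have : (span {(q : ℤ)}).IsPrime :=
    (span_singleton_prime (by exact_mod_cast hqp.ne_zero)).mpr (Nat.prime_iff_prime_int.mp hqp)
  obtain ⟨⟨P, hP1, hP2⟩⟩ := (span {(q : ℤ)}).nonempty_primesOver (S := 𝓞 K)
  refine ⟨P, ⟨hP1, hP2⟩, Or.inl ?_⟩
  have hndvd : ¬ q ∣ 7 := fun h ↦ by
    have := (Nat.prime_dvd_prime_iff_eq hqp (by norm_num)).mp h
    omega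
  rw [IsCyclotomicExtension.Rat.inertiaDeg_eq_of_not_dvd q K P hndvd]
  exact lt_of_le_of_lt (minkowski_seven K) (lt_pow_orderOf_seven hqp hq4)

end Seven

end Fermat.Agent.Kummer
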