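import Mathlib

/-
T-KUMMER (helper6): the ring of integers of the 13-th cyclotomic field is a PID.

Method: Mathlib's Minkowski-bound criterion for Galois number fields
(`RingOfIntegers.isPrincipalIdealRing_of_isPrincipal_of_lt_or_isPrincipal_of_mem_primesOver_of_mem_Icc`),
the Minkowski bound is `< 313`; for a prime `l ≤ 312` different from `3, 13, 53, 79, 131, 157`
the residue degree `orderOf (l : ZMod 13)` satisfies `l ^ f > 312`; for `l = 13` the prime is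
`(ζ - 1)`; for `l ∈ {3, 53, 79, 131, 157}` an explicit principal prime is exhibited through the
Kummer-Dedekind description `P = (l, Q(θ))` and three explicit ring identities.
-/

open NumberField Ideal Polynomial

set_option linter.unusedSimpArgs false
set_option linter.style.longLine false

namespace Fermat.Agent.Kummer.PID13

section generic

variable {K : Type*} [Field K] [NumberField K] {θ : 𝓞 K} {ℓ : ℕ} [Fact ℓ.Prime]

theorem exists_isPrincipal_of_cert (hexp : ¬ ℓ ∣ RingOfIntegers.exponent θ) (Q : ℤ[X])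
    (hQ : Q.map (Int.castRingHom (ZMod ℓ)) ∈ RingOfIntegers.monicFactorsMod θ ℓ)
    (α β γ u v : 𝓞 K) (h1 : α * β = ℓ) (h2 : α * γ = aeval θ Q)
    (h3 : α = ℓ * u + aeval θ Q * v) :
    ∃ P ∈ primesOver (span {(ℓ : ℤ)}) (𝓞 K), Submodule.IsPrincipal P := by
  refine ⟨_, ((NumberField.Ideal.primesOverSpanEquivMonicFactorsMod hexp).symm ⟨_, hQ⟩).prop, ?_⟩
  rw [NumberField.Ideal.primesOverSpanEquivMonicFactorsMod_symm_apply_eq_span hexp hQ]
  refine ⟨α, ?_⟩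
  rw [Ideal.submodule_span_eq]
  apply le_antisymm
  · rw [Ideal.span_le]
    intro x hx
    rcases hx with rfl | hx
    · exact Ideal.mem_span_singleton'.mpr ⟨β, by rw [mul_comm]; exact h1⟩
    · rw [Set.mem_singleton_iff] at hx
      subst hx
      exact Ideal.mem_span_singleton'.mpr ⟨γ, by rw [mul_comm]; exact h2⟩
  · rw [Ideal.span_le, Set.singleton_subset_iff, h3]
    refine Ideal.add_mem _ (Ideal.mul_mem_right _ _ (Ideal.subset_span (by simp)))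
      (Ideal.mul_mem_right _ _ (Ideal.subset_span (by simp)))

end generic

section cyclo

variable (p : ℕ) [hp : Fact p.Prime] (K : Type*) [Field K] [NumberField K]
  [IsCyclotomicExtension {p} ℚ K]

/-- the chosen primitive root, as an algebraic integer -/
noncomputable def theta : 𝓞 K := (IsCyclotomicExtension.zeta_spec p ℚ K).toInteger

lemma minpoly_theta : minpoly ℤ (theta p K) = cyclotomic p ℤ := by
  have h := cyclotomic_eq_minpoly (IsCyclotomicExtension.zeta_spec p ℚ K) hp.out.pos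
  rw [h, ← RingOfIntegers.minpoly_coe (theta p K)]
  rfl

lemma exponent_theta : RingOfIntegers.exponent (theta p K) = 1 := by
  rw [RingOfIntegers.exponent_eq_one_iff]
  exact IsCyclotomicExtension.Rat.adjoin_singleton_eq_top (IsCyclotomicExtension.zeta_spec p ℚ K)

lemma not_dvd_exponent_theta (ℓ : ℕ) [hℓ : Fact ℓ.Prime] :
    ¬ ℓ ∣ RingOfIntegers.exponent (theta p K) := by
  rw [exponent_theta]
  exact hℓ.out.not_dvd_one

lemma sum_theta_pow : ∑ i ∈ Finset.range p, (theta p K) ^ i = 0 := by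
  have h := minpoly.aeval ℤ (theta p K)
  rw [minpoly_theta, cyclotomic_prime] at h
  simpa using h

lemma mem_monicFactorsMod_of (ℓ : ℕ) [hℓ : Fact ℓ.Prime] (Q R S : ℤ[X]) (hQm : Q.Monic)
    (hirr : Irreducible (Q.map (Int.castRingHom (ZMod ℓ))))
    (hdvd : cyclotomic p ℤ = Q * R + C (ℓ : ℤ) * S) :
    Q.map (Int.castRingHom (ZMod ℓ)) ∈ RingOfIntegers.monicFactorsMod (theta p K) ℓ := by
  rw [Multiset.mem_toFinset, Polynomial.mem_normalizedFactors_iff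
    (map_monic_ne_zero (minpoly.monic (theta p K).isIntegral))]
  refine ⟨hirr, hQm.map _, ?_⟩
  rw [minpoly_theta, hdvd]
  refine ⟨R.map (Int.castRingHom (ZMod ℓ)), ?_⟩
  simp

lemma linear_mem_monicFactorsMod (ℓ : ℕ) [hℓ : Fact ℓ.Prime] (r : ℤ)
    (hr : (∑ i ∈ Finset.range p, (r : ZMod ℓ) ^ i) = 0) :
    (X - C r : ℤ[X]).map (Int.castRingHom (ZMod ℓ)) ∈
      RingOfIntegers.monicFactorsMod (theta p K) ℓ := by
  rw [Multiset.mem_toFinset, Polynomial.mem_normalizedFactors_iff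
    (map_monic_ne_zero (minpoly.monic (theta p K).isIntegral))]
  simp only [Polynomial.map_sub, map_X, map_C]
  refine ⟨irreducible_X_sub_C _, monic_X_sub_C _, ?_⟩
  rw [dvd_iff_isRoot, minpoly_theta, map_cyclotomic, cyclotomic_prime, IsRoot.def,
    eval_finsetSum]
  simpa using hr

end cyclo

section thirteen

variable (K : Type*) [Field K] [NumberField K] [IsCyclotomicExtension {13} ℚ K]

theorem fact_prime_thirteen : Fact (Nat.Prime 13) := ⟨by norm_num⟩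

attribute [local instance] fact_prime_thirteen

lemma sum13 : 1 + theta 13 K + theta 13 K ^ 2 + theta 13 K ^ 3 + theta 13 K ^ 4 + theta 13 K ^ 5
    + theta 13 K ^ 6 + theta 13 K ^ 7 + theta 13 K ^ 8 + theta 13 K ^ 9 + theta 13 K ^ 10
    + theta 13 K ^ 11 + theta 13 K ^ 12 = 0 := by
  have := sum_theta_pow 13 K
  simpa [Finset.sum_range_succ] using this

theorem prime53 : ∃ P ∈ primesOver (span {((53 : ℕ) : ℤ)}) (𝓞 K), Submodule.IsPrincipal P := by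
  have hr : (∑ i ∈ Finset.range 13, ((16 : ℤ) : ZMod 53) ^ i) = 0 := by decide
  have : Fact (Nat.Prime 53) := ⟨by norm_num⟩
  have hsum := sum13 K
  set θ := theta 13 K with hθ
  refine exists_isPrincipal_of_cert (not_dvd_exponent_theta 13 K 53) (X - C 16)
    (linear_mem_monicFactorsMod 13 K 53 16 hr)
    (1 - θ + θ ^ 3)
    (25 + 10 * θ + 19 * θ ^ 2 + 3 * θ ^ 3 + 2 * θ ^ 4 - 8 * θ ^ 5 - 2 * θ ^ 6 + 5 * θ ^ 7 + 22 * θ ^ 8 + 33 * θ ^ 9 + 37 * θ ^ 10 + 24 * θ ^ 11)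
    (-8 - 3 * θ - 6 * θ ^ 2 - θ ^ 3 - θ ^ 4 + 2 * θ ^ 5 - 2 * θ ^ 7 - 7 * θ ^ 8 - 10 * θ ^ 9 - 11 * θ ^ 10 - 7 * θ ^ 11)
    77 (255 + 16 * θ + θ ^ 2) ?_ ?_ ?_
  · push_cast
    linear_combination (-28 + 13 * θ + 24 * θ ^ 2) * hsum
  · rw [map_sub, aeval_X, aeval_C]
    simp only [algebraMap_int_eq, eq_intCast, Int.cast_ofNat, Int.cast_neg, Int.reduceNeg]
    linear_combination (8 - 4 * θ - 7 * θ ^ 2) * hsum
  · rw [map_sub, aeval_X, aeval_C]
    simp only [algebraMap_int_eq, eq_intCast, Int.cast_ofNat, Int.cast_neg, Int.reduceNeg]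
    push_cast
    ring

theorem prime79 : ∃ P ∈ primesOver (span {((79 : ℕ) : ℤ)}) (𝓞 K), Submodule.IsPrincipal P := by
  have hr : (∑ i ∈ Finset.range 13, ((-17 : ℤ) : ZMod 79) ^ i) = 0 := by decide
  have : Fact (Nat.Prime 79) := ⟨by norm_num⟩
  have hsum := sum13 K
  set θ := theta 13 K with hθ
  refine exists_isPrincipal_of_cert (not_dvd_exponent_theta 13 K 79) (X - C (-17))
    (linear_mem_monicFactorsMod 13 K 79 (-17) hr)
    (1 - θ - θ ^ 4)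
    (62 + 63 * θ + 49 * θ ^ 2 + 8 * θ ^ 3 + 29 * θ ^ 4 + 51 * θ ^ 5 + 59 * θ ^ 6 + 26 * θ ^ 7 + 14 * θ ^ 8 + 24 * θ ^ 9 + 42 * θ ^ 10 + 27 * θ ^ 11)
    (13 + 14 * θ + 11 * θ ^ 2 + 2 * θ ^ 3 + 6 * θ ^ 4 + 11 * θ ^ 5 + 13 * θ ^ 6 + 6 * θ ^ 7 + 3 * θ ^ 8 + 5 * θ ^ 9 + 9 * θ ^ 10 + 6 * θ ^ 11)
    (-1057) (4912 - 289 * θ + 17 * θ ^ 2 - θ ^ 3) ?_ ?_ ?_
  · push_cast
    linear_combination (-17 + 18 * θ - 15 * θ ^ 2 - 27 * θ ^ 3) * hsum
  · rw [map_sub, aeval_X, aeval_C]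
    simp only [algebraMap_int_eq, eq_intCast, Int.cast_ofNat, Int.cast_neg, Int.reduceNeg]
    linear_combination (-4 + 4 * θ - 3 * θ ^ 2 - 6 * θ ^ 3) * hsum
  · rw [map_sub, aeval_X, aeval_C]
    simp only [algebraMap_int_eq, eq_intCast, Int.cast_ofNat, Int.cast_neg, Int.reduceNeg]
    push_cast
    ring

theorem prime131 : ∃ P ∈ primesOver (span {((131 : ℕ) : ℤ)}) (𝓞 K), Submodule.IsPrincipal P := by
  have hr : (∑ i ∈ Finset.range 13, ((-51 : ℤ) : ZMod 131) ^ i) = 0 := by decide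
  have : Fact (Nat.Prime 131) := ⟨by norm_num⟩
  have hsum := sum13 K
  set θ := theta 13 K with hθ
  refine exists_isPrincipal_of_cert (not_dvd_exponent_theta 13 K 131) (X - C (-51))
    (linear_mem_monicFactorsMod 13 K 131 (-51) hr)
    (1 - θ - θ ^ 3)
    (111 + 78 * θ + 17 * θ ^ 2 + 67 * θ ^ 3 + 84 * θ ^ 4 + 40 * θ ^ 5 + 46 * θ ^ 6 + 69 * θ ^ 7 + 48 * θ ^ 8 + 33 * θ ^ 9 + 41 * θ ^ 10 + 28 * θ ^ 11)
    (43 + 31 * θ + 7 * θ ^ 2 + 26 * θ ^ 3 + 33 * θ ^ 4 + 16 * θ ^ 5 + 18 * θ ^ 6 + 27 * θ ^ 7 + 19 * θ ^ 8 + 13 * θ ^ 9 + 16 * θ ^ 10 + 11 * θ ^ 11)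
    1013 (-2602 + 51 * θ - θ ^ 2) ?_ ?_ ?_
  · push_cast
    linear_combination (-20 - 13 * θ - 28 * θ ^ 2) * hsum
  · rw [map_sub, aeval_X, aeval_C]
    simp only [algebraMap_int_eq, eq_intCast, Int.cast_ofNat, Int.cast_neg, Int.reduceNeg]
    linear_combination (-8 - 5 * θ - 11 * θ ^ 2) * hsum
  · rw [map_sub, aeval_X, aeval_C]
    simp only [algebraMap_int_eq, eq_intCast, Int.cast_ofNat, Int.cast_neg, Int.reduceNeg]
    push_cast
    ring

theorem prime157 : ∃ P ∈ primesOver (span {((157 : ℕ) : ℤ)}) (𝓞 K), Submodule.IsPrincipal P := by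
  have hr : (∑ i ∈ Finset.range 13, ((75 : ℤ) : ZMod 157) ^ i) = 0 := by decide
  have : Fact (Nat.Prime 157) := ⟨by norm_num⟩
  have hsum := sum13 K
  set θ := theta 13 K with hθ
  refine exists_isPrincipal_of_cert (not_dvd_exponent_theta 13 K 157) (X - C 75)
    (linear_mem_monicFactorsMod 13 K 157 75 hr)
    (1 - θ + θ ^ 2 + θ ^ 4)
    (89 + 86 * θ + 42 * θ ^ 2 + 77 * θ ^ 3 + 67 * θ ^ 4 + 25 * θ ^ 5 + 37 * θ ^ 6 + 56 * θ ^ 7 + 73 * θ ^ 8 + 113 * θ ^ 9 + 124 * θ ^ 10 + 76 * θ ^ 11)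
    (-43 - 41 * θ - 20 * θ ^ 2 - 37 * θ ^ 3 - 32 * θ ^ 4 - 12 * θ ^ 5 - 18 * θ ^ 6 - 27 * θ ^ 7 - 35 * θ ^ 8 - 54 * θ ^ 9 - 59 * θ ^ 10 - 36 * θ ^ 11)
    201568 (421949 + 5626 * θ + 75 * θ ^ 2 + θ ^ 3) ?_ ?_ ?_
  · push_cast
    linear_combination (-68 + 65 * θ + 48 * θ ^ 2 + 76 * θ ^ 3) * hsum
  · rw [map_sub, aeval_X, aeval_C]
    simp only [algebraMap_int_eq, eq_intCast, Int.cast_ofNat, Int.cast_neg, Int.reduceNeg]
    linear_combination (32 - 31 * θ - 23 * θ ^ 2 - 36 * θ ^ 3) * hsum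
  · rw [map_sub, aeval_X, aeval_C]
    simp only [algebraMap_int_eq, eq_intCast, Int.cast_ofNat, Int.cast_neg, Int.reduceNeg]
    push_cast
    ring

lemma irreducible_cubic_mod_three :
    Irreducible ((X ^ 3 + X ^ 2 - 1 : ℤ[X]).map (Int.castRingHom (ZMod 3))) := by
  have hroots : ∀ x : ZMod 3, ¬ x ^ 3 + x ^ 2 - 1 = 0 := by decide
  have : Fact (Nat.Prime 3) := ⟨by norm_num⟩
  have hmap : (X ^ 3 + X ^ 2 - 1 : ℤ[X]).map (Int.castRingHom (ZMod 3)) =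
      (X ^ 3 + X ^ 2 - 1 : (ZMod 3)[X]) := by simp
  rw [hmap]
  apply irreducible_of_degree_le_three_of_not_isRoot
  · have : (X ^ 3 + X ^ 2 - 1 : (ZMod 3)[X]).natDegree = 3 := by compute_degree!
    rw [this]; decide
  · intro x
    simp only [IsRoot.def, eval_sub, eval_add, eval_pow, eval_X, eval_one]
    exact hroots x

lemma cyclotomic13_eq :
    cyclotomic 13 ℤ = (X ^ 3 + X ^ 2 - 1) * (-1 - X + X ^ 2 - X ^ 4 + X ^ 6 + X ^ 7 + X ^ 9)
      + C ((3 : ℕ) : ℤ) * (X ^ 2 + X ^ 3 + X ^ 6 + X ^ 7) := by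
  rw [cyclotomic_prime]
  simp only [Finset.sum_range_succ, Finset.range_zero, Finset.sum_empty, Nat.cast_ofNat]
  rw [show (C (3 : ℤ) : ℤ[X]) = 3 from rfl]
  ring

theorem prime3 : ∃ P ∈ primesOver (span {((3 : ℕ) : ℤ)}) (𝓞 K), Submodule.IsPrincipal P := by
  have : Fact (Nat.Prime 3) := ⟨by norm_num⟩
  have hsum := sum13 K
  set θ := theta 13 K with hθ
  have hmonic : (X ^ 3 + X ^ 2 - 1 : ℤ[X]).Monic := by monicity!
  refine exists_isPrincipal_of_cert (not_dvd_exponent_theta 13 K 3) (X ^ 3 + X ^ 2 - 1)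
    (mem_monicFactorsMod_of 13 K 3 _ _ _ hmonic irreducible_cubic_mod_three cyclotomic13_eq)
    (1 - θ ^ 2 - θ ^ 3)
    (3 - θ + 2 * θ ^ 2 + θ ^ 3 + 2 * θ ^ 5 + θ ^ 7 + θ ^ 8 + θ ^ 10)
    (-1) 0 (-1) ?_ ?_ ?_
  · push_cast
    linear_combination (-θ) * hsum
  · simp only [map_sub, map_add, map_pow, aeval_X, map_one]
    ring
  · simp only [map_sub, map_add, map_pow, aeval_X, map_one]
    ring


set_option maxRecDepth 100000 in
lemma key_order : ∀ ℓ ∈ Finset.range 313, ∀ f ∈ Finset.range 13, 2 ≤ ℓ →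
    (∀ d ∈ [2, 3, 5, 7, 11, 13, 17], d ∣ ℓ → d = ℓ) →
    ℓ ≠ 3 → ℓ ≠ 13 → ℓ ≠ 53 → ℓ ≠ 79 → ℓ ≠ 131 → ℓ ≠ 157 →
    0 < f → ℓ ^ f ≤ 312 → ¬ (ℓ ^ f % 13 = 1) := by
  decide

lemma lt_pow_orderOf {ℓ : ℕ} (hℓ : ℓ.Prime) (h312 : ℓ ≤ 312)
    (h3 : ℓ ≠ 3) (h13 : ℓ ≠ 13) (h53 : ℓ ≠ 53) (h79 : ℓ ≠ 79) (h131 : ℓ ≠ 131) (h157 : ℓ ≠ 157) :
    312 < ℓ ^ orderOf (ℓ : ZMod 13) := by
  by_contra hcon
  rw [not_lt] at hcon
  have hne : (ℓ : ZMod 13) ≠ 0 := by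
    rw [Ne, ZMod.natCast_eq_zero_iff]
    intro hdvd
    exact h13 ((Nat.prime_dvd_prime_iff_eq (by norm_num) hℓ).mp hdvd).symm
  have h12 : (ℓ : ZMod 13) ^ 12 = 1 := ZMod.pow_card_sub_one_eq_one hne
  have hdvd : orderOf (ℓ : ZMod 13) ∣ 12 := orderOf_dvd_of_pow_eq_one h12
  have hpos : 0 < orderOf (ℓ : ZMod 13) := Nat.pos_of_dvd_of_pos hdvd (by norm_num)
  have hle : orderOf (ℓ : ZMod 13) ≤ 12 := Nat.le_of_dvd (by norm_num) hdvd
  have h1 : (ℓ : ZMod 13) ^ orderOf (ℓ : ZMod 13) = 1 := pow_orderOf_eq_one _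
  refine key_order ℓ (Finset.mem_range.mpr (by omega)) (orderOf (ℓ : ZMod 13))
    (Finset.mem_range.mpr (by omega)) hℓ.two_le ?_ h3 h13 h53 h79 h131 h157 hpos hcon ?_
  · intro d hd hdvd'
    have hdp : d.Prime := by
      simp only [List.mem_cons, List.not_mem_nil, or_false] at hd
      rcases hd with rfl | rfl | rfl | rfl | rfl | rfl | rfl <;> norm_num
    exact (Nat.prime_dvd_prime_iff_eq hdp hℓ).mp hdvd'
  · have h2 : ((ℓ ^ orderOf (ℓ : ZMod 13) : ℕ) : ZMod 13) = ((1 : ℕ) : ZMod 13) := by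
      push_cast
      exact h1
    rw [ZMod.natCast_eq_natCast_iff'] at h2
    simpa using h2

lemma minkowski_aux :
    (4 / Real.pi) ^ 6 * (((12 : ℕ).factorial : ℝ) / (12 : ℝ) ^ 12 * √|((13 : ℝ) ^ 11)|) < 313 := by
  have hpi : (3.14 : ℝ) < Real.pi := Real.pi_gt_d2
  have h1 : (4 / Real.pi) ^ 6 ≤ (4 / 3.14 : ℝ) ^ 6 := by
    gcongr
  have h2 : √|((13 : ℝ) ^ 11)| < 1338890 := by
    rw [abs_of_pos (by positivity), Real.sqrt_lt' (by norm_num)]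
    norm_num
  have h3 : (0 : ℝ) < ((12 : ℕ).factorial : ℝ) / (12 : ℝ) ^ 12 := by positivity
  calc (4 / Real.pi) ^ 6 * (((12 : ℕ).factorial : ℝ) / (12 : ℝ) ^ 12 * √|((13 : ℝ) ^ 11)|)
      ≤ (4 / 3.14 : ℝ) ^ 6 * (((12 : ℕ).factorial : ℝ) / (12 : ℝ) ^ 12 * 1338890) := by
        gcongr
    _ < 313 := by
        simp only [Nat.factorial]
        norm_num

lemma minkowski_floor_le :
    ⌊(4 / Real.pi) ^ InfinitePlace.nrComplexPlaces K *
      (((Module.finrank ℚ K).factorial : ℝ) / (Module.finrank ℚ K : ℝ) ^ Module.finrank ℚ K *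
        √|(discr K : ℝ)|)⌋₊ ≤ 312 := by
  have hfin : Module.finrank ℚ K = 12 := by
    rw [IsCyclotomicExtension.finrank (n := 13) K (cyclotomic.irreducible_rat (by norm_num)),
      Nat.totient_prime (by norm_num)]
  have hr2 : InfinitePlace.nrComplexPlaces K = 6 := by
    rw [IsCyclotomicExtension.Rat.nrComplexPlaces_eq_totient_div_two 13 K,
      Nat.totient_prime (by norm_num)]
  have hdisc : discr K = 13 ^ 11 := by
    rw [IsCyclotomicExtension.Rat.discr_prime 13 K]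
    norm_num
  rw [hfin, hr2, hdisc]
  rw [← Nat.lt_succ_iff, Nat.floor_lt (by positivity)]
  simp only [Int.cast_pow, Int.cast_ofNat, Nat.cast_ofNat]
  exact minkowski_aux

theorem thirteen_pid : IsPrincipalIdealRing (𝓞 K) := by
  have : IsGalois ℚ K := IsCyclotomicExtension.isGalois {13} ℚ K
  apply RingOfIntegers.isPrincipalIdealRing_of_isPrincipal_of_lt_or_isPrincipal_of_mem_primesOver_of_mem_Icc
  have hM := minkowski_floor_le K
  intro ℓ hℓ hprime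
  rw [Finset.mem_Icc] at hℓ
  have hℓ312 : ℓ ≤ 312 := hℓ.2.trans hM
  have : Fact ℓ.Prime := ⟨hprime⟩
  by_cases h13 : ℓ = 13
  · subst h13
    obtain ⟨⟨P, hP1, hP2⟩⟩ := (span {((13 : ℕ) : ℤ)}).nonempty_primesOver (S := 𝓞 K)
    refine ⟨P, ⟨hP1, hP2⟩, Or.inr ?_⟩
    rw [IsCyclotomicExtension.Rat.eq_span_zeta_sub_one_of_liesOver' 13 K
      (IsCyclotomicExtension.zeta_spec 13 ℚ K) P]
    exact ⟨_, rfl⟩
  by_cases h3 : ℓ = 3
  · subst h3
    obtain ⟨P, hP, hprin⟩ := prime3 K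
    exact ⟨P, hP, Or.inr hprin⟩
  by_cases h53 : ℓ = 53
  · subst h53
    obtain ⟨P, hP, hprin⟩ := prime53 K
    exact ⟨P, hP, Or.inr hprin⟩
  by_cases h79 : ℓ = 79
  · subst h79
    obtain ⟨P, hP, hprin⟩ := prime79 K
    exact ⟨P, hP, Or.inr hprin⟩
  by_cases h131 : ℓ = 131
  · subst h131
    obtain ⟨P, hP, hprin⟩ := prime131 K
    exact ⟨P, hP, Or.inr hprin⟩
  by_cases h157 : ℓ = 157
  · subst h157
    obtain ⟨P, hP, hprin⟩ := prime157 K
    exact ⟨P, hP, Or.inr hprin⟩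
  obtain ⟨⟨P, hP1, hP2⟩⟩ := (span {(ℓ : ℤ)}).nonempty_primesOver (S := 𝓞 K)
  refine ⟨P, ⟨hP1, hP2⟩, Or.inl ?_⟩
  have hnd : ¬ ℓ ∣ 13 := by
    intro hdvd
    exact h13 ((Nat.prime_dvd_prime_iff_eq hprime (by norm_num)).mp hdvd)
  rw [IsCyclotomicExtension.Rat.inertiaDeg_eq_of_not_dvd ℓ K P hnd]
  exact lt_of_le_of_lt hM (lt_pow_orderOf hprime hℓ312 h3 h13 h53 h79 h131 h157)

end thirteen

end Fermat.Agent.Kummer.PID13
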