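import Fermat.Agent.Kummer.Defs

/-!
# (D1) Reductions: from the two cases to Fermat, and from `FermatGen` to the second case

Generalisation of the corresponding part of Mathlib's treatment of the exponent `3`.
-/

set_option autoImplicit false

open NumberField

namespace Fermat.Agent.Kummer

namespace Red

lemma p_dvd_b_of_dvd_a_of_gcd_eq_one_of_case2 {p : ℕ} (hp : p.Prime) (hp2 : p ≠ 2) {a b c : ℤ}
    (ha : a ≠ 0) (Hgcd : Finset.gcd {a, b, c} id = 1) (hpa : (p : ℤ) ∣ a)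
    (HF : a ^ p + b ^ p + c ^ p = 0) (H : CaseIIHolds p) : (p : ℤ) ∣ b := by
  have hodd : Odd p := hp.odd_of_ne_two hp2
  have hpp : Prime (p : ℤ) := Nat.prime_iff_prime_int.mp hp
  have hbc : IsCoprime (-b) (-c) := by
    refine IsCoprime.neg_neg ?_
    rw [add_comm (a ^ p), add_assoc, add_comm (a ^ p), ← add_assoc] at HF
    refine isCoprime_of_gcd_eq_one_of_FLT ?_ HF
    convert! Hgcd using 2
    rw [Finset.pair_comm, Finset.insert_comm]
  by_contra! hpb
  by_cases hpc : (p : ℤ) ∣ c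
  · apply hpb
    rw [add_assoc, add_comm (b ^ p), ← add_assoc] at HF
    exact dvd_c_of_prime_of_dvd_a_of_dvd_b_of_FLT hpp hpa hpc HF
  · refine H (-b) (-c) a ha (by simp [hpb]) (by simp [hpc]) hpa hbc ?_
    rw [add_eq_zero_iff_eq_neg, ← hodd.neg_pow] at HF
    rw [hodd.neg_pow, hodd.neg_pow]
    have : a ^ p = -(b ^ p) - c ^ p := by
      have h := HF
      rw [hodd.neg_pow] at h
      linear_combination h
    rw [this]
    ring

open Finset in
lemma fermat_of_dvd_a_of_gcd_eq_one_of_case2 {p : ℕ} (hp : p.Prime) (hp2 : p ≠ 2) {a b c : ℤ}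
    (ha : a ≠ 0) (hpa : (p : ℤ) ∣ a) (Hgcd : Finset.gcd {a, b, c} id = 1)
    (H : CaseIIHolds p) : a ^ p + b ^ p + c ^ p ≠ 0 := by
  have hpp : Prime (p : ℤ) := Nat.prime_iff_prime_int.mp hp
  intro HF
  apply hpp.not_dvd_one
  rw [← Hgcd]
  refine dvd_gcd (fun x hx ↦ ?_)
  simp only [mem_insert, mem_singleton] at hx
  have hpb : (p : ℤ) ∣ b := by
    refine p_dvd_b_of_dvd_a_of_gcd_eq_one_of_case2 hp hp2 ha ?_ hpa HF H
    simp only [← Hgcd, gcd_insert, gcd_singleton, id_eq, ← Int.abs_eq_normalize]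
  rcases hx with hx | hx | hx
  · exact hx ▸ hpa
  · exact hx ▸ hpb
  · simpa [hx] using dvd_c_of_prime_of_dvd_a_of_dvd_b_of_FLT hpp hpa hpb HF

end Red

open Finset Int in
/-- Fermat for a prime exponent follows from the two cases. -/
theorem fermatLastTheoremFor_of_caseI_of_caseII {p : ℕ} (hp : p.Prime) (hp2 : p ≠ 2)
    (h1 : CaseIHolds p) (h2 : CaseIIHolds p) : FermatLastTheoremFor p := by
  have hodd : Odd p := hp.odd_of_ne_two hp2
  have hpp : Prime (p : ℤ) := Nat.prime_iff_prime_int.mp hp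
  rw [fermatLastTheoremFor_iff_int]
  refine fermatLastTheoremWith_of_fermatLastTheoremWith_coprime (fun a b c ha hb hc Hgcd hF ↦ ?_)
  have hF0 : a ^ p + b ^ p + (-c) ^ p = 0 := by
    rw [hodd.neg_pow, hF]; ring
  by_cases hdvd : (p : ℤ) ∣ a * b * c
  swap
  · refine h1 a b c ?_ hdvd hF
    refine isCoprime_of_gcd_eq_one_of_FLT ?_ hF0
    simp only [← Hgcd, gcd_insert, gcd_singleton, id_eq, ← abs_eq_normalize, abs_neg]
  rw [hpp.dvd_mul, hpp.dvd_mul] at hdvd
  rcases hdvd with (hpa | hpb) | hpc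
  · refine Red.fermat_of_dvd_a_of_gcd_eq_one_of_case2 hp hp2 ha hpa ?_ h2 hF0
    simp only [← Hgcd, gcd_insert, gcd_singleton, id_eq, ← abs_eq_normalize, abs_neg]
  · rw [add_comm (a ^ p)] at hF0
    refine Red.fermat_of_dvd_a_of_gcd_eq_one_of_case2 hp hp2 hb hpb ?_ h2 hF0
    simp only [← Hgcd, insert_comm, gcd_insert, gcd_singleton, id_eq, ← abs_eq_normalize, abs_neg]
  · rw [add_comm _ ((-c) ^ p), ← add_assoc] at hF0
    refine Red.fermat_of_dvd_a_of_gcd_eq_one_of_case2 hp hp2 (neg_ne_zero.2 hc) (by simp [hpc])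
      ?_ h2 hF0
    rw [Finset.insert_comm (-c), Finset.pair_comm (-c) b]
    simp only [← Hgcd, gcd_insert, gcd_singleton, id_eq, ← abs_eq_normalize, abs_neg]

/-- The second case follows from the generalised equation over `𝓞 K`. -/
theorem caseII_of_fermatGen {p : ℕ} [hp : Fact p.Prime] (hp2 : p ≠ 2) {K : Type*} [Field K]
    [NumberField K] [IsCyclotomicExtension {p} ℚ K] {ζ : K} (hζ : IsPrimitiveRoot ζ p)
    (h : FermatGen p hζ) : CaseIIHolds p := by
  intro a b c hc ha hb ⟨x, hx⟩ hcoprime hF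
  refine h a b c 1 (by simp [hc]) (fun hdvd ↦ ha ?_) (fun hdvd ↦ hb ?_) ?_ ?_ ?_
  · rwa [← Ideal.norm_dvd_iff (hζ.prime_norm_toInteger_sub_one_of_prime_ne_two' hp2),
      hζ.norm_toInteger_sub_one_of_prime_ne_two' hp2] at hdvd
  · rwa [← Ideal.norm_dvd_iff (hζ.prime_norm_toInteger_sub_one_of_prime_ne_two' hp2),
      hζ.norm_toInteger_sub_one_of_prime_ne_two' hp2] at hdvd
  · exact dvd_trans hζ.toInteger_sub_one_dvd_prime' ⟨x, by simp [hx]⟩
  · exact IsCoprime.intCast hcoprime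
  · simpa using mod_cast hF

end Fermat.Agent.Kummer
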