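import Fermat.Agent.Kummer.CaseI
import Fermat.Agent.Kummer.PID
import Fermat.Agent.Kummer.PID13
import Fermat.Agent.Kummer.KummerLemma
import Fermat.Agent.Kummer.Reduction
import Fermat.Agent.Kummer.CaseII

/-!
# Fermat for the exponents 5, 7, 11, 13: final assembly
-/

set_option autoImplicit false

open NumberField

namespace Fermat.Agent.Kummer

set_option backward.isDefEq.respectTransparency false in
/-- Assembly of the pieces for one exponent. -/
theorem fermatLastTheoremFor_of_pieces {p : ℕ} [hp : Fact p.Prime] (hp5 : 5 ≤ p)
    (h1 : CaseIHolds p)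
    (hpid : IsPrincipalIdealRing (𝓞 (CyclotomicField p ℚ)))
    (hKL : KummerLemmaHolds p (CyclotomicField p ℚ)) : FermatLastTheoremFor p := by
  have hp2 : p ≠ 2 := by omega
  refine fermatLastTheoremFor_of_caseI_of_caseII hp.out hp2 h1 ?_
  have hζ := IsCyclotomicExtension.zeta_spec p ℚ (CyclotomicField p ℚ)
  exact caseII_of_fermatGen hp2 hζ (fermatGen_of_pid_of_kummer hp5 hζ hKL)

set_option backward.isDefEq.respectTransparency false in
theorem fermatLastTheoremFor_eleven : FermatLastTheoremFor 11 := by
  have : Fact (Nat.Prime 11) := ⟨by norm_num⟩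
  exact fermatLastTheoremFor_of_pieces (by norm_num) caseI_eleven (eleven_pid _)
    (kummerLemma_eleven _)

set_option backward.isDefEq.respectTransparency false in
theorem fermatLastTheoremFor_five : FermatLastTheoremFor 5 := by
  have : Fact (Nat.Prime 5) := ⟨by norm_num⟩
  exact fermatLastTheoremFor_of_pieces (by norm_num) caseI_five
    (IsCyclotomicExtension.Rat.five_pid _) (kummerLemma_five _)

set_option backward.isDefEq.respectTransparency false in
theorem fermatLastTheoremFor_seven : FermatLastTheoremFor 7 := by
  have : Fact (Nat.Prime 7) := ⟨by norm_num⟩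
  exact fermatLastTheoremFor_of_pieces (by norm_num) caseI_seven (seven_pid _)
    (kummerLemma_seven _)

set_option backward.isDefEq.respectTransparency false in
theorem fermatLastTheoremFor_thirteen : FermatLastTheoremFor 13 := by
  have : Fact (Nat.Prime 13) := ⟨by norm_num⟩
  exact fermatLastTheoremFor_of_pieces (by norm_num) caseI_thirteen (PID13.thirteen_pid _)
    (kummerLemma_thirteen _)

/-- Integer form: no nontrivial integer solutions for an exponent for which Fermat holds. -/
theorem int_ne_of_fermatLastTheoremFor {n : ℕ} (h : FermatLastTheoremFor n) {a b c : ℤ}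
    (ha : a ≠ 0) (hb : b ≠ 0) (hc : c ≠ 0) : a ^ n + b ^ n ≠ c ^ n :=
  (fermatLastTheoremFor_iff_int.mp h) a b c ha hb hc

end Fermat.Agent.Kummer
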