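import Mathlib

/-!
# (D2-F4) Extraction of `k`-th powers from a product of pairwise coprime elements in a PID
-/

set_option autoImplicit false

namespace Fermat.Agent.Kummer.PowExtract

open Finset

/-- In a principal ideal domain, if the members of a finite family are pairwise coprime and their
product is a unit times a `k`-th power, then each member is a unit times a `k`-th power. -/
theorem exists_eq_unit_mul_pow {R : Type*} [CommRing R] [IsDomain R] [IsPrincipalIdealRing R]
    {ι : Type*} (s : Finset ι) (f : ι → R)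
    (hcop : (s : Set ι).Pairwise (fun i j => IsCoprime (f i) (f j))) (u : Rˣ) (d : R) (k : ℕ)
    (h : ∏ i ∈ s, f i = u * d ^ k) : ∀ i ∈ s, ∃ (ε : Rˣ) (ρ : R), f i = ε * ρ ^ k := by
  classical
  intro i hi
  rw [← insert_erase hi, prod_insert (notMem_erase i s)] at h
  have hc : IsCoprime (f i) (∏ j ∈ s.erase i, f j) := by
    refine IsCoprime.prod_right fun j hj => hcop hi (erase_subset i s hj) fun hij => ?_
    rw [hij] at hj
    exact (s.notMem_erase _) hj
  have hassoc : Associated (d ^ k) (f i * ∏ j ∈ s.erase i, f j) := by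
    rw [h]
    exact ⟨u, by rw [mul_comm]⟩
  obtain ⟨ρ, hρ⟩ := exists_associated_pow_of_associated_pow_mul hc hassoc
  obtain ⟨ε, hε⟩ := hρ
  exact ⟨ε, ρ, by rw [← hε, mul_comm]⟩

/-- Variant with `Associated`. -/
theorem exists_associated_pow {R : Type*} [CommRing R] [IsDomain R] [IsPrincipalIdealRing R]
    {ι : Type*} (s : Finset ι) (f : ι → R)
    (hcop : (s : Set ι).Pairwise (fun i j => IsCoprime (f i) (f j))) (d : R) (k : ℕ)
    (h : Associated (∏ i ∈ s, f i) (d ^ k)) : ∀ i ∈ s, ∃ ρ : R, Associated (ρ ^ k) (f i) := by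
  intro i hi
  obtain ⟨v, hv⟩ := h.symm
  obtain ⟨ε, ρ, hρ⟩ := exists_eq_unit_mul_pow s f hcop v d k (by rw [← hv, mul_comm]) i hi
  exact ⟨ρ, ε, by rw [hρ, mul_comm]⟩

end Fermat.Agent.Kummer.PowExtract
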