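import Mathlib

/-!
# Torsion units of the `p`-th cyclotomic field: squares are powers of `ζ`

For `p` an odd prime and `K` a `p`-th cyclotomic extension of `ℚ`, the torsion of `(𝓞 K)ˣ` has
order `2 p`, so the square of a torsion unit is a power of the unit `ζ`.  Also `p` is not a unit.
-/

set_option autoImplicit false
set_option linter.unusedSectionVars false
set_option linter.style.haveILetI false

open NumberField NumberField.Units

namespace Fermat.Agent.Kummer.TorsionSq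

variable {p : ℕ} [hp : Fact p.Prime] {K : Type*} [Field K] [NumberField K]
  [hK : IsCyclotomicExtension {p} ℚ K] {ζ : K} (hζ : IsPrimitiveRoot ζ p)

/-- The unit `ζ` of `𝓞 K`. -/
noncomputable def zetaUnit : (𝓞 K)ˣ :=
  haveI : NeZero p := ⟨hp.out.ne_zero⟩
  (hζ.toInteger_isPrimitiveRoot.isUnit hp.out.ne_zero).unit

theorem coe_zetaUnit : ((zetaUnit hζ : (𝓞 K)ˣ) : 𝓞 K) = hζ.toInteger := rfl

theorem zetaUnit_isPrimitiveRoot : IsPrimitiveRoot (zetaUnit hζ) p :=
  haveI : NeZero p := ⟨hp.out.ne_zero⟩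
  IsPrimitiveRoot.isUnit_unit hp.out.ne_zero hζ.toInteger_isPrimitiveRoot

include hζ in
/-- The square of a torsion unit is a power of `ζ`. -/
theorem exists_zpow_eq_sq_of_mem_torsion (hp2 : p ≠ 2) {w : (𝓞 K)ˣ} (hw : w ∈ torsion K) :
    ∃ k : ℤ, w ^ 2 = zetaUnit hζ ^ k := by
  haveI : NeZero p := ⟨hp.out.ne_zero⟩
  have hodd : ¬ Even p := by
    rw [Nat.not_even_iff_odd]
    exact hp.out.odd_of_ne_two hp2
  have hord : torsionOrder K = 2 * p := by
    rw [IsCyclotomicExtension.Rat.torsionOrder_eq (n := p) (K := K), if_neg hodd]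
  have hw' : w ∈ rootsOfUnity (torsionOrder K) (𝓞 K) := by
    rw [rootsOfUnity_eq_torsion]; exact hw
  rw [mem_rootsOfUnity, hord, pow_mul] at hw'
  have hmem : w ^ 2 ∈ rootsOfUnity p (𝓞 K) := by
    rw [mem_rootsOfUnity]; exact hw'
  rw [← (zetaUnit_isPrimitiveRoot hζ).zpowers_eq, Subgroup.mem_zpowers_iff] at hmem
  obtain ⟨k, hk⟩ := hmem
  exact ⟨k, hk.symm⟩

include hζ in
/-- `p` is not a unit of `𝓞 K`. -/
theorem not_isUnit_natCast : ¬ IsUnit (p : 𝓞 K) := by
  haveI : NeZero p := ⟨hp.out.ne_zero⟩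
  intro h
  have hprime : Prime (hζ.toInteger - 1) := hζ.zeta_sub_one_prime'
  have hdvd : (hζ.toInteger - 1) ∣ (p : 𝓞 K) :=
    (dvd_pow_self _ (Nat.sub_ne_zero_of_lt hp.out.one_lt)).trans
      (IsCyclotomicExtension.Rat.associated_zeta_sub_one_pow_prime p hζ).dvd
  exact hprime.not_isUnit (isUnit_of_dvd_unit hdvd h)

end Fermat.Agent.Kummer.TorsionSq
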