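import Mathlib

/-!
# (C1) Units modulo `p`-th powers

For a number field `K`, the unit group `(𝓞 K)ˣ` is generated by `rank K + 1` elements (Dirichlet
plus cyclicity of the torsion).  Hence a family of `rank K + 1` units that is independent modulo
`p`-th powers generates the units modulo `p`-th powers.  For the `p`-th cyclotomic field,
`rank K + 1 = (p - 1) / 2`.

Main statements (namespace `Fermat.Agent.Kummer.UMP`):
* `exists_eq_sum_add_smul_of_indep` : the abstract abelian-group statement.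
* `units_eq_prod_mul_pow` : the statement for units of a number field.
* `rank_add_one_cyclotomic` : `rank K + 1 = (p - 1) / 2`.
-/

set_option autoImplicit false

open NumberField NumberField.Units

namespace Fermat.Agent.Kummer.UMP


theorem exists_eq_sum_add_smul_of_indep_aux {M V : Type*} [AddCommGroup M] [AddCommGroup V]
    {n : ℕ} (p : ℕ) [hp : Fact p.Prime] [Module (ZMod p) V] (π : M →+ V)
    (hπsurj : Function.Surjective π) (hπ0 : ∀ x : M, π x = 0 ↔ ∃ v : M, x = (p : ℤ) • v)
    (s : Fin n → M) (hs : Submodule.span ℤ (Set.range s) = ⊤)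
    (g : Fin n → M)
    (hg : ∀ a : Fin n → ℤ, (∃ v : M, ∑ i, a i • g i = (p : ℤ) • v) → ∀ i, (p : ℤ) ∣ a i)
    (u : M) : ∃ (a : Fin n → ℤ) (v : M), u = ∑ i, a i • g i + (p : ℤ) • v := by
  classical
  have hsmul : ∀ (a : ℤ) (x : M), ((a : ZMod p)) • π x = π (a • x) := by
    intro a x
    rw [Int.cast_smul_eq_zsmul, map_zsmul]
  -- the images of `s` span
  have hspan : Submodule.span (ZMod p) (Set.range (π ∘ s)) = ⊤ := by
    rw [eq_top_iff]
    rintro x -
    obtain ⟨x, rfl⟩ := hπsurj x
    have hx : x ∈ Submodule.span ℤ (Set.range s) := by rw [hs]; trivial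
    rw [Submodule.mem_span_range_iff_exists_fun] at hx
    obtain ⟨c, rfl⟩ := hx
    rw [map_sum]
    refine Submodule.sum_mem _ fun i _ => ?_
    rw [← hsmul]
    exact Submodule.smul_mem _ _ (Submodule.subset_span ⟨i, rfl⟩)
  have hfin : Module.Finite (ZMod p) V :=
    ⟨⟨(Finset.univ.image (π ∘ s)), by rw [Finset.coe_image, Finset.coe_univ, Set.image_univ, hspan]⟩⟩
  -- independence of the images of `g`
  have hli : LinearIndependent (ZMod p) (π ∘ g) := by
    rw [Fintype.linearIndependent_iff]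
    intro c hc i
    have h1 : ∀ j, c j = ((c j).val : ℤ) := fun j => by simp
    have h2 : π (∑ j, ((c j).val : ℤ) • g j) = 0 := by
      rw [map_sum, ← hc]
      refine Finset.sum_congr rfl fun j _ => ?_
      rw [← hsmul, ← h1]
      rfl
    rw [hπ0] at h2
    have := hg _ h2 i
    rw [h1 i]
    exact (ZMod.intCast_zmod_eq_zero_iff_dvd _ p).2 this
  have hcard : Fintype.card (Fin n) = Module.finrank (ZMod p) V := by
    apply le_antisymm
    · exact hli.fintype_card_le_finrank
    · have h1 : (Set.range (π ∘ s)).finrank (ZMod p) ≤ Fintype.card (Fin n) :=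
        finrank_range_le_card (π ∘ s)
      rw [Set.finrank, hspan, finrank_top] at h1
      exact h1
  have hgspan := hli.span_eq_top_of_card_eq_finrank' hcard
  have hu : π u ∈ Submodule.span (ZMod p) (Set.range (π ∘ g)) := by rw [hgspan]; trivial
  rw [Submodule.mem_span_range_iff_exists_fun] at hu
  obtain ⟨c, hc⟩ := hu
  have h1 : ∀ j, c j = ((c j).val : ℤ) := fun j => by simp
  have h3 : π (u - ∑ j, ((c j).val : ℤ) • g j) = 0 := by
    rw [map_sub, map_sum, ← hc, sub_eq_zero]
    refine Finset.sum_congr rfl fun j _ => ?_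
    rw [← hsmul, ← h1]
    rfl
  rw [hπ0] at h3
  obtain ⟨v, hv⟩ := h3
  exact ⟨fun j => ((c j).val : ℤ), v, by rw [← hv]; abel⟩

/-- Abstract statement: in an abelian group generated by `n` elements, a family of `n` elements
that is independent modulo `p` generates the group modulo `p`. -/
theorem exists_eq_sum_add_smul_of_indep {M : Type*} [AddCommGroup M] {n : ℕ} (p : ℕ)
    [hp : Fact p.Prime] (s : Fin n → M) (hs : Submodule.span ℤ (Set.range s) = ⊤)
    (g : Fin n → M)
    (hg : ∀ a : Fin n → ℤ, (∃ v : M, ∑ i, a i • g i = (p : ℤ) • v) → ∀ i, (p : ℤ) ∣ a i)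
    (u : M) : ∃ (a : Fin n → ℤ) (v : M), u = ∑ i, a i • g i + (p : ℤ) • v := by
  classical
  have hH : ∀ x : M, x ∈ (zsmulAddGroupHom (α := M) (p : ℤ)).range ↔ ∃ v : M, x = (p : ℤ) • v := by
    intro x
    constructor
    · rintro ⟨v, rfl⟩; exact ⟨v, rfl⟩
    · rintro ⟨v, rfl⟩; exact ⟨v, rfl⟩
  have hπ0 : ∀ x : M, QuotientAddGroup.mk' (zsmulAddGroupHom (α := M) (p : ℤ)).range x = 0 ↔
      ∃ v : M, x = (p : ℤ) • v := by
    intro x
    rw [← hH]
    exact QuotientAddGroup.eq_zero_iff x
  have hπsurj : Function.Surjective (QuotientAddGroup.mk' (zsmulAddGroupHom (α := M) (p : ℤ)).range) :=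
    QuotientAddGroup.mk'_surjective _
  have hpV : ∀ x : M ⧸ (zsmulAddGroupHom (α := M) (p : ℤ)).range, p • x = 0 := by
    intro x
    obtain ⟨x, rfl⟩ := hπsurj x
    rw [← map_nsmul, hπ0]
    exact ⟨x, by simp⟩
  let _ : Module (ZMod p) (M ⧸ (zsmulAddGroupHom (α := M) (p : ℤ)).range) :=
    AddCommGroup.zmodModule hpV
  exact exists_eq_sum_add_smul_of_indep_aux p _ hπsurj hπ0 s hs g hg u



variable {K : Type*} [Field K] [NumberField K]

/-- The unit group of a number field is generated (as an abelian group) by `rank K + 1`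
elements. -/
theorem exists_generators_units :
    ∃ s : Fin (rank K + 1) → Additive (𝓞 K)ˣ, Submodule.span ℤ (Set.range s) = ⊤ := by
  classical
  obtain ⟨τ, hτ⟩ := IsCyclic.exists_generator (α := torsion K)
  refine ⟨Fin.cons (Additive.ofMul (τ : (𝓞 K)ˣ)) (fun i => Additive.ofMul (fundSystem K i)), ?_⟩
  rw [eq_top_iff]
  rintro x -
  obtain ⟨⟨ζ, e⟩, hx, -⟩ := exist_unique_eq_mul_prod K (Additive.toMul x)
  obtain ⟨k, hk⟩ := Subgroup.mem_zpowers_iff.1 (hτ ζ)
  have hx' : x = k • Additive.ofMul (τ : (𝓞 K)ˣ) +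
      ∑ i, e i • Additive.ofMul (fundSystem K i) := by
    apply Additive.toMul.injective
    rw [hx]
    simp only [toMul_add, toMul_zsmul, toMul_ofMul, toMul_sum]
    rw [← hk]
    simp
  rw [hx']
  refine Submodule.add_mem _ (Submodule.smul_mem _ _ (Submodule.subset_span ⟨0, ?_⟩))
    (Submodule.sum_mem _ fun i _ => Submodule.smul_mem _ _ (Submodule.subset_span ⟨i.succ, ?_⟩))
  · simp
  · simp

/-- **(C1)** If `g : Fin n → (𝓞 K)ˣ` with `n = rank K + 1` is independent modulo `p`-th powers,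
then every unit is a product of powers of the `g i` times a `p`-th power. -/
theorem units_eq_prod_mul_pow (p : ℕ) [Fact p.Prime] {n : ℕ} (hn : rank K + 1 = n)
    (g : Fin n → (𝓞 K)ˣ)
    (hg : ∀ a : Fin n → ℤ, (∃ v : (𝓞 K)ˣ, ∏ i, g i ^ a i = v ^ p) → ∀ i, (p : ℤ) ∣ a i)
    (u : (𝓞 K)ˣ) : ∃ (a : Fin n → ℤ) (v : (𝓞 K)ˣ), u = (∏ i, g i ^ a i) * v ^ p := by
  subst hn
  obtain ⟨s, hs⟩ := exists_generators_units (K := K)
  have key := exists_eq_sum_add_smul_of_indep (M := Additive (𝓞 K)ˣ) p s hs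
    (fun i => Additive.ofMul (g i)) ?_ (Additive.ofMul u)
  · obtain ⟨a, v, hv⟩ := key
    refine ⟨a, Additive.toMul v, ?_⟩
    have := congrArg Additive.toMul hv
    simpa using this
  · intro a ⟨v, hv⟩ i
    apply hg a ⟨Additive.toMul v, ?_⟩
    have := congrArg Additive.toMul hv
    simpa using this



theorem rank_add_one_cyclotomic (p : ℕ) [hp : Fact p.Prime] (hp2 : p ≠ 2) (K : Type*) [Field K]
    [NumberField K] [IsCyclotomicExtension {p} ℚ K] : rank K + 1 = (p - 1) / 2 := by
  have h2 : 2 < p := lt_of_le_of_ne hp.out.two_le (Ne.symm hp2)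
  have hr : InfinitePlace.nrRealPlaces K = 0 := IsCyclotomicExtension.Rat.nrRealPlaces_eq_zero K h2
  have hc : InfinitePlace.nrComplexPlaces K = Nat.totient p / 2 :=
    IsCyclotomicExtension.Rat.nrComplexPlaces_eq_totient_div_two p K
  have hcard : Fintype.card (InfinitePlace K) = (p - 1) / 2 := by
    rw [InfinitePlace.card_eq_nrRealPlaces_add_nrComplexPlaces, hr, hc, zero_add,
      Nat.totient_prime hp.out]
  rw [rank, hcard]
  have : 1 ≤ (p - 1) / 2 := by omega
  omega

end Fermat.Agent.Kummer.UMP
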